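import Fermat.Agent.PT.LocalAPI
import Fermat.Agent.PT.TUnits
import Fermat.Agent.Ext.Places
import Fermat.Agent.Alg.Frobenius

/-!
The dictionary between the orbits of the local Galois groups on the cosets of an open subgroup and
the places of its fixed field.
-/

set_option autoImplicit false
set_option linter.unusedSectionVars false
set_option linter.style.haveILetI false

noncomputable section

open IntermediateField NumberField
open scoped Pointwise

namespace FLTAgent.PT

open FLTAgent.Common (QBar)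

/-- the fixed field -/
abbrev Fld (H : Subgroup GQ) : IntermediateField ℚ (AlgebraicClosure ℚ) := fixedField H

variable {H : Subgroup GQ}

theorem IsOpenSub.closed (hH : IsOpenSub (MonoidHom.id GQ) H) :
    IsOpen (H : Set GQ) ∧ IsClosed (H : Set GQ) := by
  obtain ⟨F, hF, hle⟩ := hH
  have ho : IsOpen (H : Set GQ) := Subgroup.isOpen_mono (by simpa using hle) F.fixingSubgroup_isOpen
  exact ⟨ho, Subgroup.isClosed_of_isOpen H ho⟩

theorem IsOpenSub.fixingSubgroup_fld (hH : IsOpenSub (MonoidHom.id GQ) H) :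
    (Fld H).fixingSubgroup = H := by
  haveI := FLTAgent.Common.isGalois_qbar
  exact InfiniteGalois.fixingSubgroup_fixedField ⟨H, hH.closed.2⟩

theorem IsOpenSub.finite_fld (hH : IsOpenSub (MonoidHom.id GQ) H) :
    FiniteDimensional ℚ (Fld H) := by
  haveI := FLTAgent.Common.isGalois_qbar
  obtain ⟨F, hF, hle⟩ := hH
  haveI := hF
  have : Fld H ≤ F := by
    rw [← InfiniteGalois.fixedField_fixingSubgroup F]
    exact fun x hx => (IntermediateField.mem_fixedField_iff _ _).mpr fun g hg =>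
      (IntermediateField.mem_fixedField_iff _ _).mp hx g (hle hg)
  exact Module.Finite.of_injective (IntermediateField.inclusion this).toLinearMap
    (IntermediateField.inclusion this).injective

theorem IsOpenSub.numberField (hH : IsOpenSub (MonoidHom.id GQ) H) : NumberField (Fld H) :=
  { to_finiteDimensional := hH.finite_fld }

/-- the embedding attached to a coset -/
def emb (x : GQ ⧸ H) : Fld H →ₐ[ℚ] AlgebraicClosure ℚ :=
  Quotient.liftOn' x (fun a => (a : GQ).toAlgHom.comp (Fld H).val) fun a b hab =>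
    AlgHom.ext fun y => by
      rw [QuotientGroup.leftRel_apply] at hab
      have h := (IntermediateField.mem_fixedField_iff _ _).mp y.2 _ hab
      show a (y : AlgebraicClosure ℚ) = b (y : AlgebraicClosure ℚ)
      conv_lhs => rw [← h]
      exact a.apply_symm_apply _

theorem emb_mk (a : GQ) (y : Fld H) : emb (a : GQ ⧸ H) y = a (y : AlgebraicClosure ℚ) := rfl

theorem emb_one (y : Fld H) : emb ((1 : GQ) : GQ ⧸ H) y = (y : AlgebraicClosure ℚ) := rfl

theorem emb_smul (g : GQ) (x : GQ ⧸ H) (y : Fld H) : emb (g • x) y = g (emb x y) := by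
  induction x using QuotientGroup.induction_on with
  | H a => rfl

theorem emb_bijective (hH : IsOpenSub (MonoidHom.id GQ) H) :
    Function.Bijective (emb : GQ ⧸ H → (Fld H →ₐ[ℚ] AlgebraicClosure ℚ)) := by
  haveI := FLTAgent.Common.isGalois_qbar
  refine ⟨fun x y h => ?_, fun f => ?_⟩
  · induction x using QuotientGroup.induction_on with
    | H a =>
      induction y using QuotientGroup.induction_on with
      | H b =>
        rw [QuotientGroup.eq]
        rw [← hH.fixingSubgroup_fld, IntermediateField.mem_fixingSubgroup_iff]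
        intro z hz
        have h1 : a z = b z := DFunLike.congr_fun h ⟨z, hz⟩
        show a⁻¹ (b z) = z
        rw [← h1]
        exact a.symm_apply_apply z
  · haveI : Algebra.IsAlgebraic ℚ (AlgebraicClosure ℚ) := FLTAgent.Common.isAlgebraic_qbar
    haveI : Normal ℚ (AlgebraicClosure ℚ) := IsGalois.to_normal
    obtain ⟨g, hg⟩ : ∃ g : AlgebraicClosure ℚ →ₐ[ℚ] AlgebraicClosure ℚ,
        ∀ y : Fld H, g (y : AlgebraicClosure ℚ) = f y :=
      ⟨f.liftNormal (AlgebraicClosure ℚ), fun y => f.liftNormal_commutes (AlgebraicClosure ℚ) y⟩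
    exact ⟨((AlgEquiv.ofBijective g (Algebra.IsAlgebraic.algHom_bijective g) : GQ) : GQ ⧸ H),
      AlgHom.ext hg⟩

theorem card_quotient (hH : IsOpenSub (MonoidHom.id GQ) H) :
    Nat.card (GQ ⧸ H) = Module.finrank ℚ (Fld H) := by
  haveI := hH.finite_fld
  rw [Nat.card_congr (Equiv.ofBijective _ (emb_bijective hH)), Nat.card_eq_fintype_card,
    AlgHom.card]

section Infinite

/-- complex conjugation orbits -/
def orbInf (H : Subgroup GQ) : ℕ :=
  Nat.card (Quotient (MulAction.orbitRel (ExtCitation.archimedeanLoc).range (GQ ⧸ H)))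

/-- the complex embedding of a coset -/
def embC (x : GQ ⧸ H) : Fld H →+* ℂ :=
  (complexEmbedding : AlgebraicClosure ℚ →+* ℂ).comp (emb x).toRingHom

theorem embC_conj (x : GQ ⧸ H) :
    embC (complexConjugation • x) = ComplexEmbedding.conjugate (embC x) :=
  RingHom.ext fun y => by
    show complexEmbedding (emb (complexConjugation • x) y) = starRingEnd ℂ (embC x y)
    rw [emb_smul, complexEmbedding_complexConjugation]
    rfl

theorem orbInf_eq (hH : IsOpenSub (MonoidHom.id GQ) H) :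
    haveI := hH.numberField
    orbInf H = Fintype.card (InfinitePlace (Fld H)) := by
  classical
  haveI := hH.numberField
  haveI : Finite (GQ ⧸ H) := Nat.finite_of_card_ne_zero
    (by rw [card_quotient hH]; exact Module.finrank_pos.ne')
  have hinj : Function.Injective (embC : GQ ⧸ H → (Fld H →+* ℂ)) := fun x y h =>
    (emb_bijective hH).1 (AlgHom.ext fun z =>
      complexEmbedding.injective (RingHom.congr_fun h z))
  have hbij : Function.Bijective (embC : GQ ⧸ H → (Fld H →+* ℂ)) := by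
    haveI := Fintype.ofFinite (GQ ⧸ H)
    rw [Fintype.bijective_iff_injective_and_card]
    refine ⟨hinj, ?_⟩
    rw [← Nat.card_eq_fintype_card, card_quotient hH, Embeddings.card]
  rw [← Nat.card_eq_fintype_card]
  refine Nat.card_congr (Equiv.ofBijective
    (Quotient.lift (fun x => InfinitePlace.mk (embC x)) ?_) ⟨?_, ?_⟩)
  · rintro x y ⟨⟨g, k, rfl⟩, rfl⟩
    obtain ⟨n, hn⟩ := k.2
    show InfinitePlace.mk (embC ((k : GQ) • y)) = InfinitePlace.mk (embC y)
    rw [← hn]
    rcases n.even_or_odd with ⟨m, hm⟩ | ⟨m, hm⟩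
    · show InfinitePlace.mk (embC (complexConjugation ^ n • y)) = _
      rw [hm, ← two_mul, zpow_mul, zpow_two, complexConjugation_mul_self, one_zpow, one_smul]
    · show InfinitePlace.mk (embC (complexConjugation ^ n • y)) = _
      rw [hm, zpow_add, zpow_mul, zpow_two, complexConjugation_mul_self, one_zpow, one_mul, zpow_one,
        embC_conj, InfinitePlace.mk_conjugate_eq]
  · rintro ⟨x⟩ ⟨y⟩ h
    rcases InfinitePlace.mk_eq_iff.mp h with h1 | h1
    · exact congrArg _ (hinj h1)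
    · rw [← embC_conj] at h1
      exact (Quotient.sound' (s₁ := MulAction.orbitRel (ExtCitation.archimedeanLoc).range (GQ ⧸ H))
        ⟨⟨complexConjugation, ExtCitation.archimedeanGen, rfl⟩, hinj h1⟩).symm
  · intro w
    obtain ⟨x, hx⟩ := hbij.2 w.embedding
    exact ⟨Quotient.mk'' x, by show InfinitePlace.mk (embC x) = w; rw [hx, InfinitePlace.mk_embedding]⟩

end Infinite

section Places

open FLTAgent.Ext FLTAgent.Common
open IsDedekindDomain

/-- the chosen place above `q` -/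
abbrev plc (q : Nat.Primes) : ValuationSubring (AlgebraicClosure ℚ) := ExtCitation.primeLocalPlace q

theorem lies_plc (q : Nat.Primes) : (plc q).LiesOverPrime (q : ℕ) := by
  haveI : Fact (q : ℕ).Prime := ⟨q.2⟩
  show ((q : ℕ) : AlgebraicClosure ℚ) ∈ (plc q).nonunits
  rw [ValuationSubring.mem_nonunits_iff]
  have hle : (plc q).valuation ((q : ℕ) : AlgebraicClosure ℚ) ≤ 1 :=
    ((plc q).valuation_le_one_iff _).mpr (natCast_mem _ _)
  refine lt_of_le_of_ne hle fun heq => ?_
  have hmem : (((q : ℕ) : AlgebraicClosure ℚ))⁻¹ ∈ plc q :=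
    ((plc q).valuation_le_one_iff _).mp (by rw [map_inv₀, heq, inv_one])
  have h : ‖padicEmbedding (q : ℕ) (((q : ℕ) : AlgebraicClosure ℚ))⁻¹‖₊ ≤ 1 := hmem
  rw [map_inv₀, map_natCast, nnnorm_inv] at h
  have hn : ‖((q : ℕ) : PadicAlgCl (q : ℕ))‖ = ((q : ℕ) : ℝ)⁻¹ := by
    rw [← map_natCast (algebraMap ℚ_[(q : ℕ)] (PadicAlgCl (q : ℕ))),
      PadicAlgCl.norm_extends (q : ℕ), Padic.norm_p]
  have h' : (‖((q : ℕ) : PadicAlgCl (q : ℕ))‖)⁻¹ ≤ 1 := by exact_mod_cast h
  rw [hn, inv_inv] at h'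
  exact absurd (Nat.cast_le_one.mp h') (not_le.mpr q.2.one_lt)

theorem nonunits_iff {L : Type*} [Field L] {A B : ValuationSubring L} {σ : L ≃+* L}
    (h : ∀ x, x ∈ A ↔ σ x ∈ B) (x : L) : x ∈ A.nonunits ↔ σ x ∈ B.nonunits := by
  rcases eq_or_ne x 0 with rfl | hx
  · simp
  · have key : ∀ (C : ValuationSubring L) (y : L), y ≠ 0 → (y ∈ C.nonunits ↔ y⁻¹ ∉ C) := by
      intro C y hy
      rw [ValuationSubring.mem_nonunits_iff, ← C.valuation_le_one_iff, map_inv₀,
        inv_le_one₀ (zero_lt_iff.mpr ((map_ne_zero _).mpr hy)), not_le]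
    rw [key A x hx, key B (σ x) (by simpa using hx), h, map_inv₀]

theorem eq_of_centre_le {A B : ValuationSubring QBar} {q : ℕ} (hq : q.Prime)
    (hA : A.LiesOverPrime q) (h : ∀ s : ZBar, s ∈ centre B → s ∈ centre A) {x : QBar}
    (hx : x ∈ A) : x ∈ B := by
  obtain ⟨s, hs, hsx⟩ := exists_unit_denominator A hx hq hA
  have h1 : B.valuation (s : QBar) = 1 :=
    le_antisymm ((B.valuation_le_one_iff _).mpr (SS2.integral_mem B s.2))
      (not_lt.mp fun hlt => hs (mem_centre.mp (h s (mem_centre.mpr (B.mem_nonunits_iff.mpr hlt)))))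
  have h2 := (B.valuation_le_one_iff _).mpr (SS2.integral_mem B hsx)
  rw [map_mul, h1, one_mul] at h2
  exact (B.valuation_le_one_iff _).mp h2

/-- all places above a prime are conjugate -/
theorem exists_conj {A B : ValuationSubring QBar} {q : ℕ} (hq : q.Prime)
    (hA : A.LiesOverPrime q) (hB : B.LiesOverPrime q) : ∃ σ : GQ, ∀ x, x ∈ A ↔ σ x ∈ B := by
  have := FLTAgent.Alg.qb_isGalois
  haveI := FLTAgent.Alg.int_isInvariant
  haveI := centre_isPrime A
  haveI := centre_isPrime B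
  have key : ∀ W : ValuationSubring QBar, W.LiesOverPrime q →
      (centre W).under ℤ = Ideal.span {(q : ℤ)} := by
    intro W hW
    haveI := centre_isPrime W
    have hle : Ideal.span {(q : ℤ)} ≤ (centre W).under ℤ := by
      rw [Ideal.span_singleton_le_iff_mem, Ideal.mem_comap, mem_centre]
      simpa [ValuationSubring.LiesOverPrime] using hW
    exact ((PrincipalIdealRing.isMaximal_of_irreducible
      (Nat.prime_iff_prime_int.mp hq).irreducible).eq_of_le (Ideal.IsPrime.under ℤ _).ne_top hle).symm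
  letI : TopologicalSpace ZBar := ⊥
  haveI : DiscreteTopology ZBar := ⟨rfl⟩
  haveI : ContinuousSMul GalQ ZBar := by
    rw [continuousSMul_iff_stabilizer_isOpen]
    intro b
    have h1 := stabilizer_isOpen_of_isIntegral (K := ℚ) (L := QBar) (b : QBar)
    have : (MulAction.stabilizer GalQ b : Set GalQ)
        = (MulAction.stabilizer GalQ (b : QBar) : Set GalQ) := by
      ext g
      exact Subtype.ext_iff
    rw [this]
    exact h1
  haveI : TotallyDisconnectedSpace GalQ := by
    haveI := krullTopology_isTotallySeparated (K := ℚ) (L := QBar)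
    infer_instance
  haveI : SMulCommClass GalQ ℤ ZBar := ⟨fun g n b => smul_comm g n b⟩
  obtain ⟨g, hg⟩ := Algebra.IsInvariant.exists_smul_of_under_eq_of_profinite (A := ℤ) (G := GalQ)
    (centre A) (centre B) ((key A hA).trans (key B hB).symm)
  refine ⟨g, fun x => ?_⟩
  have hmem : ∀ s : ZBar, g • s ∈ centre B ↔ s ∈ centre A := fun s => by
    rw [hg, Ideal.smul_mem_pointwise_smul_iff]
  constructor
  · intro hx
    show x ∈ B.comap (g : QBar ≃ₐ[ℚ] QBar).toRingHom
    exact eq_of_centre_le hq hA (fun s hs => (hmem s).mp (mem_centre.mpr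
      ((nonunits_iff (A := B.comap (g : QBar ≃ₐ[ℚ] QBar).toRingHom) (B := B)
        (σ := (g : QBar ≃ₐ[ℚ] QBar).toRingEquiv) (fun _ => Iff.rfl) _).mp (mem_centre.mp hs)))) hx
  · intro hx
    have hC : ∀ y, y ∈ B.comap (g : QBar ≃ₐ[ℚ] QBar).toRingHom ↔ g y ∈ B := fun _ => Iff.rfl
    refine eq_of_centre_le hq (A := B.comap (g : QBar ≃ₐ[ℚ] QBar).toRingHom) ?_ (fun s hs => ?_)
      ((hC x).mpr hx)
    · refine (nonunits_iff (σ := (g : QBar ≃ₐ[ℚ] QBar).toRingEquiv) hC _).mpr ?_
      simpa [ValuationSubring.LiesOverPrime] using hB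
    · exact mem_centre.mpr ((nonunits_iff (σ := (g : QBar ≃ₐ[ℚ] QBar).toRingEquiv) hC _).mpr
        (mem_centre.mp ((hmem s).mpr hs)))

variable [NumberField ↥(Fld H)]

/-- the prime of the fixed field at a coset -/
def primeAt (q : Nat.Primes) (x : GQ ⧸ H) : Prm (Fld H) :=
  ⟨centreAt (emb x).toRingHom (plc q), centreAt_isPrime _ _,
    centreAt_ne_bot _ q.2.ne_zero (lies_plc q)⟩

theorem mem_primeAt {q : Nat.Primes} {x : GQ ⧸ H} {a : 𝓞 (Fld H)} :
    a ∈ (primeAt q x).asIdeal ↔ (plc q).valuation (emb x (a : Fld H)) < 1 :=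
  mem_centreAt _

theorem natCast_mem_primeAt (q : Nat.Primes) (x : GQ ⧸ H) :
    ((q : ℕ) : 𝓞 (Fld H)) ∈ (primeAt q x).asIdeal :=
  natCast_mem_centreAt _ (lies_plc q)

/-- the prime over `q` in a prime is unique -/
theorem prime_eq_of_mem {v : Prm (Fld H)} {q q' : Nat.Primes}
    (h : ((q : ℕ) : 𝓞 (Fld H)) ∈ v.asIdeal) (h' : ((q' : ℕ) : 𝓞 (Fld H)) ∈ v.asIdeal) : q = q' := by
  by_contra hne
  obtain ⟨m, n, hmn⟩ := (Int.isCoprime_iff_nat_coprime (a := ((q : ℕ) : ℤ)) (b := ((q' : ℕ) : ℤ))).mpr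
    (by simpa using (Nat.coprime_primes q.2 q'.2).mpr fun e => hne (Subtype.ext e))
  refine v.isPrime.ne_top (v.asIdeal.eq_top_iff_one.mpr ?_)
  have e := congrArg (fun z : ℤ => (z : 𝓞 (Fld H))) hmn
  push_cast at e
  rw [← e]
  exact add_mem (v.asIdeal.mul_mem_left _ h) (v.asIdeal.mul_mem_left _ h')

theorem decomposition_valuation_lt {q : Nat.Primes} {d : GQ}
    (hd : d ∈ (plc q).decompositionSubgroup ℚ) (x : AlgebraicClosure ℚ) :
    (plc q).valuation (d x) < 1 ↔ (plc q).valuation x < 1 := by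
  rw [← ValuationSubring.mem_nonunits_iff, ← ValuationSubring.mem_nonunits_iff]
  have hd' : d • plc q = plc q := hd
  refine (nonunits_iff (σ := (d : QBar ≃ₐ[ℚ] QBar).toRingEquiv) (fun y => ?_) x).symm
  conv_rhs => rw [← hd']
  exact (ValuationSubring.smul_mem_pointwise_smul_iff).symm

theorem primeAt_smul (q : Nat.Primes) (g : Gam q) (x : GQ ⧸ H) :
    primeAt q (loc q g • x) = primeAt q x := by
  refine IsDedekindDomain.HeightOneSpectrum.ext (Ideal.ext fun a => ?_)
  rw [mem_primeAt, mem_primeAt, emb_smul,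
    decomposition_valuation_lt (by rw [← range_loc q]; exact ⟨g, rfl⟩)]

theorem exists_orbit_of_primeAt_eq (hH : IsOpenSub (MonoidHom.id GQ) H) {q : Nat.Primes}
    {x y : GQ ⧸ H} (h : primeAt q x = primeAt q y) : ∃ g : Gam q, loc q g • x = y := by
  induction x using QuotientGroup.induction_on with
  | H a =>
  induction y using QuotientGroup.induction_on with
  | H b =>
  haveI := hH.finite_fld
  set M : IntermediateField ℚ (AlgebraicClosure ℚ) :=
    (Fld H).map (a : AlgebraicClosure ℚ ≃ₐ[ℚ] AlgebraicClosure ℚ).toAlgHom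
  haveI : FiniteDimensional ℚ M := Module.Finite.equiv ((Fld H).equivMap _).toLinearEquiv
  have hσ : ∀ s : ZBar, (s : QBar) ∈ M →
      ((s : QBar) ∈ (plc q).nonunits ↔ (b * a⁻¹) (s : QBar) ∈ (plc q).nonunits) := by
    intro s hs
    obtain ⟨z, hz, hza⟩ := hs
    have hint : IsIntegral ℤ (⟨z, hz⟩ : Fld H) := by
      rw [← isIntegral_algHom_iff ((((a : QBar ≃ₐ[ℚ] QBar).toAlgHom.comp (Fld H).val)).restrictScalars ℤ)
        (RingHom.injective _)]
      show IsIntegral ℤ (a z)
      rw [show a z = (s : QBar) from hza]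
      exact s.2
    have h0 : (⟨⟨z, hz⟩, hint⟩ : 𝓞 (Fld H)) ∈ (primeAt q (a : GQ ⧸ H)).asIdeal ↔
        (⟨⟨z, hz⟩, hint⟩ : 𝓞 (Fld H)) ∈ (primeAt q (b : GQ ⧸ H)).asIdeal := by rw [h]
    have h1 : (plc q).valuation (a z) < 1 ↔ (plc q).valuation (b z) < 1 :=
      (mem_primeAt (x := (a : GQ ⧸ H))).symm.trans (h0.trans (mem_primeAt (x := (b : GQ ⧸ H))))
    rw [← show a z = (s : QBar) from hza, ValuationSubring.mem_nonunits_iff,
      ValuationSubring.mem_nonunits_iff, AlgEquiv.mul_apply]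
    exact h1.trans (by rw [show (a⁻¹ : GQ) (a z) = z from a.symm_apply_apply z])
  obtain ⟨g, hg, hgx⟩ := exists_decomposition_lift M q.2 (lies_plc q) (b * a⁻¹) hσ
  rw [← range_loc q] at hg
  obtain ⟨g', rfl⟩ := hg
  refine ⟨g', QuotientGroup.eq.mpr ?_⟩
  rw [← hH.fixingSubgroup_fld, IntermediateField.mem_fixingSubgroup_iff]
  intro z hz
  show (loc q g' * a)⁻¹ (b z) = z
  have e := hgx (a z) ⟨z, hz, rfl⟩
  rw [AlgEquiv.mul_apply, show (a⁻¹ : GQ) (a z) = z from a.symm_apply_apply z] at e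
  rw [← e]
  exact (loc q g' * a).symm_apply_apply z

theorem exists_primeAt_eq {q : Nat.Primes} (v : Prm (Fld H))
    (hv : ((q : ℕ) : 𝓞 (Fld H)) ∈ v.asIdeal) : ∃ x : GQ ⧸ H, primeAt q x = v := by
  haveI := v.isMaximal
  obtain ⟨A, hA⟩ := exists_centreAt_eq ((Fld H).val.toRingHom) v.asIdeal
  have hlies : A.LiesOverPrime (q : ℕ) := by
    have h1 : ((q : ℕ) : 𝓞 (Fld H)) ∈ centreAt ((Fld H).val.toRingHom) A := hA ▸ hv
    rw [mem_centreAt] at h1
    rw [ValuationSubring.LiesOverPrime, ValuationSubring.mem_nonunits_iff]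
    simpa using h1
  obtain ⟨σ, hσ⟩ := exists_conj q.2 hlies (lies_plc q)
  refine ⟨(σ : GQ ⧸ H), IsDedekindDomain.HeightOneSpectrum.ext (Ideal.ext fun a => ?_)⟩
  rw [mem_primeAt, emb_mk, ← hA, mem_centreAt, ← ValuationSubring.mem_nonunits_iff,
    ← ValuationSubring.mem_nonunits_iff]
  exact (nonunits_iff (σ := (σ : QBar ≃ₐ[ℚ] QBar).toRingEquiv) hσ _).symm

theorem card_pOver (hH : IsOpenSub (MonoidHom.id GQ) H) (q : Nat.Primes) :
    Nat.card {v : Prm (Fld H) // ((q : ℕ) : 𝓞 (Fld H)) ∈ v.asIdeal} = orbitCount q H := by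
  refine (Nat.card_congr (Equiv.ofBijective (Quotient.lift
    (fun x => (⟨primeAt q x, natCast_mem_primeAt q x⟩ :
      {v : Prm (Fld H) // ((q : ℕ) : 𝓞 (Fld H)) ∈ v.asIdeal})) ?_) ⟨?_, ?_⟩)).symm
  · rintro x y ⟨⟨_, g, rfl⟩, rfl⟩
    exact Subtype.ext (primeAt_smul q g y)
  · rintro ⟨x⟩ ⟨y⟩ h
    obtain ⟨g, hg⟩ := exists_orbit_of_primeAt_eq hH (congrArg Subtype.val h)
    exact (Quotient.sound' (s₁ := MulAction.orbitRel (loc q).range (GQ ⧸ H))
      ⟨⟨loc q g, g, rfl⟩, hg⟩).symm
  · rintro ⟨v, hv⟩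
    obtain ⟨x, hx⟩ := exists_primeAt_eq v hv
    exact ⟨Quotient.mk'' x, Subtype.ext hx⟩

theorem finite_quotient_fld (hH : IsOpenSub (MonoidHom.id GQ) H) : Finite (GQ ⧸ H) :=
  Nat.finite_of_card_ne_zero (by
    haveI := hH.finite_fld
    rw [card_quotient hH]; exact Module.finrank_pos.ne')

theorem finite_pOver (hH : IsOpenSub (MonoidHom.id GQ) H) (T : Finset Nat.Primes) :
    {v : Prm (Fld H) | ∃ q ∈ T, ((q : ℕ) : 𝓞 (Fld H)) ∈ v.asIdeal}.Finite := by
  haveI := finite_quotient_fld hH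
  refine ((T.finite_toSet.prod (Set.finite_univ (α := GQ ⧸ H))).image fun z =>
    primeAt z.1 z.2).subset ?_
  rintro v ⟨q, hq, hv⟩
  obtain ⟨x, rfl⟩ := exists_primeAt_eq v hv
  exact ⟨(q, x), ⟨hq, trivial⟩, rfl⟩

/-- the primes over a set of rational primes -/
def pOver (hH : IsOpenSub (MonoidHom.id GQ) H) (T : Finset Nat.Primes) : Finset (Prm (Fld H)) :=
  (finite_pOver hH T).toFinset

theorem mem_pOver (hH : IsOpenSub (MonoidHom.id GQ) H) {T : Finset Nat.Primes} {v : Prm (Fld H)} :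
    v ∈ pOver hH T ↔ ∃ q ∈ T, ((q : ℕ) : 𝓞 (Fld H)) ∈ v.asIdeal :=
  Set.Finite.mem_toFinset _

theorem primeAt_mem_pOver (hH : IsOpenSub (MonoidHom.id GQ) H) {T : Finset Nat.Primes}
    {q : Nat.Primes} {x : GQ ⧸ H} : primeAt q x ∈ pOver hH T ↔ q ∈ T := by
  rw [mem_pOver]
  exact ⟨fun ⟨r, hr, hv⟩ => prime_eq_of_mem hv (natCast_mem_primeAt q x) ▸ hr,
    fun hq => ⟨q, hq, natCast_mem_primeAt q x⟩⟩

theorem card_pOver_set (hH : IsOpenSub (MonoidHom.id GQ) H) (T : Finset Nat.Primes) :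
    (pOver hH T).card = ∑ q ∈ T, orbitCount q H := by
  classical
  rw [Finset.sum_congr rfl fun q _ => (card_pOver hH q).symm]
  induction T using Finset.induction_on with
  | empty =>
    rw [Finset.sum_empty, Finset.card_eq_zero, Finset.eq_empty_iff_forall_notMem]
    intro v hv
    obtain ⟨q, hq, -⟩ := (mem_pOver hH).mp hv
    exact Finset.notMem_empty q hq
  | insert q T hq ih =>
    have hfin : {v : Prm (Fld H) | ((q : ℕ) : 𝓞 (Fld H)) ∈ v.asIdeal}.Finite :=
      (finite_pOver hH {q}).subset fun v hv => ⟨q, Finset.mem_singleton_self q, hv⟩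
    have hc : Nat.card {v : Prm (Fld H) // ((q : ℕ) : 𝓞 (Fld H)) ∈ v.asIdeal} =
        hfin.toFinset.card := Nat.card_eq_card_finite_toFinset hfin
    rw [Finset.sum_insert hq, ← ih, hc, ← Finset.card_union_of_disjoint]
    · congr 1
      ext v
      simp [mem_pOver, or_and_right, exists_or]
    · rw [Finset.disjoint_left]
      intro v hv hv'
      obtain ⟨r, hr, hrv⟩ := (mem_pOver hH).mp hv'
      exact hq (prime_eq_of_mem (hfin.mem_toFinset.mp hv) hrv ▸ hr)

theorem valuation_emb_eq_one (q : Nat.Primes) (x : GQ ⧸ H) {y : (Fld H)ˣ}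
    (h : ordv (primeAt q x) (Additive.ofMul y) = 0) :
    (plc q).valuation (emb x (y : Fld H)) = 1 := by
  rw [ordv_eq_zero_iff] at h
  obtain ⟨a, b, hab⟩ :=
    IsDedekindDomain.HeightOneSpectrum.exists_primeCompl_mul_eq_of_integer (primeAt q x)
      (y : Fld H) h.le
  have hb : b.1 ∉ (primeAt q x).asIdeal := b.2
  have ha : a ∉ (primeAt q x).asIdeal := by
    rw [← IsDedekindDomain.HeightOneSpectrum.valuation_eq_one_iff_notMem (K := Fld H), ← hab,
      map_mul, h, one_mul, IsDedekindDomain.HeightOneSpectrum.valuation_eq_one_iff_notMem]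
    exact hb
  have hunit : ∀ c : 𝓞 (Fld H), c ∉ (primeAt q x).asIdeal →
      (plc q).valuation (emb x (c : Fld H)) = 1 := fun c hc =>
    le_antisymm (Ext.valuation_le_one _ _ c) (not_lt.mp fun hlt => hc (mem_primeAt.mpr hlt))
  have e := congrArg (fun z : Fld H => (plc q).valuation (emb x z)) hab
  simp only [map_mul] at e
  rw [hunit b.1 hb, mul_one] at e
  exact e.trans (hunit a ha)

end Places

end FLTAgent.PT
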