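import Fermat.Agent.PT.Global.LocalUnr

/-!
The `T`-units as classes: dimension, the classes unramified outside `T`, good sets of primes.
-/

set_option autoImplicit false
set_option linter.unusedSectionVars false
set_option linter.style.haveILetI false

noncomputable section

open CategoryTheory groupCohomology IntermediateField NumberField NumberField.InfinitePlace
  IsDedekindDomain

namespace FLTAgent.PT

variable {p : ℕ} [Fact p.Prime] {H : Subgroup GQ}

/-- the orbit spaces are finite -/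
theorem OpenMu.finite_orb (hG : OpenMu p H) (q : Nat.Primes) : Finite (Orb q H) :=
  haveI := hG.finite
  inferInstance

/-- the places over a set of primes -/
def plT (hG : OpenMu p H) (T : Finset Nat.Primes) : Finset (Pl H) :=
  haveI := fun q => @Fintype.ofFinite (Orb q H) (hG.finite_orb q)
  T.sigma fun _ => Finset.univ

theorem mem_plT {hG : OpenMu p H} {T : Finset Nat.Primes} {v : Pl H} :
    v ∈ plT hG T ↔ v.1 ∈ T := by
  simp [plT]

theorem card_plT (hG : OpenMu p H) (T : Finset Nat.Primes) :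
    (plT hG T).card = ∑ q ∈ T, orbitCount q H := by
  rw [plT, Finset.card_sigma]
  refine Finset.sum_congr rfl fun q _ => ?_
  exact (@Finset.card_univ _ (_)).trans (@Nat.card_eq_fintype_card _ (_)).symm

variable [NumberField ↥(Fld H)]

/-- the prime of a place -/
def pr (v : Pl H) : Prm (Fld H) := primeAt v.1 v.2.out

theorem primeAt_eq_pr (q : Nat.Primes) (x : GQ ⧸ H) :
    primeAt q x = pr (⟨q, orb q x⟩ : Pl H) := by
  obtain ⟨g, hg⟩ := orb_eq_iff.1 (orb q x).out_eq'.symm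
  show primeAt q x = primeAt q (orb q x).out
  conv_lhs => rw [← hg, primeAt_smul]

theorem pr_injective (hG : OpenMu p H) : Function.Injective (pr : Pl H → Prm (Fld H)) := by
  rintro ⟨q, O⟩ ⟨q', O'⟩ h
  obtain rfl : q = q' :=
    prime_eq_of_mem (natCast_mem_primeAt q O.out)
      ((show primeAt q O.out = primeAt q' O'.out from h) ▸ natCast_mem_primeAt q' O'.out)
  obtain ⟨g, hg⟩ := exists_orbit_of_primeAt_eq hG.opn (show primeAt q O.out = primeAt q O'.out from h)
  congr 1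
  rw [← O.out_eq', ← O'.out_eq']
  exact (orb_eq_iff.2 ⟨g, hg⟩).symm

theorem exists_natCast_mem (v : Prm (Fld H)) :
    ∃ q : Nat.Primes, ((q : ℕ) : 𝓞 (Fld H)) ∈ v.asIdeal := by
  set N := Ideal.absNorm v.asIdeal
  have hN : N ≠ 0 := Ideal.absNorm_eq_zero_iff.not.mpr v.ne_bot
  have hmem : (((N.primeFactorsList.prod : ℕ)) : 𝓞 (Fld H)) ∈ v.asIdeal := by
    rw [Nat.prod_primeFactorsList hN]
    exact Ideal.absNorm_mem _
  have key : ∀ l : List ℕ, (∀ x ∈ l, x.Prime) → ((l.prod : ℕ) : 𝓞 (Fld H)) ∈ v.asIdeal →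
      ∃ q : Nat.Primes, ((q : ℕ) : 𝓞 (Fld H)) ∈ v.asIdeal := by
    intro l
    induction l with
    | nil =>
      intro _ h
      rw [List.prod_nil, Nat.cast_one] at h
      exact absurd ((Ideal.eq_top_iff_one _).2 h) v.isPrime.ne_top
    | cons a l ih =>
      intro hl h
      rw [List.prod_cons, Nat.cast_mul] at h
      rcases v.isPrime.mem_or_mem h with h' | h'
      · exact ⟨⟨a, hl a (List.mem_cons_self ..)⟩, h'⟩
      · exact ih (fun x hx => hl x (List.mem_cons_of_mem _ hx)) h'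
  exact key _ (fun x hx => Nat.prime_of_mem_primeFactorsList hx) hmem

theorem pr_surjective : Function.Surjective (pr : Pl H → Prm (Fld H)) := by
  intro v
  obtain ⟨q, hq⟩ := exists_natCast_mem v
  obtain ⟨x, rfl⟩ := exists_primeAt_eq v hq
  exact ⟨_, (primeAt_eq_pr q x).symm⟩

/-- the order at a place -/
def ord (v : Pl H) : Additive (Fld H)ˣ →+ ℤ := ordv (pr v)

theorem ordAt_eq_ord (q : Nat.Primes) (x : GQ ⧸ H) (y : (Fld H)ˣ) :
    ordAt q x y = ord (⟨q, orb q x⟩ : Pl H) (Additive.ofMul y) := by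
  rw [ordAt, primeAt_eq_pr]; rfl

theorem finite_ord_support (hG : OpenMu p H) (y : (Fld H)ˣ) :
    {v : Pl H | ord v (Additive.ofMul y) ≠ 0}.Finite := by
  have h1 := HeightOneSpectrum.Support.finite (R := 𝓞 (Fld H)) (K := Fld H) (y : Fld H)
  have h2 := HeightOneSpectrum.Support.finite (R := 𝓞 (Fld H)) (K := Fld H)
    ((y⁻¹ : (Fld H)ˣ) : Fld H)
  refine ((h1.union h2).preimage (pr_injective hG).injOn).subset fun v hv => ?_
  have hne : (pr v).valuation (Fld H) (y : Fld H) ≠ 1 := fun h => hv ((ordv_eq_zero_iff _ _).2 h)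
  rcases lt_or_gt_of_ne hne with h | h
  · refine Or.inr ?_
    show 1 < (pr v).valuation (Fld H) ((y⁻¹ : (Fld H)ˣ) : Fld H)
    rw [Units.val_inv_eq_inv_val, map_inv₀]
    exact one_lt_inv_iff₀.2 ⟨zero_lt_iff.2 ((map_ne_zero _).2 y.ne_zero), h⟩
  · exact Or.inl h

/-- the primes of a set of places -/
def prs (hG : OpenMu p H) (T : Finset (Pl H)) : Finset (Prm (Fld H)) :=
  T.map ⟨pr, pr_injective hG⟩

theorem pr_mem_prs {hG : OpenMu p H} {T : Finset (Pl H)} {v : Pl H} :
    pr v ∈ prs hG T ↔ v ∈ T := Finset.mem_map' _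

theorem mem_TU_prs {hG : OpenMu p H} {T : Finset (Pl H)} {y : (Fld H)ˣ} :
    y ∈ TU (prs hG T) ↔ ∀ v, v ∉ T → ord v (Additive.ofMul y) = 0 := by
  rw [mem_TU]
  refine ⟨fun h v hv => (ordv_eq_zero_iff _ _).2 (h _ (mt pr_mem_prs.1 hv)), fun h w hw => ?_⟩
  obtain ⟨v, rfl⟩ := pr_surjective w
  exact (ordv_eq_zero_iff _ _).1 (h v (mt pr_mem_prs.2 hw))

/-- the classes of the `T`-units -/
def KT (hG : OpenMu p H) (T : Finset (Pl H)) : Submodule (ZMod p) (G1 p H) :=
  AddSubgroup.toZModSubmodule p ((Subgroup.toAddSubgroup (TU (prs hG T))).map (kappa hG))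

theorem mem_KT {hG : OpenMu p H} {T : Finset (Pl H)} {a : G1 p H} :
    a ∈ KT hG T ↔ ∃ y : (Fld H)ˣ, (∀ v, v ∉ T → ord v (Additive.ofMul y) = 0) ∧
      kappa hG (Additive.ofMul y) = a := by
  constructor
  · rintro ⟨y, hy, rfl⟩
    exact ⟨Additive.toMul y, mem_TU_prs.1 hy, rfl⟩
  · rintro ⟨y, hy, rfl⟩
    exact ⟨Additive.ofMul y, mem_TU_prs.2 hy, rfl⟩

theorem KT_mono (hG : OpenMu p H) {T T' : Finset (Pl H)} (h : T ⊆ T') :
    KT hG T ≤ KT hG T' := fun a ha => by
  obtain ⟨y, hy, rfl⟩ := mem_KT.1 ha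
  exact mem_KT.2 ⟨y, fun v hv => hy v fun h' => hv (h h'), rfl⟩

theorem isPrimitiveRoot_zeta_fld (hG : OpenMu p H) :
    IsPrimitiveRoot (⟨zeta p, mem_fld.2 fun _ hh => hG.fix_zeta hh⟩ : Fld H) p :=
  IsPrimitiveRoot.coe_submonoidClass_iff.mp zeta_spec

theorem nrComplex_eq (hp2 : p ≠ 2) (hG : OpenMu p H) :
    InfinitePlace.nrComplexPlaces (Fld H) = H.index / 2 ∧ orbInf H = H.index / 2 := by
  have h1 := InfinitePlace.card_add_two_mul_card_eq_rank (Fld H)
  have h0 : InfinitePlace.nrRealPlaces (Fld H) = 0 :=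
    IsPrimitiveRoot.nrRealPlaces_eq_zero_of_two_lt (by have := (Fact.out : p.Prime).two_le; omega)
      (isPrimitiveRoot_zeta_fld hG)
  have h2 := InfinitePlace.card_eq_nrRealPlaces_add_nrComplexPlaces (Fld H)
  have h3 : H.index = Module.finrank ℚ (Fld H) := card_quotient hG.opn
  have h4 := orbInf_eq hG.opn
  constructor
  · omega
  · rw [h4]
    omega

theorem card_KT (hp2 : p ≠ 2) (hG : OpenMu p H) (T : Finset (Pl H)) :
    Nat.card (KT hG T) = p ^ (T.card + H.index / 2) := by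
  have h := index_pow_TU (Fact.out : p.Prime) hp2 (isPrimitiveRoot_zeta_fld hG) (prs hG T)
  rw [prs, Finset.card_map, (nrComplex_eq hp2 hG).1] at h
  rw [← h]
  show Nat.card ((Subgroup.toAddSubgroup (TU (prs hG T))).map (kappa hG)) = _
  set f : TU (prs hG T) →* Multiplicative (G1 p H) :=
    (AddMonoidHom.toMultiplicativeRight (kappa hG)).comp (TU (prs hG T)).subtype
  have hker : f.ker = (powMonoidHom p : ↥(TU (prs hG T)) →* ↥(TU (prs hG T))).range := by
    ext y
    constructor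
    · intro hy
      have hy0 : kappa hG (Additive.ofMul (y : (Fld H)ˣ)) = 0 := hy
      obtain ⟨z, hz⟩ := (kappa_eq_zero_iff hG _).1 hy0
      have hzT : z ∈ TU (prs hG T) := mem_TU.2 fun v hv => by
        have e := mem_TU.1 y.2 v hv
        rw [← hz, Units.val_pow_eq_pow_val, map_pow] at e
        exact (pow_eq_one_iff_left (Fact.out : p.Prime).ne_zero).1 e
      exact ⟨⟨z, hzT⟩, Subtype.ext hz⟩
    · rintro ⟨z, rfl⟩
      exact (kappa_eq_zero_iff hG _).2 ⟨z.1, rfl⟩
  refine Eq.trans ?_ ((congrArg Subgroup.index hker).trans rfl)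
  rw [Subgroup.index_ker]
  exact Nat.card_congr
    { toFun := fun a => ⟨Multiplicative.ofAdd a.1, by
        obtain ⟨y, hy, e⟩ := a.2
        exact ⟨⟨Additive.toMul y, hy⟩, congrArg Multiplicative.ofAdd e⟩⟩
      invFun := fun b => ⟨Multiplicative.toAdd b.1, by
        obtain ⟨y, e⟩ := b.2
        exact ⟨Additive.ofMul (y : (Fld H)ˣ), y.2, congrArg Multiplicative.toAdd e⟩⟩
      left_inv := fun _ => rfl
      right_inv := fun _ => rfl }

theorem finite_KT (hp2 : p ≠ 2) (hG : OpenMu p H) (T : Finset (Pl H)) :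
    Finite (KT hG T) :=
  Nat.finite_of_card_ne_zero (by
    rw [card_KT hp2 hG T]
    exact pow_ne_zero _ (Fact.out : p.Prime).ne_zero)

theorem finrank_KT (hp2 : p ≠ 2) (hG : OpenMu p H) (T : Finset (Pl H)) :
    Module.finrank (ZMod p) (KT hG T) = T.card + H.index / 2 := by
  haveI := finite_KT hp2 hG T
  have h := card_KT hp2 hG T
  rw [Module.natCard_eq_pow_finrank (K := ZMod p) (V := KT hG T), Nat.card_zmod] at h
  exact Nat.pow_right_injective (Fact.out : p.Prime).two_le h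

/-- the prime `p` -/
def pP (p : ℕ) [Fact p.Prime] : Nat.Primes := ⟨p, Fact.out⟩

/-- sets of primes containing `p` and the ramified ones, outside which every divisor is principal -/
structure GoodT (hG : OpenMu p H) (T : Finset Nat.Primes) : Prop where
  mem_p : pP p ∈ T
  unr : ∀ q, q ∉ T → UnrFld q H
  triv : TrivCl (prs hG (plT hG T))

theorem GoodT.ne_p {hG : OpenMu p H} {T : Finset Nat.Primes} (h : GoodT hG T) {q : Nat.Primes}
    (hq : q ∉ T) : (q : ℕ) ≠ p := fun e => hq (by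
  have : q = pP p := Subtype.ext e
  exact this ▸ h.mem_p)

theorem GoodT.mono {hG : OpenMu p H} {T T' : Finset Nat.Primes} (h : GoodT hG T) (hT : T ⊆ T') :
    GoodT hG T' :=
  ⟨hT h.mem_p, fun q hq => h.unr q fun h' => hq (hT h'), h.triv.mono fun w hw => by
    obtain ⟨v, hv, rfl⟩ := Finset.mem_map.1 hw
    exact pr_mem_prs.2 (mem_plT.2 (hT (mem_plT.1 hv)))⟩

theorem exists_goodT (hG : OpenMu p H) (T : Finset Nat.Primes) :
    ∃ T', T ⊆ T' ∧ GoodT hG T' := by
  classical
  obtain ⟨U, -, hU⟩ := exists_trivCl (K := Fld H) ∅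
  choose q hq using fun w : Prm (Fld H) => exists_natCast_mem w
  refine ⟨T ∪ ({pP p} ∪ (finite_not_unrFld hG.opn).toFinset ∪ U.image q),
    Finset.subset_union_left,
    ⟨Finset.mem_union_right _ (Finset.mem_union_left _ (Finset.mem_union_left _
      (Finset.mem_singleton_self _))), fun r hr => ?_, hU.mono fun w hw => ?_⟩⟩
  · by_contra h
    exact hr (Finset.mem_union_right _ (Finset.mem_union_left _ (Finset.mem_union_right _
      ((finite_not_unrFld hG.opn).mem_toFinset.2 h))))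
  · obtain ⟨v, rfl⟩ := pr_surjective w
    refine pr_mem_prs.2 (mem_plT.2 (Finset.mem_union_right _ (Finset.mem_union_right _
      (Finset.mem_image.2 ⟨_, hw, ?_⟩))))
    exact prime_eq_of_mem (hq (pr v)) (natCast_mem_primeAt v.1 v.2.out)

/-- prescribed orders outside a good set -/
theorem GoodT.exists_ord {hG : OpenMu p H} {T : Finset Nat.Primes} (h : GoodT hG T)
    (e : Pl H →₀ ℤ) : ∃ y : (Fld H)ˣ, ∀ v : Pl H, v.1 ∉ T → ord v (Additive.ofMul y) = e v := by
  obtain ⟨y, hy⟩ := h.triv.exists_ord (e.embDomain ⟨pr, pr_injective hG⟩)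
  refine ⟨y, fun v hv => (hy (pr v) fun hm => hv (mem_plT.1 (pr_mem_prs.1 hm))).trans ?_⟩
  exact Finsupp.embDomain_apply_self _ _ _

/-- the classes unramified outside a good set are those of its units -/
theorem H1T_eq_KT (hG : OpenMu p H) {T : Finset Nat.Primes} (h : GoodT hG T) :
    H1T T (ind H (mu p)) = KT hG (plT hG T) := by
  classical
  ext a
  obtain ⟨y, rfl⟩ := kappa_surjective hG a
  obtain ⟨y, rfl⟩ := Additive.ofMul.surjective y
  simp only [H1T, Submodule.mem_iInf, Submodule.mem_comap]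
  constructor
  · intro ha
    have hdvd : ∀ v : Pl H, v.1 ∉ T → (p : ℤ) ∣ ord v (Additive.ofMul y) := fun v hv => by
      have := (kappa_mem_unr1_iff hG (h.unr _ hv) (h.ne_p hv) y).1 (ha _ hv) v.2.out
      rwa [ordAt_eq_ord, show orb v.1 v.2.out = v.2 from v.2.out_eq'] at this
    let e : Pl H →₀ ℤ := Finsupp.ofSupportFinite (fun v => ord v (Additive.ofMul y) / p)
      ((finite_ord_support hG y).subset fun v hv h0 => hv (by
        show ord v (Additive.ofMul y) / (p : ℤ) = 0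
        rw [h0, Int.zero_ediv]))
    obtain ⟨x, hx⟩ := h.exists_ord e
    refine mem_KT.2 ⟨y / x ^ p, fun v hv => ?_, ?_⟩
    · have hv' : v.1 ∉ T := mt mem_plT.2 hv
      rw [ofMul_div, ofMul_pow, map_sub, map_nsmul, hx v hv', nsmul_eq_mul]
      show ord v (Additive.ofMul y) - (p : ℤ) * (ord v (Additive.ofMul y) / (p : ℤ)) = 0
      rw [Int.mul_ediv_cancel' (hdvd v hv'), sub_self]
    · rw [ofMul_div, map_sub, (kappa_eq_zero_iff hG _).2 ⟨x, rfl⟩, sub_zero]
  · intro ha q hq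
    obtain ⟨z, hz, hza⟩ := mem_KT.1 ha
    rw [← hza, kappa_mem_unr1_iff hG (h.unr q hq) (h.ne_p hq)]
    intro x
    rw [ordAt_eq_ord, hz _ (mt mem_plT.1 hq)]
    exact dvd_zero _

theorem exists_good_mem (hG : OpenMu p H) (T : Finset Nat.Primes) (a : G1 p H) :
    ∃ T', T ⊆ T' ∧ GoodT hG T' ∧ a ∈ KT hG (plT hG T') := by
  classical
  obtain ⟨y, rfl⟩ := kappa_surjective hG a
  obtain ⟨T', hT, hg⟩ := exists_goodT hG
    (T ∪ ((finite_ord_support hG (Additive.toMul y)).image Sigma.fst).toFinset)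
  refine ⟨T', Finset.subset_union_left.trans hT, hg,
    mem_KT.2 ⟨Additive.toMul y, fun v hv => ?_, rfl⟩⟩
  by_contra h
  exact hv (mem_plT.2 (hT (Finset.mem_union_right _
    ((Set.Finite.mem_toFinset _).2 ⟨v, h, rfl⟩))))

/-- a class nonzero at two given places -/
theorem exists_evP_ne_zero₂ (hG : OpenMu p H) (v w : Pl H) :
    ∃ a : G1 p H, evP hG v a ≠ 0 ∧ evP hG w a ≠ 0 := by
  have key : ∀ (u : Pl H) (y : (Fld H)ˣ), ¬(p : ℤ) ∣ ord u (Additive.ofMul y) →
      evP hG u (kappa hG (Additive.ofMul y)) ≠ 0 := fun u y hd h0 =>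
    hd (dvd_ordAt_of_ev1_eq_zero hG h0)
  have h1 : ¬(p : ℤ) ∣ 1 := fun h =>
    (Fact.out : p.Prime).one_lt.ne' (Nat.dvd_one.1 (Int.natCast_dvd_natCast.1 h))
  obtain ⟨a, ha⟩ := exists_ord_one (pr v)
  obtain ⟨b, hb⟩ := exists_ord_one (pr w)
  change ord v _ = 1 at ha
  change ord w _ = 1 at hb
  by_cases hwa : (p : ℤ) ∣ ord w (Additive.ofMul a)
  swap
  · exact ⟨_, key v a (ha ▸ h1), key w a hwa⟩
  by_cases hvb : (p : ℤ) ∣ ord v (Additive.ofMul b)
  swap
  · exact ⟨_, key v b hvb, key w b (hb ▸ h1)⟩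
  refine ⟨_, key v (a * b) ?_, key w (a * b) ?_⟩
  · rw [ofMul_mul, map_add, ha]
    exact fun h => h1 ((dvd_add_left hvb).1 h)
  · rw [ofMul_mul, map_add, hb]
    exact fun h => h1 ((dvd_add_right hwa).1 h)

end FLTAgent.PT
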