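import Mathlib

/-!
Characteristic polynomials of permutations, and of endomorphisms in block triangular form.
-/

set_option autoImplicit false
set_option linter.style.haveILetI false

noncomputable section

open Polynomial Module

namespace FLTAgent.PT

variable {X Y : Type}

/-- the characteristic polynomial of a permutation -/
def permPoly [Finite X] (e : Equiv.Perm X) : ℤ[X] :=
  LinearMap.charpoly (LinearMap.funLeft ℤ ℤ e)

/-- the matrix of a permutation -/
def permMat (R : Type) [CommRing R] [DecidableEq X] (e : Equiv.Perm X) : Matrix X X R :=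
  Matrix.of fun i j => if e i = j then 1 else 0

theorem toMatrix_funLeft (R : Type) [CommRing R] [Fintype X] [DecidableEq X] (e : Equiv.Perm X) :
    LinearMap.toMatrix (Pi.basisFun R X) (Pi.basisFun R X) (LinearMap.funLeft R R e) =
      permMat R e := by
  ext i j
  simp [LinearMap.toMatrix_apply, permMat, LinearMap.funLeft_apply, Pi.single_apply]

theorem permPoly_eq [Fintype X] [DecidableEq X] (e : Equiv.Perm X) :
    permPoly e = (permMat ℤ e).charpoly := by
  rw [permPoly, ← LinearMap.charpoly_toMatrix _ (Pi.basisFun ℤ X), toMatrix_funLeft]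

/-- permutation matrices over any ring -/
theorem charpoly_funLeft_perm (R : Type) [CommRing R] [Finite X] (e : Equiv.Perm X) :
    LinearMap.charpoly (LinearMap.funLeft R R e) = (permPoly e).map (Int.castRingHom R) := by
  classical
  haveI := Fintype.ofFinite X
  rw [permPoly_eq, ← LinearMap.charpoly_toMatrix _ (Pi.basisFun R X), toMatrix_funLeft,
    ← Matrix.charpoly_map]
  congr 1
  ext i j
  simp only [permMat, Matrix.map_apply, Matrix.of_apply]
  split_ifs <;> simp

theorem permPoly_congr [Finite X] [Finite Y] (a : Equiv.Perm X) (b : Equiv.Perm Y) (E : X ≃ Y)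
    (h : ∀ x, E (a x) = b (E x)) : permPoly a = permPoly b := by
  classical
  haveI := Fintype.ofFinite X
  haveI := Fintype.ofFinite Y
  rw [permPoly_eq, permPoly_eq, ← Matrix.charpoly_reindex E (permMat ℤ a)]
  congr 1
  ext i j
  simp only [Matrix.reindex_apply, Matrix.submatrix_apply, permMat, Matrix.of_apply]
  refine if_congr ?_ rfl rfl
  rw [← E.apply_eq_iff_eq, h, E.apply_symm_apply, E.apply_symm_apply]

theorem permPoly_sum [Finite X] [Finite Y] (a : Equiv.Perm X) (b : Equiv.Perm Y) :
    permPoly (Equiv.sumCongr a b) = permPoly a * permPoly b := by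
  classical
  haveI := Fintype.ofFinite X
  haveI := Fintype.ofFinite Y
  rw [permPoly_eq, permPoly_eq, permPoly_eq,
    show permMat ℤ (Equiv.sumCongr a b) = Matrix.fromBlocks (permMat ℤ a) 0 0 (permMat ℤ b) by
      ext (i | i) (j | j) <;> simp [permMat],
    Matrix.charpoly_fromBlocks_zero₁₂]

theorem permPoly_empty [IsEmpty X] [Finite X] (e : Equiv.Perm X) : permPoly e = 1 := by
  classical
  haveI := Fintype.ofFinite X
  rw [permPoly_eq, Matrix.charpoly, Matrix.det_isEmpty]

/-- the permutation of the part of a disjoint union over a finite set -/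
def sigmaPerm {ι : Type} {Z : ι → Type} (e : ∀ i, Equiv.Perm (Z i)) (s : Finset ι) :
    Equiv.Perm {v : Σ i, Z i // v.1 ∈ s} where
  toFun v := ⟨⟨v.1.1, e v.1.1 v.1.2⟩, v.2⟩
  invFun v := ⟨⟨v.1.1, (e v.1.1).symm v.1.2⟩, v.2⟩
  left_inv v := by
    obtain ⟨⟨i, z⟩, h⟩ := v
    simp
  right_inv v := by
    obtain ⟨⟨i, z⟩, h⟩ := v
    simp

theorem finite_sigma_mem {ι : Type} {Z : ι → Type} [∀ i, Finite (Z i)] (s : Finset ι) :
    Finite {v : Σ i, Z i // v.1 ∈ s} :=
  Finite.of_injective (fun v => (⟨⟨v.1.1, v.2⟩, v.1.2⟩ : Σ i : ↥s, Z i.1)) fun v w h => by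
    obtain ⟨⟨i, z⟩, hi⟩ := v
    obtain ⟨⟨j, z'⟩, hj⟩ := w
    cases h
    rfl

theorem permPoly_sigma {ι : Type} {Z : ι → Type} [∀ i, Finite (Z i)]
    (e : ∀ i, Equiv.Perm (Z i)) (s : Finset ι) :
    haveI := finite_sigma_mem (Z := Z) s
    permPoly (sigmaPerm e s) = ∏ i ∈ s, permPoly (e i) := by
  classical
  induction s using Finset.induction_on with
  | empty =>
    haveI : IsEmpty {v : Σ i, Z i // v.1 ∈ (∅ : Finset ι)} := ⟨fun v => Finset.notMem_empty _ v.2⟩
    rw [Finset.prod_empty, permPoly_empty]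
  | insert a s ha ih =>
    haveI := finite_sigma_mem (Z := Z) s
    haveI := finite_sigma_mem (Z := Z) (insert a s)
    rw [Finset.prod_insert ha, ← ih, ← permPoly_sum]
    let f : Z a ⊕ {v : Σ i, Z i // v.1 ∈ s} → {v : Σ i, Z i // v.1 ∈ insert a s} :=
      Sum.elim (fun z => ⟨⟨a, z⟩, Finset.mem_insert_self _ _⟩)
        (fun v => ⟨v.1, Finset.mem_insert_of_mem v.2⟩)
    have hf : Function.Bijective f := by
      constructor
      · rintro (z | ⟨v, hv⟩) (z' | ⟨v', hv'⟩) h
        · simp only [f, Sum.elim_inl, Subtype.mk.injEq, Sigma.mk.injEq, heq_eq_eq, true_and] at h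
          rw [h]
        · simp only [f, Sum.elim_inl, Sum.elim_inr, Subtype.mk.injEq] at h
          have e' : a = v'.1 := congrArg Sigma.fst h
          exact absurd (e'.symm ▸ hv') ha
        · simp only [f, Sum.elim_inl, Sum.elim_inr, Subtype.mk.injEq] at h
          have e' : v.1 = a := congrArg Sigma.fst h
          exact absurd (e' ▸ hv) ha
        · simp only [f, Sum.elim_inr, Subtype.mk.injEq] at h
          subst h
          rfl
      · rintro ⟨⟨i, z⟩, hi⟩
        rcases Finset.mem_insert.1 hi with h | h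
        · obtain rfl : i = a := h
          exact ⟨Sum.inl z, rfl⟩
        · exact ⟨Sum.inr ⟨⟨i, z⟩, h⟩, rfl⟩
    refine (permPoly_congr _ _ (Equiv.ofBijective f hf) ?_).symm
    rintro (z | v) <;> rfl

/-- functions factoring through a quotient of a finite set -/
theorem charpoly_restrict_factor {F : Type} [Field F] {Q Ω : Type} [Finite Q] [Finite Ω]
    (π : Q → Ω) (hπ : Function.Surjective π) {S : Submodule F (Q → F)}
    (hS : ∀ φ, φ ∈ S ↔ ∃ f : Ω → F, φ = f ∘ π) (e : Q → Q) (ε : Equiv.Perm Ω)
    (he : ∀ x, π (e x) = ε (π x)) (h : ∀ φ ∈ S, LinearMap.funLeft F F e φ ∈ S) :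
    LinearMap.charpoly ((LinearMap.funLeft F F e).restrict h) =
      (permPoly ε).map (Int.castRingHom F) := by
  rw [← charpoly_funLeft_perm F ε]
  let Θ : (Ω → F) ≃ₗ[F] S := LinearEquiv.ofBijective
    ((LinearMap.funLeft F F π).codRestrict S fun f => (hS _).2 ⟨f, rfl⟩)
    ⟨fun f g hfg => funext fun w => by
        obtain ⟨x, rfl⟩ := hπ w
        exact congrFun (congrArg Subtype.val hfg) x,
      fun φ => by
        obtain ⟨f, hf⟩ := (hS φ.1).1 φ.2
        exact ⟨f, Subtype.ext hf.symm⟩⟩
  rw [← LinearEquiv.charpoly_conj Θ (LinearMap.funLeft F F ε)]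
  congr 1
  refine LinearMap.ext fun φ => ?_
  obtain ⟨f, rfl⟩ := Θ.surjective φ
  rw [LinearEquiv.conj_apply_apply, LinearEquiv.symm_apply_apply]
  exact Subtype.ext (funext fun x => congrArg f (he x))

section Blocks

variable {R : Type} [CommRing R] [Nontrivial R] {V : Type} [AddCommGroup V] [Module R V]
  [Module.Finite R V] [Module.Free R V] {ι : Type} [Fintype ι] [DecidableEq ι]

/-- a line and a complement stable modulo the line -/
theorem charpoly_of_line (B : Basis (ι ⊕ Unit) R V) (f : V →ₗ[R] V) (M : Matrix ι ι R) (c : ι → R)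
    (χ : R) (hl : ∀ i, f (B (Sum.inl i)) = ∑ j, M j i • B (Sum.inl j) + c i • B (Sum.inr ()))
    (hr : f (B (Sum.inr ())) = χ • B (Sum.inr ())) :
    LinearMap.charpoly f = M.charpoly * (Polynomial.X - C χ) := by
  classical
  have h : LinearMap.toMatrix B B f =
      Matrix.fromBlocks M 0 (Matrix.of fun _ i => c i) (Matrix.diagonal fun _ : Unit => χ) := by
    ext i j
    rw [LinearMap.toMatrix_apply]
    rcases j with j | ⟨⟩
    · rw [hl j, map_add, map_sum, map_smul]
      simp only [map_smul, Basis.repr_self, Finsupp.smul_single, smul_eq_mul, mul_one,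
        Finsupp.add_apply, Finsupp.finsetSum_apply, Finsupp.single_apply]
      rcases i with i | ⟨⟩
      · simp [Finset.sum_ite_eq']
      · simp
    · rw [hr, map_smul, Basis.repr_self, Finsupp.smul_single, smul_eq_mul, mul_one,
        Finsupp.single_apply]
      rcases i with i | ⟨⟩ <;> simp
  rw [← LinearMap.charpoly_toMatrix f B, h, Matrix.charpoly_fromBlocks_zero₁₂,
    Matrix.charpoly_diagonal, Fintype.prod_unique]

end Blocks

end FLTAgent.PT
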