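import Fermat.Agent.PT.Global.UnitSpan

/-!
The Galois structure of the classes of the `T`-units.
-/

set_option autoImplicit false
set_option linter.unusedSectionVars false
set_option linter.style.haveILetI false
set_option maxHeartbeats 400000

noncomputable section

open CategoryTheory groupCohomology Polynomial

namespace FLTAgent.PT

variable {p : ℕ} [Fact p.Prime] {H : Subgroup GQ} [H.Normal]

theorem charpoly_restrict_of_eq {F V : Type} [Field F] [AddCommGroup V] [Module F V]
    {S S' : Submodule F V} (e : S = S') [Module.Finite F S] [Module.Finite F S'] (f : Module.End F V)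
    (h : ∀ x ∈ S, f x ∈ S) (h' : ∀ x ∈ S', f x ∈ S') :
    LinearMap.charpoly (f.restrict h) = LinearMap.charpoly (f.restrict h') := by
  subst e
  rfl

/-- the invariants of `μ_p` on the cosets -/
theorem charpoly_indRight_h0 (hG : OpenMu p H) [Finite (GQ ⧸ H)] (g : GQ)
    (h0 : ∀ x ∈ cH0 (ind H (mu p)), indRight H (mu p) g x ∈ cH0 (ind H (mu p))) :
    LinearMap.charpoly ((indRight H (mu p) g).restrict h0) =
      X - C (ExtCitation.cycloChar p g : ZMod p) := by
  classical
  let φ₀ : cH0 (ind H (mu p)) := ⟨fun x : GQ ⧸ H => ((omegaC p x : (ZMod p)ˣ) : ZMod p), fun a =>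
    funext fun x => by
      show ((ind H (mu p)).ρ a _ x : ZMod p) = _
      rw [rho_perm, ← Units.val_mul, ← omegaC_smul hG, smul_inv_smul]⟩
  have hval : ∀ (φ : cH0 (ind H (mu p))) (a : GQ),
      (φ.1 (a : GQ ⧸ H) : ZMod p) =
        (ExtCitation.cycloChar p a : ZMod p) * φ.1 ((1 : GQ) : GQ ⧸ H) := by
    intro φ a
    have h1 : ((ind H (mu p)).ρ a φ.1 (a : GQ ⧸ H) : ZMod p) = φ.1 (a : GQ ⧸ H) :=
      congrFun (φ.2 a) (a : GQ ⧸ H)
    rw [rho_perm, MulAction.Quotient.smul_mk, smul_eq_mul, inv_mul_cancel] at h1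
    exact h1.symm
  have hspan : ∀ φ : cH0 (ind H (mu p)), φ = (φ.1 ((1 : GQ) : GQ ⧸ H) : ZMod p) • φ₀ := fun φ =>
    Subtype.ext (funext fun x => by
      induction x using QuotientGroup.induction_on with
      | H a =>
        show (φ.1 (a : GQ ⧸ H) : ZMod p) = (φ.1 ((1 : GQ) : GQ ⧸ H) : ZMod p) *
          ((omegaC p (a : GQ ⧸ H) : (ZMod p)ˣ) : ZMod p)
        rw [hval φ a, omegaC_mk hG, mul_comm])
  let e : cH0 (ind H (mu p)) ≃ₗ[ZMod p] ZMod p :=
    { toFun := fun φ => φ.1 ((1 : GQ) : GQ ⧸ H)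
      map_add' := fun _ _ => rfl
      map_smul' := fun _ _ => rfl
      invFun := fun t => t • φ₀
      left_inv := fun φ => (hspan φ).symm
      right_inv := fun t => by
        show t * ((omegaC p ((1 : GQ) : GQ ⧸ H) : (ZMod p)ˣ) : ZMod p) = t
        rw [omegaC_mk hG, map_one, Units.val_one, mul_one] }
  let B : Module.Basis (Fin 0 ⊕ Unit) (ZMod p) (cH0 (ind H (mu p))) :=
    ((Module.Basis.singleton Unit (ZMod p)).reindex (Equiv.emptySum (Fin 0) Unit).symm).map e.symm
  have hB : ∀ i, B i = e.symm 1 := fun i => by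
    rw [Module.Basis.map_apply, Module.Basis.reindex_apply, Module.Basis.singleton_apply]
  rw [charpoly_of_line B _ (0 : Matrix (Fin 0) (Fin 0) (ZMod p)) 0
      (ExtCitation.cycloChar p g : ZMod p) (fun i => i.elim0) ?_,
    Matrix.charpoly, Matrix.det_isEmpty, one_mul]
  rw [hB]
  refine e.injective ?_
  rw [map_smul, e.apply_symm_apply, smul_eq_mul, mul_one]
  show ((e.symm 1).1 (((1 : GQ) : GQ ⧸ H) * (g : GQ ⧸ H)) : ZMod p) = _
  rw [show ((1 : GQ) : GQ ⧸ H) * (g : GQ ⧸ H) = g from one_mul _, hval,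
    show ((e.symm 1).1 ((1 : GQ) : GQ ⧸ H) : ZMod p) = 1 from e.apply_symm_apply 1, mul_one]

/-- functions fixed by a group factor through its orbits -/
theorem charpoly_indRight_orbits {G : Type} [Group G] (r : G →* GQ) [Finite (GQ ⧸ H)] (g : GQ)
    (S : Submodule (ZMod p) (ind H (one p)))
    (hS : ∀ φ : ind H (one p), φ ∈ S ↔ ∀ a : G, ∀ x, φ ((r a)⁻¹ • x) = φ x)
    (h : ∀ x ∈ S, indRight H (one p) g x ∈ S) :
    LinearMap.charpoly ((indRight H (one p) g).restrict h) =
      (permPoly (orbRight r H g)).map (Int.castRingHom (ZMod p)) := by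
  refine charpoly_restrict_factor (Q := GQ ⧸ H)
    (Quotient.mk'' : GQ ⧸ H → Quotient (MulAction.orbitRel r.range (GQ ⧸ H)))
    Quotient.mk''_surjective (fun φ => ?_) (fun x => x * (g : GQ ⧸ H)) (orbRight r H g)
    (fun x => rfl) h
  refine (hS φ).trans ⟨fun hφ => ⟨Quotient.lift φ ?_, rfl⟩, ?_⟩
  · rintro x y ⟨⟨_, a, rfl⟩, rfl⟩
    show φ (r a • y) = φ y
    have e := hφ a (r a • y)
    rw [inv_smul_smul] at e
    exact e.symm
  · rintro ⟨f, rfl⟩ a x
    exact congrArg f (Quotient.sound' ⟨⟨(r a)⁻¹, a⁻¹, map_inv r a⟩, rfl⟩)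

/-- the Galois structure of the classes unramified outside a good set -/
theorem charpoly_H1T_good (hp2 : p ≠ 2) (hG : OpenMu p H) [NumberField ↥(Fld H)]
    [Finite (GQ ⧸ H)] {T : Finset Nat.Primes} (hT : GoodT hG T) (g : GQ)
    [Module.Finite (ZMod p) (H1T T (ind H (mu p)))]
    (h1 : ∀ x ∈ H1T T (ind H (mu p)), h1push (MonoidHom.id GQ) (indRight H (mu p) g)
      (fun k f => indRight_eqv H (mu p) g k f) x ∈ H1T T (ind H (mu p)))
    (h0 : ∀ x ∈ cH0 (ind H (mu p)), indRight H (mu p) g x ∈ cH0 (ind H (mu p)))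
    (hq : ∀ q : Nat.Primes, ∀ x ∈ lH0 q (ind H (one p)),
      indRight H (one p) g x ∈ lH0 (p := p) q (ind H (one p)))
    (hi : ∀ x ∈ h0inf (ind H (one p)), indRight H (one p) g x ∈ h0inf (ind H (one p))) :
    LinearMap.charpoly ((h1push (MonoidHom.id GQ) (indRight H (mu p) g)
        (fun k f => indRight_eqv H (mu p) g k f)).restrict h1) * (X - 1) =
      LinearMap.charpoly ((indRight H (mu p) g).restrict h0) *
        (∏ q ∈ T, LinearMap.charpoly ((indRight H (one p) g).restrict (hq q))) *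
          LinearMap.charpoly ((indRight H (one p) g).restrict hi) := by
  classical
  haveI := finite_KT hp2 hG (plT hG T)
  haveI : Module.Finite (ZMod p) (KT hG (plT hG T)) := Module.Finite.of_finite
  haveI := fun q => hG.finite_orb q
  haveI := finite_sigma_mem (Z := fun q => Orb q H) T
  have e := H1T_eq_KT hG hT
  rw [charpoly_restrict_of_eq e _ h1 (by rw [← e]; exact h1), charpoly_KT hG T hp2 g,
    charpoly_indRight_h0 hG g h0,
    charpoly_indRight_orbits ExtCitation.archimedeanLoc g (h0inf (ind H (one p))) ?_ hi,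
    Finset.prod_congr rfl fun q _ =>
      charpoly_indRight_orbits (loc q) g (lH0 q (ind H (one p))) ?_ (hq q),
    epsT, permPoly_sum, permPoly_sigma, Polynomial.map_mul, Polynomial.map_prod]
  · ring
  · exact fun φ => ⟨fun h a x => congrFun (h a) x, fun h a => funext (h a)⟩
  · exact fun φ => ⟨fun h a x => congrFun (h a) x, fun h a => funext (h a)⟩

end FLTAgent.PT
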