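import Fermat.Agent.PT.LocalAPI

/-!
Classes of the permutation module `ind H μ_p` for `H` open and killed by the cyclotomic character:
the values at the fixed cosets, the symbol, and coordinates of the local classes of degree two on
the orbits.
-/

set_option autoImplicit false
set_option linter.unusedSectionVars false
set_option linter.style.haveILetI false

noncomputable section

open CategoryTheory groupCohomology

namespace FLTAgent.PT

variable {p : ℕ} [Fact p.Prime]

/-- open subgroups killed by the cyclotomic character -/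
structure OpenMu (p : ℕ) [Fact p.Prime] (H : Subgroup GQ) : Prop where
  opn : IsOpenSub (MonoidHom.id GQ) H
  triv : ∀ h ∈ H, ExtCitation.cycloChar p h = 1

variable {H : Subgroup GQ}

theorem OpenMu.finite (hG : OpenMu p H) : Finite (GQ ⧸ H) := hG.opn.finite_quotient

theorem OpenMu.adm (hG : OpenMu p H) : IsAdm (MonoidHom.id GQ) (ind H (mu p)) :=
  isAdm_ind hG.opn (isAdm_mu p)

/-- global classes of degree one -/
abbrev G1 (p : ℕ) [Fact p.Prime] (H : Subgroup GQ) : Type :=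
  cH1 (MonoidHom.id GQ) (ind H (mu p))

/-- global classes of degree two -/
abbrev G2 (p : ℕ) [Fact p.Prime] (H : Subgroup GQ) : Type :=
  cH2 (MonoidHom.id GQ) (ind H (mu p))

theorem rho_perm (g : GQ) (f : GQ ⧸ H → ZMod p) (x : GQ ⧸ H) :
    ((ind H (mu p)).ρ g f x : ZMod p) = (ExtCitation.cycloChar p g : ZMod p) * f (g⁻¹ • x) := by
  rw [ind_apply]
  simp [Representation.twist_apply]

/-- the character on the cosets -/
def omegaC (p : ℕ) [Fact p.Prime] (x : GQ ⧸ H) : (ZMod p)ˣ := ExtCitation.cycloChar p x.out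

theorem omegaC_mk (hG : OpenMu p H) (a : GQ) :
    omegaC p (a : GQ ⧸ H) = ExtCitation.cycloChar p a := by
  obtain ⟨h, hh⟩ := QuotientGroup.mk_out_eq_mul H a
  rw [omegaC, hh, map_mul, hG.triv h.1 h.2, mul_one]

theorem omegaC_smul (hG : OpenMu p H) (g : GQ) (x : GQ ⧸ H) :
    omegaC p (g • x) = ExtCitation.cycloChar p g * omegaC p x := by
  induction x using QuotientGroup.induction_on with
  | H a =>
    rw [MulAction.Quotient.smul_mk, omegaC_mk hG, omegaC_mk hG, smul_eq_mul, map_mul]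

theorem omega_eq_one_of_fix (hG : OpenMu p H) {g : GQ} {x : GQ ⧸ H} (h : g • x = x) :
    ExtCitation.cycloChar p g = 1 := by
  have e := omegaC_smul hG g x
  rw [h] at e
  exact mul_eq_right.mp e.symm

/-- the product `μ ⊗ μ → μ` on the induced module -/
def phi (p : ℕ) [Fact p.Prime] (H : Subgroup GQ) :
    ind H (mu p) →ₗ[ZMod p] ind H (mu p) →ₗ[ZMod p] ind H (mu p) :=
  LinearMap.mk₂ (ZMod p)
    (fun f g x => (((omegaC p x)⁻¹ : (ZMod p)ˣ) : ZMod p) * ((f x : ZMod p) * (g x : ZMod p)))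
    (fun f f' g => funext fun x => by
      show _ * (((f x : ZMod p) + (f' x : ZMod p)) * (g x : ZMod p)) = _ + _
      ring)
    (fun c f g => funext fun x => by
      show _ * ((c * (f x : ZMod p)) * (g x : ZMod p)) = c * _
      ring)
    (fun f g g' => funext fun x => by
      show _ * ((f x : ZMod p) * ((g x : ZMod p) + (g' x : ZMod p))) = _ + _
      ring)
    (fun c f g => funext fun x => by
      show _ * ((f x : ZMod p) * (c * (g x : ZMod p))) = c * _
      ring)

theorem phi_apply (f g : GQ ⧸ H → ZMod p) (x : GQ ⧸ H) :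
    (phi p H f g x : ZMod p) = (((omegaC p x)⁻¹ : (ZMod p)ˣ) : ZMod p) * (f x * g x) := rfl

theorem phi_comm (f g : ind H (mu p)) : phi p H f g = phi p H g f := funext fun x => by
  show (_ : ZMod p) * (_ * _) = _ * (_ * _)
  ring

theorem phi_eqv (hG : OpenMu p H) : IsEqv (phi p H) := fun g f f' => funext fun x => by
  show (phi p H _ _ x : ZMod p) = _
  rw [phi_apply, rho_perm, rho_perm, rho_perm, phi_apply]
  have e : omegaC p x = ExtCitation.cycloChar p g * omegaC p (g⁻¹ • x) := by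
    rw [← omegaC_smul hG, smul_inv_smul]
  have key : ((omegaC p x)⁻¹ : (ZMod p)ˣ) * (ExtCitation.cycloChar p g * ExtCitation.cycloChar p g) =
      ExtCitation.cycloChar p g * (omegaC p (g⁻¹ • x))⁻¹ := by
    rw [e, mul_inv_rev, mul_assoc, inv_mul_cancel_left, mul_comm]
  have key' := congrArg (fun u : (ZMod p)ˣ => (u : ZMod p)) key
  simp only [Units.val_mul] at key'
  linear_combination (f (g⁻¹ • x) : ZMod p) * (f' (g⁻¹ • x) : ZMod p) * key'

/-- the symbol -/
def sym (hG : OpenMu p H) : G1 p H →ₗ[ZMod p] G1 p H →ₗ[ZMod p] G2 p H :=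
  cupH (MonoidHom.id GQ) (phi p H) (phi_eqv hG) hG.adm

/-- the local symbol -/
def symq (hG : OpenMu p H) (q : Nat.Primes) :
    lH1 q (ind H (mu p)) →ₗ[ZMod p] lH1 q (ind H (mu p)) →ₗ[ZMod p] lH2 q (ind H (mu p)) :=
  cupH (loc q) (A := Rep.res (loc q) (ind H (mu p))) (B := Rep.res (loc q) (ind H (mu p)))
    (C := Rep.res (loc q) (ind H (mu p))) (phi p H) (fun g => phi_eqv hG (loc q g)) (hG.adm.res _)

theorem res2_sym (hG : OpenMu p H) (q : Nat.Primes) (a b : G1 p H) :
    res2 q _ (sym hG a b) = symq hG q (res1 q _ a) (res1 q _ b) := by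
  obtain ⟨z, rfl⟩ := Submodule.mkQ_surjective _ a
  obtain ⟨w, rfl⟩ := Submodule.mkQ_surjective _ b
  rfl

/-- commutativity of the product makes the cup product antisymmetric -/
theorem cupH_skew {G : Type} [Group G] {r : G →* GQ} {A C : Rep.{0} (ZMod p) G}
    (φ : A →ₗ[ZMod p] A →ₗ[ZMod p] C) (hφ : IsEqv φ) (hA : IsAdm r A)
    (hc : ∀ x y, φ x y = φ y x) (a b : cH1 r A) :
    cupH r φ hφ hA a b + cupH r φ hφ hA b a = 0 := by
  obtain ⟨z, rfl⟩ := Submodule.mkQ_surjective _ a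
  obtain ⟨w, rfl⟩ := Submodule.mkQ_surjective _ b
  change cupH r φ hφ hA (h1mk r A z) (h1mk r A w) + cupH r φ hφ hA (h1mk r A w) (h1mk r A z) = 0
  rw [cupH_mk, cupH_mk, ← map_add]
  refine (continuousH2π_eq_zero_iff r C _).2 ((mem_levelCoboundaries₂_iff r C _).2
    ⟨fun g => -φ (z.1 g) (w.1 g), ?_, ?_⟩)
  · obtain ⟨F, hF, h⟩ := z.2.2
    obtain ⟨F', hF', h'⟩ := w.2.2
    haveI := hF; haveI := hF'
    exact ⟨F ⊔ F', inferInstance, fun g s hs => by
      show -φ (z.1 (g * s)) (w.1 (g * s)) = -φ (z.1 g) (w.1 g)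
      rw [h g s (IntermediateField.fixingSubgroup_antitone le_sup_left hs),
        h' g s (IntermediateField.fixingSubgroup_antitone le_sup_right hs)]⟩
  have hz := (mem_cocycles₁_def _).1 z.2.1
  have hw := (mem_cocycles₁_def _).1 w.2.1
  funext ⟨g, h⟩
  have e1 : z.1 (g * h) = A.ρ g (z.1 h) + z.1 g := by
    linear_combination (norm := module) -(hz g h)
  have e2 : w.1 (g * h) = A.ρ g (w.1 h) + w.1 g := by
    linear_combination (norm := module) -(hw g h)
  rw [d₁₂_hom_apply]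
  show C.ρ g (-φ (z.1 h) (w.1 h)) - -φ (z.1 (g * h)) (w.1 (g * h)) + -φ (z.1 g) (w.1 g) =
    φ (z.1 g) (A.ρ g (w.1 h)) + φ (w.1 g) (A.ρ g (z.1 h))
  rw [map_neg, ← hφ, e1, e2, hc (w.1 g) (A.ρ g (z.1 h))]
  simp only [map_add, LinearMap.add_apply]
  abel

theorem sym_skew (hG : OpenMu p H) (a b : G1 p H) : sym hG a b = -sym hG b a :=
  eq_neg_of_add_eq_zero_left (cupH_skew (phi p H) (phi_eqv hG) hG.adm phi_comm a b)

theorem symq_skew (hG : OpenMu p H) (q : Nat.Primes) (a b : lH1 q (ind H (mu p))) :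
    symq hG q a b = -symq hG q b a :=
  eq_neg_of_add_eq_zero_left (cupH_skew (A := Rep.res (loc q) (ind H (mu p)))
    (C := Rep.res (loc q) (ind H (mu p))) (phi p H) (fun g => phi_eqv hG (loc q g))
    (hG.adm.res _) phi_comm a b)

section Values

/-- the stabiliser of a coset in the local group -/
abbrev stq (q : Nat.Primes) (x : GQ ⧸ H) : Subgroup (Gam q) := stabAt (loc q) H x

theorem smul_stq {q : Nat.Primes} {x : GQ ⧸ H} (γ : stq q x) : loc q γ.1 • x = x :=
  MulAction.mem_stabilizer_iff.1 γ.2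

/-- values of the local classes at the elements fixing a coset -/
def ev1 (hG : OpenMu p H) (q : Nat.Primes) (x : GQ ⧸ H) :
    lH1 q (ind H (mu p)) →ₗ[ZMod p] (stq q x → ZMod p) :=
  Submodule.liftQ _
    { toFun := fun z γ => z.1 γ.1 x
      map_add' := fun _ _ => rfl
      map_smul' := fun _ _ => rfl }
    fun z hz => by
      obtain ⟨m, hm⟩ := mem_B1_iff.1 hz
      funext γ
      have e := congrFun (hm γ.1) x
      show (z.1 γ.1 x : ZMod p) = 0
      rw [← show _ = (z.1 γ.1 x : ZMod p) from e]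
      show ((ind H (mu p)).ρ (loc q γ.1) m x : ZMod p) - (m x : ZMod p) = 0
      rw [rho_perm, inv_smul_eq_iff.2 (smul_stq γ).symm, omega_eq_one_of_fix hG (smul_stq γ),
        Units.val_one, one_mul, sub_self]

theorem ev1_mk (hG : OpenMu p H) (q : Nat.Primes) (x : GQ ⧸ H)
    (z : Z1 (loc q) (Rep.res (loc q) (ind H (mu p)))) (γ : stq q x) :
    ev1 hG q x (h1mk _ _ z) γ = z.1 γ.1 x := rfl

/-- the orbits of the local group -/
abbrev Orb (q : Nat.Primes) (H : Subgroup GQ) : Type :=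
  Quotient (MulAction.orbitRel (loc q).range (GQ ⧸ H))

/-- the orbit of a coset -/
abbrev orb (q : Nat.Primes) (x : GQ ⧸ H) : Orb q H := Quotient.mk'' x

theorem orb_eq_iff {q : Nat.Primes} {x y : GQ ⧸ H} :
    orb q x = orb q y ↔ ∃ g : Gam q, loc q g • y = x := by
  rw [Quotient.eq'']
  exact ⟨fun ⟨⟨_, g, rfl⟩, h⟩ => ⟨g, h⟩, fun ⟨g, h⟩ => ⟨⟨_, g, rfl⟩, h⟩⟩

theorem orb_smul {q : Nat.Primes} (g : Gam q) (x : GQ ⧸ H) : orb q (loc q g • x) = orb q x :=
  orb_eq_iff.2 ⟨g, rfl⟩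

/-- the orbit representatives -/
def reps (q : Nat.Primes) (H : Subgroup GQ) : Set (GQ ⧸ H) :=
  Set.range (Quotient.out : Orb q H → GQ ⧸ H)

theorem isOrbitReps (q : Nat.Primes) (H : Subgroup GQ) : IsOrbitReps (loc q) H (reps q H) := by
  intro x
  refine ⟨⟨(orb q x).out, orb q x, rfl⟩, orb_eq_iff.1 (orb q x).out_eq'.symm, ?_⟩
  rintro ⟨_, O, rfl⟩ ⟨g, hg⟩
  refine Subtype.ext ?_
  show O.out = (orb q x).out
  rw [← hg, orb_smul]
  exact congrArg Quotient.out O.out_eq'.symm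

set_option maxHeartbeats 1000000 in
theorem ev1_jointly_injective (hG : OpenMu p H) {q : Nat.Primes} {a : lH1 q (ind H (mu p))}
    (h : ∀ O : Orb q H, ev1 hG q O.out a = 0) : a = 0 := by
  obtain ⟨z, rfl⟩ := Submodule.mkQ_surjective _ a
  refine (shap1_bijective (f := loc q) (r := MonoidHom.id GQ) (r' := loc q) (fun _ => rfl) hG.opn
    (isAdm_mu p) (isOrbitReps q H)).1 ?_
  rw [map_zero]
  funext ⟨_, O, rfl⟩
  show h1mk _ _ _ = 0
  refine (h1mk_eq_zero_iff _ _).2 ⟨0, fun γ => ?_⟩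
  rw [map_zero, sub_zero]
  exact (congrFun (h O) γ).symm

end Values

section Proj

variable {q : Nat.Primes}

/-- the indicator of an orbit -/
def indO (O : Orb q H) (x : GQ ⧸ H) : ZMod p :=
  haveI := Classical.propDecidable (orb q x = O)
  if orb q x = O then 1 else 0

theorem indO_pos {O : Orb q H} {x : GQ ⧸ H} (h : orb q x = O) : (indO O x : ZMod p) = 1 := if_pos h

theorem indO_neg {O : Orb q H} {x : GQ ⧸ H} (h : orb q x ≠ O) : (indO O x : ZMod p) = 0 := if_neg h

/-- the projection onto an orbit -/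
def projO (O : Orb q H) : ind H (mu p) →ₗ[ZMod p] ind H (mu p) where
  toFun f := fun x => indO O x * (f x : ZMod p)
  map_add' f g := funext fun x => mul_add (indO O x) (f x : ZMod p) (g x : ZMod p)
  map_smul' c f := funext fun x => mul_left_comm (indO O x) c (f x : ZMod p)

theorem projO_eqv (O : Orb q H) (g : Gam q) (f : ind H (mu p)) :
    projO O ((Rep.res (loc q) (ind H (mu p))).ρ g f) =
      (Rep.res (loc q) (ind H (mu p))).ρ g (projO O f) := by
  funext x
  show indO O x * ((ind H (mu p)).ρ (loc q g) f x : ZMod p) =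
    ((ind H (mu p)).ρ (loc q g) (projO O f) x : ZMod p)
  rw [rho_perm, rho_perm]
  show _ = _ * (indO O ((loc q g)⁻¹ • x) * (f ((loc q g)⁻¹ • x) : ZMod p))
  have e : (indO O ((loc q g)⁻¹ • x) : ZMod p) = indO O x := by
    rcases eq_or_ne (orb q x) O with h | h
    · rw [indO_pos h, indO_pos]; rwa [← map_inv, orb_smul]
    · rw [indO_neg h, indO_neg]; rwa [← map_inv, orb_smul]
  rw [e]; ring

/-- the projection of classes onto an orbit -/
def proj1 (O : Orb q H) : lH1 q (ind H (mu p)) →ₗ[ZMod p] lH1 q (ind H (mu p)) :=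
  h1push (loc q) (A := Rep.res (loc q) (ind H (mu p))) (B := Rep.res (loc q) (ind H (mu p)))
    (projO O) (projO_eqv O)

theorem ev1_proj1 (hG : OpenMu p H) (O : Orb q H) (a : lH1 q (ind H (mu p))) (x : GQ ⧸ H) :
    ev1 hG q x (proj1 O a) = indO (p := p) O x • ev1 hG q x a := by
  obtain ⟨z, rfl⟩ := Submodule.mkQ_surjective _ a
  exact funext fun γ => rfl

theorem ev1_proj1_self (hG : OpenMu p H) (O : Orb q H) (a : lH1 q (ind H (mu p))) :
    ev1 hG q O.out (proj1 O a) = ev1 hG q O.out a := by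
  rw [ev1_proj1, indO_pos (show orb q O.out = O from O.out_eq'), one_smul]

theorem ev1_proj1_ne (hG : OpenMu p H) {O O' : Orb q H} (h : O' ≠ O)
    (a : lH1 q (ind H (mu p))) : ev1 hG q O'.out (proj1 O a) = 0 := by
  rw [ev1_proj1, indO_neg (by rw [show orb q O'.out = O' from O'.out_eq']; exact h), zero_smul]

end Proj

section Coord

theorem isOpen_stq (hG : OpenMu p H) (q : Nat.Primes) (x : GQ ⧸ H) :
    IsOpenSub (loc q) (stq q x) := by
  obtain ⟨F, hF, hle⟩ := hG.opn
  obtain ⟨E, hE, hle', hn⟩ := exists_normal_level F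
  refine ⟨E, hE, fun g hg => ?_⟩
  show loc q g ∈ MulAction.stabilizer GQ x
  exact MulAction.mem_stabilizer_iff.2 (smul_coset_eq hn
    (fun s hs => hle (by simpa using hle' hs)) hg x)

/-- the classes at a coset -/
abbrev ev2 (q : Nat.Primes) (x : GQ ⧸ H) :
    lH2 q (ind H (mu p)) →ₗ[ZMod p]
      cH2 ((loc q).comp (stq q x).subtype) (Rep.res ((loc q).comp (stq q x).subtype) (mu p)) :=
  continuousH2Map (rH := loc q) (stq q x).subtype (fun _ => rfl) (evAt (loc q) H (mu p) x)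
    (evAt_eqv (loc q) H (mu p) x)

/-- a local invariant on a stabiliser -/
def lineEquiv (hG : OpenMu p H) (q : Nat.Primes) (x : GQ ⧸ H) :
    cH2 ((loc q).comp (stq q x).subtype) (Rep.res ((loc q).comp (stq q x).subtype) (mu p))
      ≃ₗ[ZMod p] ZMod p :=
  haveI := Module.finite_of_finrank_eq_succ (finrank_cH2_mu_open (p := p) q _ (isOpen_stq hG q x))
  LinearEquiv.ofFinrankEq _ _ (by
    rw [finrank_cH2_mu_open q _ (isOpen_stq hG q x), Module.finrank_self])

/-- coordinates of the local classes of degree two -/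
def coord (hG : OpenMu p H) (q : Nat.Primes) :
    lH2 q (ind H (mu p)) →ₗ[ZMod p] (Orb q H → ZMod p) :=
  LinearMap.pi fun O => (lineEquiv hG q O.out).toLinearMap ∘ₗ ev2 q O.out

theorem coord_bijective (hG : OpenMu p H) (q : Nat.Primes) :
    Function.Bijective (coord (p := p) hG q) := by
  have hb := shap2_bijective (f := loc q) (r := MonoidHom.id GQ) (r' := loc q) (fun _ => rfl)
    hG.opn (isAdm_mu p) (isOrbitReps q H)
  refine ⟨fun c c' h => hb.1 (funext fun ⟨_, O, hO⟩ => ?_), fun f => ?_⟩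
  · subst hO
    exact (lineEquiv hG q O.out).injective (congrFun h O)
  · obtain ⟨c, hc⟩ := hb.2 fun x => (lineEquiv hG q x.1).symm (f (orb q x.1))
    refine ⟨c, funext fun O => ?_⟩
    show lineEquiv hG q O.out (ev2 q O.out c) = f O
    rw [show ev2 q O.out c = _ from congrFun hc ⟨O.out, O, rfl⟩, LinearEquiv.apply_symm_apply]
    exact congrArg f O.out_eq'

theorem coord_eq_zero_of_cochain (hG : OpenMu p H) {q : Nat.Primes} (O : Orb q H)
    (z w : Z1 (loc q) (Rep.res (loc q) (ind H (mu p))))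
    (h : ∀ γ δ : stq q O.out, (z.1 γ.1 O.out : ZMod p) * (w.1 δ.1 O.out : ZMod p) = 0) :
    coord hG q (symq hG q (h1mk _ _ z) (h1mk _ _ w)) O = 0 := by
  refine (map_eq_zero_iff _ (lineEquiv hG q O.out).injective).2 ?_
  refine (continuousH2π_eq_zero_iff _ _ _).2
    ((mem_levelCoboundaries₂_iff _ _ _).2 ⟨0, ⟨⊥, inferInstance, fun _ _ _ => rfl⟩, ?_⟩)
  funext ⟨γ, δ⟩
  rw [map_zero]
  show (0 : ZMod p) = (phi p H (z.1 γ.1) ((ind H (mu p)).ρ (loc q γ.1) (w.1 δ.1)) O.out : ZMod p)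
  rw [phi_apply, rho_perm, inv_smul_eq_iff.2 (smul_stq γ).symm]
  linear_combination -(((omegaC p O.out)⁻¹ : (ZMod p)ˣ) : ZMod p) *
    (ExtCitation.cycloChar p (loc q γ.1) : ZMod p) * h γ δ

theorem coord_symq_left (hG : OpenMu p H) {q : Nat.Primes} (O : Orb q H)
    {a : lH1 q (ind H (mu p))} (ha : ev1 hG q O.out a = 0) (b : lH1 q (ind H (mu p))) :
    coord hG q (symq hG q a b) O = 0 := by
  obtain ⟨z, rfl⟩ := Submodule.mkQ_surjective _ a
  obtain ⟨w, rfl⟩ := Submodule.mkQ_surjective _ b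
  exact coord_eq_zero_of_cochain hG O z w fun γ δ => by
    rw [show (z.1 γ.1 O.out : ZMod p) = 0 from congrFun ha γ, zero_mul]

theorem coord_symq_right (hG : OpenMu p H) {q : Nat.Primes} (O : Orb q H)
    (a : lH1 q (ind H (mu p))) {b : lH1 q (ind H (mu p))} (hb : ev1 hG q O.out b = 0) :
    coord hG q (symq hG q a b) O = 0 := by
  rw [symq_skew, map_neg, Pi.neg_apply, coord_symq_left hG O hb, neg_zero]

/-- the function supported at one coset -/
def dlt (p : ℕ) [Fact p.Prime] (x : GQ ⧸ H) : ind H (mu p) := fun y =>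
  haveI := Classical.propDecidable (y = x)
  if y = x then (1 : ZMod p) else (0 : ZMod p)

/-- the Tate dual of the permutation module -/
def dualPerm (p : ℕ) [Fact p.Prime] (H : Subgroup GQ) :
    dual' (ind H (mu p)) →ₗ[ZMod p] ind H (mu p) where
  toFun F := fun x => (omegaC p x : ZMod p) *
    (F : (ind H (mu p)) →ₗ[ZMod p] ZMod p) (dlt p x)
  map_add' F F' := funext fun x => mul_add (omegaC p x : ZMod p)
    ((F : (ind H (mu p)) →ₗ[ZMod p] ZMod p) (dlt p x))
    ((F' : (ind H (mu p)) →ₗ[ZMod p] ZMod p) (dlt p x))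
  map_smul' c F := funext fun x => mul_left_comm (omegaC p x : ZMod p) c
    ((F : (ind H (mu p)) →ₗ[ZMod p] ZMod p) (dlt p x))

theorem dualPerm_apply (F : dual' (ind H (mu p))) (x : GQ ⧸ H) :
    (dualPerm p H F x : ZMod p) =
      (omegaC p x : ZMod p) * (F : (ind H (mu p)) →ₗ[ZMod p] ZMod p) (dlt p x) := rfl

theorem rho_dlt (g : GQ) (x : GQ ⧸ H) :
    (ind H (mu p)).ρ g⁻¹ (dlt p x) =
      (((ExtCitation.cycloChar p g)⁻¹ : (ZMod p)ˣ) : ZMod p) • dlt p (g⁻¹ • x) := by
  funext y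
  refine (rho_perm g⁻¹ _ y).trans ?_
  show _ = _ * (dlt p (g⁻¹ • x) y : ZMod p)
  rw [map_inv, inv_inv]
  congr 1
  unfold dlt
  by_cases h : g • y = x
  · rw [if_pos h, if_pos (by rw [← h, inv_smul_smul])]
  · rw [if_neg h, if_neg (fun e => h (by rw [e, smul_inv_smul]))]

theorem dualPerm_eqv (hG : OpenMu p H) (g : GQ) (F : dual' (ind H (mu p))) :
    dualPerm p H ((dual' (ind H (mu p))).ρ g F) = (ind H (mu p)).ρ g (dualPerm p H F) := by
  funext x
  refine Eq.trans ?_ (rho_perm g _ x).symm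
  refine (dualPerm_apply _ x).trans ?_
  rw [dualPerm_apply, Rep.dualTwist_ρ_apply, LinearMap.smul_apply, LinearMap.comp_apply, rho_dlt,
    map_smul, smul_eq_mul, smul_eq_mul, omegaC_smul hG, Units.val_mul, map_inv]
  ring

theorem indSum_phi_dual [Finite (GQ ⧸ H)] (f : ind H (mu p)) (F : dual' (ind H (mu p))) :
    indSum H (mu p) (phi p H f (dualPerm p H F)) = evM (ind H (mu p)) f F := by
  classical
  letI := Fintype.ofFinite (GQ ⧸ H)
  show ∑ x, (phi p H f (dualPerm p H F) x : ZMod p) = (F : (ind H (mu p)) →ₗ[ZMod p] ZMod p) f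
  have hf : f = ∑ x, (f x : ZMod p) • dlt p x := by
    funext y
    rw [Finset.sum_apply, Finset.sum_eq_single y]
    · show (f y : ZMod p) = (f y : ZMod p) * (dlt p y y : ZMod p)
      unfold dlt
      rw [if_pos rfl, mul_one]
    · intro x _ hx
      show (f x : ZMod p) * (dlt p x y : ZMod p) = 0
      unfold dlt
      rw [if_neg hx.symm, mul_zero]
    · exact fun h => absurd (Finset.mem_univ y) h
  conv_rhs => rw [hf, map_sum]
  refine Finset.sum_congr rfl fun x _ => ?_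
  rw [phi_apply, map_smul, smul_eq_mul, dualPerm_apply]
  rw [mul_left_comm, ← mul_assoc (((omegaC p x)⁻¹ : (ZMod p)ˣ) : ZMod p), ← Units.val_mul,
    inv_mul_cancel, Units.val_one, one_mul]

theorem indSum_eqv_mu [Finite (GQ ⧸ H)] (g : GQ) (f : ind H (mu p)) :
    indSum H (mu p) ((ind H (mu p)).ρ g f) = (mu p).ρ g (indSum H (mu p) f) := by
  letI := Fintype.ofFinite (GQ ⧸ H)
  show ∑ x, (mu p).ρ g (f (g⁻¹ • x)) = (mu p).ρ g (∑ x, f x)
  rw [map_sum]
  exact Equiv.sum_comp (MulAction.toPerm g⁻¹) fun y => (mu p).ρ g (f y)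

/-- the pairing with the Tate dual as a symbol -/
theorem pair11_eq_symq (hG : OpenMu p H) [Finite (GQ ⧸ H)] (q : Nat.Primes)
    (a : lH1 q (ind H (mu p))) (y : lH1 q (dual' (ind H (mu p)))) :
    pair11 q hG.adm a y =
      h2push (loc q) (A := Rep.res (loc q) (ind H (mu p))) (B := Rep.res (loc q) (mu p))
        (indSum H (mu p)) (fun g => indSum_eqv_mu (loc q g))
        (symq hG q a (h1push (loc q) (A := Rep.res (loc q) (dual' (ind H (mu p))))
          (B := Rep.res (loc q) (ind H (mu p))) (dualPerm p H)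
          (fun g => dualPerm_eqv hG (loc q g)) y)) := by
  obtain ⟨z, rfl⟩ := Submodule.mkQ_surjective _ a
  obtain ⟨w, rfl⟩ := Submodule.mkQ_surjective _ y
  refine congrArg (h2mk _ _) (Subtype.ext (funext fun g => ?_))
  show evM (ind H (mu p)) (z.1 g.1) ((dual' (ind H (mu p))).ρ (loc q g.1) (w.1 g.2)) =
    indSum H (mu p) (phi p H (z.1 g.1)
      ((ind H (mu p)).ρ (loc q g.1) (dualPerm p H (w.1 g.2))))
  rw [← dualPerm_eqv hG, indSum_phi_dual]

/-- nondegeneracy at an orbit -/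
theorem exists_coord_single (hG : OpenMu p H) {q : Nat.Primes} (O : Orb q H)
    {a : lH1 q (ind H (mu p))} (ha : ev1 hG q O.out a ≠ 0) :
    ∃ b, coord hG q (symq hG q a b) O ≠ 0 ∧
      ∀ O', O' ≠ O → ev1 hG q O'.out b = 0 := by
  classical
  haveI := hG.finite
  have ha' : proj1 O a ≠ 0 := fun h => ha (by rw [← ev1_proj1_self hG O a, h, map_zero])
  obtain ⟨y, hy⟩ : ∃ y, pair11 q hG.adm (proj1 O a) y ≠ 0 := by
    by_contra h
    exact ha' ((pair11_bijective q hG.adm).1.1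
      ((LinearMap.ext fun y => not_not.mp fun hy => h ⟨y, hy⟩ :
        pair11 q hG.adm (proj1 O a) = 0).trans (map_zero _).symm))
  set b := h1push (loc q) (A := Rep.res (loc q) (dual' (ind H (mu p))))
    (B := Rep.res (loc q) (ind H (mu p))) (dualPerm p H) (fun g => dualPerm_eqv hG (loc q g)) y
    with hb
  have hne : symq hG q (proj1 O a) b ≠ 0 := fun h => hy (by rw [pair11_eq_symq hG q, ← hb, h, map_zero])
  refine ⟨proj1 O b, ?_, fun O' hO' => ev1_proj1_ne hG hO' b⟩
  intro h0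
  apply hne
  refine (coord_bijective hG q).1 ?_
  rw [map_zero]
  funext O'
  rcases eq_or_ne O' O with rfl | hO'
  · have e1 : coord hG q (symq hG q (proj1 O' a - a) b) O' = 0 := coord_symq_left hG O' (by
      rw [map_sub, ev1_proj1_self, sub_self]) b
    have e2 : coord hG q (symq hG q a (proj1 O' b - b)) O' = 0 := coord_symq_right hG O' a (by
      rw [map_sub, ev1_proj1_self, sub_self])
    simp only [map_sub, LinearMap.sub_apply, Pi.sub_apply, sub_eq_zero] at e1 e2
    rw [e1, ← e2]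
    exact h0
  · exact coord_symq_left hG O' (ev1_proj1_ne hG hO' a) b

end Coord

section Global

/-- values of a global class at the base coset -/
def base (hG : OpenMu p H) : G1 p H →ₗ[ZMod p] (H → ZMod p) :=
  Submodule.liftQ _
    { toFun := fun z h => z.1 h.1 ((1 : GQ) : GQ ⧸ H)
      map_add' := fun _ _ => rfl
      map_smul' := fun _ _ => rfl }
    fun z hz => by
      obtain ⟨m, hm⟩ := mem_B1_iff.1 hz
      funext h
      have hfix : (h : GQ) • ((1 : GQ) : GQ ⧸ H) = ((1 : GQ) : GQ ⧸ H) := by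
        rw [MulAction.Quotient.smul_mk, QuotientGroup.eq]
        simp
      have e := congrFun (hm h.1) ((1 : GQ) : GQ ⧸ H)
      show (z.1 h.1 _ : ZMod p) = 0
      rw [← show _ = (z.1 h.1 ((1 : GQ) : GQ ⧸ H) : ZMod p) from e]
      show ((ind H (mu p)).ρ (h : GQ) m _ : ZMod p) - (m _ : ZMod p) = 0
      rw [rho_perm, inv_smul_eq_iff.2 hfix.symm, hG.triv h.1 h.2, Units.val_one, one_mul, sub_self]

theorem isOrbitReps_one (H : Subgroup GQ) :
    IsOrbitReps (MonoidHom.id GQ) H {((1 : GQ) : GQ ⧸ H)} := by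
  intro x
  refine ⟨⟨_, rfl⟩, ⟨x.out, ?_⟩, fun y _ => Subtype.ext y.2⟩
  show x.out • ((1 : GQ) : GQ ⧸ H) = x
  rw [MulAction.Quotient.smul_mk, smul_eq_mul, mul_one]
  exact x.out_eq'

theorem mem_of_fix_one {g : GQ} (h : g • ((1 : GQ) : GQ ⧸ H) = ((1 : GQ) : GQ ⧸ H)) : g ∈ H := by
  rw [MulAction.Quotient.smul_mk, QuotientGroup.eq] at h
  simpa using h

theorem base_injective (hG : OpenMu p H) : Function.Injective (base hG) := by
  rw [injective_iff_map_eq_zero]
  intro a ha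
  obtain ⟨z, rfl⟩ := Submodule.mkQ_surjective _ a
  refine (shap1_bijective (f := MonoidHom.id GQ) (r := MonoidHom.id GQ) (r' := MonoidHom.id GQ)
    (fun _ => rfl) hG.opn (isAdm_mu p) (isOrbitReps_one H)).1 ?_
  rw [map_zero]
  funext ⟨_, rfl⟩
  show h1mk _ _ _ = 0
  refine (h1mk_eq_zero_iff _ _).2 ⟨0, fun g => ?_⟩
  rw [map_zero, sub_zero]
  exact (congrFun ha ⟨g.1, mem_of_fix_one (MulAction.mem_stabilizer_iff.1 g.2)⟩).symm

theorem base_mul (hG : OpenMu p H) (a : G1 p H) (h k : H) :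
    base hG a (h * k) = base hG a h + base hG a k := by
  obtain ⟨z, rfl⟩ := Submodule.mkQ_surjective _ a
  have e := congrFun ((mem_cocycles₁_iff _).1 z.2.1 h.1 k.1) ((1 : GQ) : GQ ⧸ H)
  show (z.1 (h.1 * k.1) _ : ZMod p) = _
  rw [show (z.1 (h.1 * k.1) ((1 : GQ) : GQ ⧸ H) : ZMod p) = _ from e]
  show ((ind H (mu p)).ρ (h : GQ) (z.1 k.1) _ : ZMod p) + (z.1 h.1 _ : ZMod p) = _ + _
  rw [rho_perm, hG.triv h.1 h.2, Units.val_one, one_mul, add_comm,
    inv_smul_eq_iff.2 (show ((1 : GQ) : GQ ⧸ H) = (h : GQ) • ((1 : GQ) : GQ ⧸ H) by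
      rw [MulAction.Quotient.smul_mk, QuotientGroup.eq]; simp)]
  rfl

theorem conj_mem {x : GQ ⧸ H} {g γ : GQ} (hx : (g : GQ ⧸ H) = x) (hγ : γ • x = x) :
    g⁻¹ * γ * g ∈ H := by
  rw [← hx, MulAction.Quotient.smul_mk, eq_comm, QuotientGroup.eq] at hγ
  rwa [mul_assoc]

/-- values at the other cosets -/
theorem ev1_res1 (hG : OpenMu p H) (q : Nat.Primes) (a : G1 p H) (g : GQ)
    (γ : stq q (g : GQ ⧸ H)) :
    ev1 hG q (g : GQ ⧸ H) (res1 q _ a) γ = (ExtCitation.cycloChar p g : ZMod p) *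
      base hG a ⟨g⁻¹ * loc q γ.1 * g, conj_mem rfl (smul_stq γ)⟩ := by
  obtain ⟨z, rfl⟩ := Submodule.mkQ_surjective _ a
  set x0 : GQ ⧸ H := ((1 : GQ) : GQ ⧸ H)
  set k : GQ := g⁻¹ * loc q γ.1 * g
  have hc := (mem_cocycles₁_iff _).1 z.2.1
  have e1 : z.1 (g * k) = (ind H (mu p)).ρ g (z.1 k) + z.1 g := hc g k
  have e2 : z.1 (loc q γ.1 * g) = (ind H (mu p)).ρ (loc q γ.1) (z.1 g) + z.1 (loc q γ.1) :=
    hc (loc q γ.1) g
  rw [show g * k = loc q γ.1 * g by simp [k, mul_assoc]] at e1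
  have e := congrFun (e2.symm.trans e1) (g : GQ ⧸ H)
  show (z.1 (loc q γ.1) (g : GQ ⧸ H) : ZMod p) = _ * (z.1 k x0 : ZMod p)
  have e' : ((ind H (mu p)).ρ (loc q γ.1) (z.1 g) (g : GQ ⧸ H) : ZMod p) +
      (z.1 (loc q γ.1) (g : GQ ⧸ H) : ZMod p) =
      ((ind H (mu p)).ρ g (z.1 k) (g : GQ ⧸ H) : ZMod p) + (z.1 g (g : GQ ⧸ H) : ZMod p) := e
  rw [rho_perm, rho_perm, inv_smul_eq_iff.2 (smul_stq γ).symm,
    omega_eq_one_of_fix hG (smul_stq γ), Units.val_one, one_mul,
    inv_smul_eq_iff.2 (show (g : GQ ⧸ H) = g • x0 by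
      rw [MulAction.Quotient.smul_mk, smul_eq_mul, mul_one])] at e'
  linear_combination e'

/-- the places -/
abbrev Pl (H : Subgroup GQ) : Type := Σ q : Nat.Primes, Orb q H

/-- vanishing of a class at a place -/
def evP (hG : OpenMu p H) (v : Pl H) : G1 p H →ₗ[ZMod p] (stq v.1 v.2.out → ZMod p) :=
  ev1 hG v.1 v.2.out ∘ₗ res1 v.1 _

theorem finite_loc2 (hG : OpenMu p H) (c : G2 p H) :
    (Function.support fun v : Pl H => coord hG v.1 (res2 v.1 _ c) v.2).Finite := by
  haveI := hG.finite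
  refine Set.Finite.subset (Set.Finite.biUnion (t := fun q => Set.range fun O : Orb q H => (⟨q, O⟩ : Pl H))
    (finite_res2 hG.adm c) fun q _ => Set.finite_range _) ?_
  rintro ⟨q, O⟩ h
  exact Set.mem_biUnion (fun h0 => h (by show coord hG q (res2 q _ c) O = 0; rw [h0, map_zero]; rfl)) ⟨O, rfl⟩

/-- localisation of the classes of degree two -/
def loc2 (hG : OpenMu p H) : G2 p H →ₗ[ZMod p] (Pl H →₀ ZMod p) where
  toFun c := Finsupp.ofSupportFinite _ (finite_loc2 hG c)
  map_add' c c' := Finsupp.ext fun v => by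
    show coord hG v.1 (res2 v.1 _ (c + c')) v.2 = _
    rw [map_add, map_add]
    rfl
  map_smul' k c := Finsupp.ext fun v => by
    show coord hG v.1 (res2 v.1 _ (k • c)) v.2 = _
    rw [map_smul, map_smul]
    rfl

theorem loc2_apply (hG : OpenMu p H) (c : G2 p H) (v : Pl H) :
    loc2 hG c v = coord hG v.1 (res2 v.1 _ c) v.2 := rfl

theorem loc2_eq_zero_iff (hG : OpenMu p H) (c : G2 p H) :
    loc2 hG c = 0 ↔ ∀ q, res2 q _ c = 0 := by
  refine ⟨fun h q => (coord_bijective hG q).1 ?_, fun h => Finsupp.ext fun v => ?_⟩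
  · rw [map_zero]
    exact funext fun O => DFunLike.congr_fun h (⟨q, O⟩ : Pl H)
  · rw [loc2_apply, h, map_zero]
    rfl

theorem loc2_sym (hG : OpenMu p H) (a b : G1 p H) (v : Pl H) :
    loc2 hG (sym hG a b) v = coord hG v.1 (symq hG v.1 (res1 v.1 _ a) (res1 v.1 _ b)) v.2 := by
  rw [loc2_apply, res2_sym]

theorem loc2_sym_left (hG : OpenMu p H) {a : G1 p H} (b : G1 p H) {v : Pl H}
    (h : evP hG v a = 0) : loc2 hG (sym hG a b) v = 0 := by
  rw [loc2_sym]; exact coord_symq_left hG v.2 h _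

theorem loc2_sym_right (hG : OpenMu p H) (a : G1 p H) {b : G1 p H} {v : Pl H}
    (h : evP hG v b = 0) : loc2 hG (sym hG a b) v = 0 := by
  rw [loc2_sym]; exact coord_symq_right hG v.2 _ h

end Global

end FLTAgent.PT
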