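import Fermat.Agent.PT.Global.Units

/-!
The cyclic extension of degree `p` cut out by a Kummer class: cosets, places, norms.
-/

set_option autoImplicit false
set_option linter.unusedSectionVars false
set_option linter.style.haveILetI false

noncomputable section

open CategoryTheory groupCohomology IntermediateField

namespace FLTAgent.PT

variable {p : ℕ} [Fact p.Prime] {H : Subgroup GQ}

/-- the algebraic closure of `ℚ` -/
local notation "Qb" => AlgebraicClosure ℚ

theorem base_one (hG : OpenMu p H) (a : G1 p H) : base hG a 1 = 0 := by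
  have h := base_mul hG a 1 1
  rwa [mul_one, left_eq_add] at h

theorem base_inv (hG : OpenMu p H) (a : G1 p H) (g : H) : base hG a g⁻¹ = -base hG a g := by
  refine eq_neg_of_add_eq_zero_left ?_
  rw [← base_mul, inv_mul_cancel, base_one]

theorem base_pow (hG : OpenMu p H) (a : G1 p H) (g : H) (n : ℕ) :
    base hG a (g ^ n) = n * base hG a g := by
  induction n with
  | zero => rw [pow_zero, base_one, Nat.cast_zero, zero_mul]
  | succ n ih => rw [pow_succ, base_mul, ih]; push_cast; ring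

theorem exists_base_eq_one (hG : OpenMu p H) {a : G1 p H} (ha : a ≠ 0) :
    ∃ h : H, base hG a h = 1 := by
  obtain ⟨g, hg⟩ : ∃ g, base hG a g ≠ 0 := by
    by_contra! h
    exact ha (base_injective hG ((funext h : base hG a = 0).trans (map_zero _).symm))
  exact ⟨g ^ ((base hG a g)⁻¹).val, by
    rw [base_pow, ZMod.natCast_zmod_val, inv_mul_cancel₀ hg]⟩

/-- the kernel of the character of a class -/
def kerH (hG : OpenMu p H) (a : G1 p H) : Subgroup GQ where
  carrier := {g | ∃ h : g ∈ H, base hG a ⟨g, h⟩ = 0}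
  one_mem' := ⟨one_mem H, base_one hG a⟩
  mul_mem' := fun {g k} ⟨hg, eg⟩ ⟨hk, ek⟩ => ⟨mul_mem hg hk, by
    rw [show (⟨g * k, mul_mem hg hk⟩ : H) = ⟨g, hg⟩ * ⟨k, hk⟩ from rfl, base_mul, eg, ek, add_zero]⟩
  inv_mem' := fun {g} ⟨hg, eg⟩ => ⟨inv_mem hg, by
    rw [show (⟨g⁻¹, inv_mem hg⟩ : H) = ⟨g, hg⟩⁻¹ from rfl, base_inv, eg, neg_zero]⟩

theorem kerH_le (hG : OpenMu p H) (a : G1 p H) : kerH hG a ≤ H := fun _ h => h.1

theorem mem_kerH_iff (hG : OpenMu p H) (a : G1 p H) (h : H) :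
    (h : GQ) ∈ kerH hG a ↔ base hG a h = 0 := ⟨fun ⟨_, e⟩ => e, fun e => ⟨h.2, e⟩⟩

theorem openMu_kerH (hG : OpenMu p H) (a : G1 p H) : OpenMu p (kerH hG a) := by
  refine ⟨?_, fun h hh => hG.triv h (kerH_le hG a hh)⟩
  obtain ⟨F, hF, hle⟩ := hG.opn
  obtain ⟨E, hE, hEa⟩ := base_level hG a
  haveI := hF; haveI := hE
  refine ⟨F ⊔ E, inferInstance, fun g hg => ?_⟩
  have hg' : g ∈ H := hle (IntermediateField.fixingSubgroup_antitone le_sup_left hg)
  exact ⟨hg', hEa ⟨g, hg'⟩ (IntermediateField.fixingSubgroup_antitone le_sup_right hg)⟩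

/-- the projection of cosets -/
def prC (hG : OpenMu p H) (a : G1 p H) : GQ ⧸ kerH hG a → GQ ⧸ H :=
  Quotient.map' id fun x y h => by
    rw [QuotientGroup.leftRel_apply] at h ⊢
    exact kerH_le hG a h

theorem prC_mk (hG : OpenMu p H) (a : G1 p H) (g : GQ) :
    prC hG a (g : GQ ⧸ kerH hG a) = (g : GQ ⧸ H) := rfl

theorem prC_smul (hG : OpenMu p H) (a : G1 p H) (g : GQ) (x : GQ ⧸ kerH hG a) :
    prC hG a (g • x) = g • prC hG a x := by
  induction x using QuotientGroup.induction_on with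
  | H b => rfl

/-- the cosets over a coset -/
def lift' (hG : OpenMu p H) (a : G1 p H) (h0 : H) (g : GQ) (i : ZMod p) : GQ ⧸ kerH hG a :=
  ((g * (h0 : GQ) ^ i.val : GQ) : GQ ⧸ kerH hG a)

section Gen

variable {hG : OpenMu p H} {a : G1 p H} {h0 : H} (hh0 : base hG a h0 = 1)

include hh0

theorem base_h0_pow (i : ZMod p) : base hG a (h0 ^ i.val) = i := by
  rw [base_pow, hh0, mul_one, ZMod.natCast_zmod_val]

theorem lift'_eq_iff (g : GQ) (k : H) (i : ZMod p) :
    ((g * (k : GQ) : GQ) : GQ ⧸ kerH hG a) = lift' hG a h0 g i ↔ base hG a k = i := by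
  rw [lift', QuotientGroup.eq,
    show (g * (k : GQ))⁻¹ * (g * (h0 : GQ) ^ i.val) = ((k⁻¹ * h0 ^ i.val : H) : GQ) by
      push_cast; group,
    mem_kerH_iff, base_mul, base_inv, base_h0_pow hh0, neg_add_eq_zero]

theorem lift'_bijective :
    Function.Bijective fun z : (GQ ⧸ H) × ZMod p => lift' hG a h0 z.1.out z.2 := by
  constructor
  · rintro ⟨x, i⟩ ⟨y, j⟩ h
    have hxy : x = y := by
      have e := congrArg (prC hG a) h
      simp only [lift', prC_mk] at e
      rw [← x.out_eq', ← y.out_eq']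
      have hm : ∀ (z : GQ) (n : ℕ), ((z * (h0 : GQ) ^ n : GQ) : GQ ⧸ H) = (z : GQ ⧸ H) :=
        fun z n => QuotientGroup.eq.2 (by simpa using pow_mem (inv_mem h0.2) n)
      rw [hm, hm] at e
      exact e
    subst hxy
    have e := (lift'_eq_iff hh0 x.out (h0 ^ i.val) j).1 (by simpa [lift'] using h)
    rw [base_h0_pow hh0] at e
    rw [e]
  · intro y
    induction y using QuotientGroup.induction_on with
    | H g =>
      obtain ⟨k, hk⟩ := QuotientGroup.mk_out_eq_mul H g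
      refine ⟨((g : GQ ⧸ H), base hG a k⁻¹), ((lift'_eq_iff hh0 _ k⁻¹ _).2 rfl).symm.trans ?_⟩
      rw [hk, Subgroup.coe_inv, mul_inv_cancel_right]

theorem smul_lift' {g : GQ} {γ : GQ} (hγ : γ • (g : GQ ⧸ H) = (g : GQ ⧸ H)) (i : ZMod p) :
    γ • lift' hG a h0 g i =
      lift' hG a h0 g (base hG a ⟨g⁻¹ * γ * g, conj_mem rfl hγ⟩ + i) := by
  conv_lhs => rw [lift', MulAction.Quotient.smul_mk]
  have e : γ • (g * (h0 : GQ) ^ i.val) =
      g * ((⟨g⁻¹ * γ * g, conj_mem rfl hγ⟩ * h0 ^ i.val : H) : GQ) := by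
    push_cast
    rw [smul_eq_mul]
    group
  rw [e, lift'_eq_iff hh0, base_mul, base_h0_pow hh0]

theorem index_kerH : (kerH hG a).index = p * H.index := by
  have h := Nat.card_congr (Equiv.ofBijective _ (lift'_bijective hh0))
  rw [Nat.card_prod, Nat.card_zmod] at h
  show Nat.card (GQ ⧸ kerH hG a) = p * Nat.card (GQ ⧸ H)
  rw [← h, mul_comm]

end Gen

/-- the place below -/
def belowP (hG : OpenMu p H) (a : G1 p H) (v : Pl (kerH hG a)) : Pl H :=
  ⟨v.1, orb v.1 (prC hG a v.2.out)⟩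

theorem belowP_mk (hG : OpenMu p H) (a : G1 p H) (q : Nat.Primes) (x : GQ ⧸ kerH hG a) :
    belowP hG a ⟨q, orb q x⟩ = ⟨q, orb q (prC hG a x)⟩ := by
  obtain ⟨g, hg⟩ := orb_eq_iff.1 (orb q x).out_eq'.symm
  refine congrArg (Sigma.mk q) ?_
  show orb q (prC hG a (orb q x).out) = orb q (prC hG a x)
  conv_rhs => rw [← hg, prC_smul, orb_smul]

theorem card_fibre (hG : OpenMu p H) {a : G1 p H} (ha : a ≠ 0) (v : Pl H) :
    (evP hG v a = 0 → Nat.card {O : Orb v.1 (kerH hG a) // belowP hG a ⟨v.1, O⟩ = v} = p) ∧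
    (evP hG v a ≠ 0 → Nat.card {O : Orb v.1 (kerH hG a) // belowP hG a ⟨v.1, O⟩ = v} = 1) := by
  obtain ⟨q, O⟩ := v
  obtain ⟨h0, hh0⟩ := exists_base_eq_one hG ha
  set g := O.out.out
  have hgO : (g : GQ ⧸ H) = O.out := O.out.out_eq'
  have hb : ∀ i : ZMod p, belowP hG a ⟨q, orb q (lift' hG a h0 g i)⟩ = ⟨q, O⟩ := fun i => by
    rw [belowP_mk, lift', prC_mk]
    congr 1
    rw [← O.out_eq', ← hgO]
    exact congrArg (orb q) (QuotientGroup.eq.2 (by simpa using pow_mem (inv_mem h0.2) i.val))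
  let f : ZMod p → {O' : Orb q (kerH hG a) // belowP hG a ⟨q, O'⟩ = ⟨q, O⟩} :=
    fun i => ⟨orb q (lift' hG a h0 g i), hb i⟩
  have hsurj : Function.Surjective f := by
    rintro ⟨O', hO'⟩
    have e : orb q (prC hG a O'.out) = O := eq_of_heq (Sigma.mk.inj_iff.1 hO').2
    obtain ⟨γ, hγ⟩ := orb_eq_iff.1 ((O.out_eq').trans e.symm)
    obtain ⟨⟨x, i⟩, hi⟩ := (lift'_bijective hh0).2 (loc q γ • O'.out)
    have hx : x = O.out := by
      have e2 := congrArg (prC hG a) hi
      simp only [lift', prC_mk, prC_smul, hγ] at e2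
      rw [← e2, ← x.out_eq']
      exact (QuotientGroup.eq.2 (by simpa using pow_mem (inv_mem h0.2) i.val)).symm
    subst hx
    refine ⟨i, Subtype.ext ?_⟩
    show orb q (lift' hG a h0 g i) = O'
    rw [show lift' hG a h0 g i = loc q γ • O'.out from hi, orb_smul]
    exact O'.out_eq'
  have hev : ∀ γ : stq q (g : GQ ⧸ H), ev1 hG q (g : GQ ⧸ H) (res1 q _ a) γ =
      (ExtCitation.cycloChar p g : ZMod p) *
        base hG a ⟨g⁻¹ * loc q γ.1 * g, conj_mem rfl (smul_stq γ)⟩ := ev1_res1 hG q a g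
  constructor
  · intro h
    have hinj : Function.Injective f := by
      intro i j hij
      obtain ⟨γ, hγ⟩ := orb_eq_iff.1 (congrArg Subtype.val hij)
      have hfix : loc q γ • (g : GQ ⧸ H) = (g : GQ ⧸ H) := by
        have e2 := congrArg (prC hG a) hγ
        simp only [prC_smul, lift', prC_mk] at e2
        have hm : ∀ n : ℕ, ((g * (h0 : GQ) ^ n : GQ) : GQ ⧸ H) = (g : GQ ⧸ H) :=
          fun n => QuotientGroup.eq.2 (by simpa using pow_mem (inv_mem h0.2) n)
        rwa [hm, hm] at e2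
      have hmem : γ ∈ stq q (g : GQ ⧸ H) := MulAction.mem_stabilizer_iff.2 hfix
      have h1 : ev1 hG q (g : GQ ⧸ H) (res1 q _ a) = 0 := hgO ▸ h
      have h2 := (hev ⟨γ, hmem⟩).symm.trans (congrFun h1 ⟨γ, hmem⟩)
      have h3 := (mul_eq_zero.1 h2).resolve_left (Units.ne_zero _)
      rw [smul_lift' hh0 hfix, h3, zero_add] at hγ
      have h4 := (lift'_bijective (hG := hG) (a := a) hh0).1 (a₁ := (O.out, j)) (a₂ := (O.out, i)) hγ
      exact (congrArg Prod.snd h4).symm
    rw [← Nat.card_congr (Equiv.ofBijective f ⟨hinj, hsurj⟩), Nat.card_zmod]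
  · intro h
    obtain ⟨γ, hγ⟩ : ∃ γ, ev1 hG q (g : GQ ⧸ H) (res1 q _ a) γ ≠ 0 := by
      by_contra! h'
      exact h (show ev1 hG q O.out (res1 q _ a) = 0 from hgO ▸ funext h')
    set c := base hG a ⟨g⁻¹ * loc q γ.1 * g, conj_mem rfl (smul_stq γ)⟩
    have hc : c ≠ 0 := fun h0' => hγ (by rw [hev, show base hG a _ = 0 from h0', mul_zero])
    have hconst : ∀ i, f (c + i) = f i := fun i => Subtype.ext (by
      show orb q (lift' hG a h0 g (c + i)) = orb q (lift' hG a h0 g i)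
      rw [← smul_lift' hh0 (smul_stq γ), orb_smul])
    have hn : ∀ n : ℕ, f ((n : ZMod p) * c) = f 0 := fun n => by
      induction n with
      | zero => rw [Nat.cast_zero, zero_mul]
      | succ n ih => rw [Nat.cast_succ, add_mul, one_mul, add_comm, hconst, ih]
    rw [Nat.card_eq_one_iff_unique]
    refine ⟨⟨fun x y => ?_⟩, ⟨f 0⟩⟩
    obtain ⟨i, rfl⟩ := hsurj x
    obtain ⟨j, rfl⟩ := hsurj y
    have e : ∀ k : ZMod p, f k = f 0 := fun k => by
      rw [← hn (k * c⁻¹).val, ZMod.natCast_zmod_val, inv_mul_cancel_right₀ hc]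
    rw [e i, e j]

/-- the places of the extension over a finite set -/
def aboveT (hG : OpenMu p H) (a : G1 p H) (T : Finset (Pl H)) : Finset (Pl (kerH hG a)) :=
  haveI := fun q => @Fintype.ofFinite (Orb q (kerH hG a)) ((openMu_kerH hG a).finite_orb q)
  haveI := Classical.decPred fun w : Pl (kerH hG a) => belowP hG a w ∈ T
  ((T.image Sigma.fst).sigma fun _ => Finset.univ).filter fun w => belowP hG a w ∈ T

theorem mem_aboveT {hG : OpenMu p H} {a : G1 p H} {T : Finset (Pl H)} {w : Pl (kerH hG a)} :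
    w ∈ aboveT hG a T ↔ belowP hG a w ∈ T := by
  simp only [aboveT, Finset.mem_filter, Finset.mem_sigma, Finset.mem_univ, and_true,
    and_iff_right_iff_imp]
  exact fun h => Finset.mem_image.2 ⟨_, h, rfl⟩

open Classical in
theorem card_aboveT (hG : OpenMu p H) {a : G1 p H} (ha : a ≠ 0) (T : Finset (Pl H)) :
    (aboveT hG a T).card + (p - 1) * (T.filter fun v => evP hG v a ≠ 0).card = p * T.card := by
  rw [Finset.card_eq_sum_card_fiberwise (f := belowP hG a) (t := T)
    (fun w hw => mem_aboveT.1 hw), Finset.card_filter, Finset.mul_sum, ← Finset.sum_add_distrib,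
    mul_comm p, ← smul_eq_mul T.card, ← Finset.sum_const]
  refine Finset.sum_congr rfl fun v hv => ?_
  have hc : ((aboveT hG a T).filter fun w => belowP hG a w = v).card =
      Nat.card {O : Orb v.1 (kerH hG a) // belowP hG a ⟨v.1, O⟩ = v} := by
    rw [← Nat.card_eq_finsetCard]
    refine Nat.card_congr
      { toFun := fun w => ?_
        invFun := fun O => ⟨⟨v.1, O.1⟩, Finset.mem_filter.2 ⟨mem_aboveT.2 (O.2.symm ▸ hv), O.2⟩⟩
        left_inv := ?_
        right_inv := ?_ }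
    · have h := (Finset.mem_filter.1 w.2).2
      exact ⟨(congrArg Sigma.fst h) ▸ w.1.2, by
        obtain ⟨⟨q, O⟩, hw⟩ := w
        obtain rfl : q = v.1 := congrArg Sigma.fst (Finset.mem_filter.1 hw).2
        exact (Finset.mem_filter.1 hw).2⟩
    · rintro ⟨⟨q, O⟩, hw⟩
      obtain rfl : q = v.1 := congrArg Sigma.fst (Finset.mem_filter.1 hw).2
      rfl
    · rintro ⟨O, hO⟩
      rfl
  rw [hc]
  obtain ⟨h1, h2⟩ := card_fibre hG ha v
  have hp := (Fact.out : p.Prime).one_lt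
  by_cases h : evP hG v a = 0
  · rw [h1 h, if_neg (fun h' => h' h), mul_zero, add_zero]
  · rw [h2 h, if_pos h, mul_one]
    omega

section Norm

theorem mem_fld_kerH {hG : OpenMu p H} {a : G1 p H} {z : Qb} (hz : z ∈ Fld (kerH hG a))
    {g k : H} (h : base hG a g = base hG a k) : (g : GQ) z = (k : GQ) z := by
  have hm : ((k⁻¹ * g : H) : GQ) ∈ kerH hG a := by
    rw [mem_kerH_iff, base_mul, base_inv, h, neg_add_cancel]
  have e := mem_fld.1 hz _ hm
  rw [Subgroup.coe_mul, Subgroup.coe_inv, AlgEquiv.mul_apply] at e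
  conv_rhs => rw [← e]
  exact (AlgEquiv.apply_symm_apply (k : GQ) _).symm

set_option maxHeartbeats 800000 in
/-- norms give vanishing symbols -/
theorem sym_norm_eq_zero (hG : OpenMu p H) (a : G1 p H) {h0 : H} (hh0 : base hG a h0 = 1)
    {y : (Fld H)ˣ} {z : Qb} (hz : z ∈ Fld (kerH hG a))
    (hy : ((y : Fld H) : Qb) = ∏ i : ZMod p, ((h0 : GQ) ^ i.val) z) :
    sym hG (kappa hG (Additive.ofMul y)) a = 0 := by
  classical
  haveI : NeZero p := ⟨(Fact.out : p.Prime).ne_zero⟩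
  haveI : Algebra.IsIntegral ℚ Qb := ⟨fun x =>
    (FLTAgent.Common.isAlgebraic_qbar.isAlgebraic x).isIntegral⟩
  obtain ⟨u, hu⟩ := IsAlgClosed.exists_pow_nat_eq z (n := p) (NeZero.pos p)
  have hz0 : z ≠ 0 := fun h => y.ne_zero (Subtype.ext (by
    rw [hy, Finset.prod_eq_zero (Finset.mem_univ (0 : ZMod p)) (by rw [h, map_zero])]; rfl))
  set U : ZMod p → Qb := fun i => ((h0 : GQ) ^ i.val) u with hUdef
  have hU0 : ∀ i, U i ≠ 0 := fun i => (map_ne_zero _).2 fun h => hz0 (by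
    rw [← hu, h, zero_pow (NeZero.ne p)])
  set χ := base hG a
  have key : ∀ (h : H) (i : ZMod p), ∃ b : ZMod p,
      (h : GQ) (U i) = zeta p ^ b.val * U (i + χ h) := by
    intro h i
    have e : ((h : GQ) (U i) / U (i + χ h)) ^ p = 1 := by
      rw [div_pow, hUdef]
      show ((h : GQ) (((h0 : GQ) ^ i.val) u)) ^ p / (((h0 : GQ) ^ (i + χ h).val) u) ^ p = 1
      rw [← map_pow, ← map_pow, ← map_pow, hu, ← AlgEquiv.mul_apply]
      have := mem_fld_kerH (hG := hG) (a := a) hz (g := h * h0 ^ i.val) (k := h0 ^ (i + χ h).val)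
        (by rw [base_mul, base_h0_pow hh0, base_h0_pow hh0, add_comm])
      push_cast at this
      rw [this, div_self ((map_ne_zero _).2 hz0)]
    obtain ⟨n, hn, hne⟩ := zeta_spec.eq_pow_of_pow_eq_one e
    exact ⟨(n : ZMod p), by
      rw [ZMod.val_natCast, Nat.mod_eq_of_lt hn, hne, div_mul_cancel₀ _ (hU0 _)]⟩
  choose b hb using key
  have hmul : ∀ (g k : H) (i : ZMod p), b (g * k) i = b k i + b g (i + χ k) := fun g k i => by
    refine zeta_pow_injective (mul_right_cancel₀ (hU0 (i + χ (g * k))) ?_)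
    show zeta p ^ (b (g * k) i).val * U (i + χ (g * k)) = _
    rw [← hb, Subgroup.coe_mul, AlgEquiv.mul_apply, hb k, map_mul, map_pow, hG.fix_zeta g.2, hb g]
    show _ = zeta p ^ (b k i + b g (i + χ k)).val * _
    rw [pow_zeta_add, mul_assoc, show χ (g * k) = χ g + χ k from base_mul hG a g k, add_assoc,
      add_comm (χ g) (χ k)]
  set r : Qb := ∏ i, U i
  have hr : r ^ p = ((y : Fld H) : Qb) := by
    rw [hy, ← Finset.prod_pow]
    exact Finset.prod_congr rfl fun i _ => by rw [← map_pow, hu]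
  have hr0 : r ≠ 0 := Finset.prod_ne_zero_iff.2 fun i _ => hU0 i
  have hψ : IsKum p r (fun h : H => ∑ i, b h i) := fun h => by
    rw [map_prod]
    calc ∏ i, (h : GQ) (U i) = ∏ i, zeta p ^ (b h i).val * U (i + χ h) :=
          Finset.prod_congr rfl fun i _ => hb h i
      _ = (∏ i, zeta p ^ (b h i).val) * ∏ i, U (i + χ h) := Finset.prod_mul_distrib
      _ = zeta p ^ (∑ i, b h i).val * r := by
        congr 1
        · refine Finset.cons_induction ?_ (fun i s hi ih => ?_) (Finset.univ : Finset (ZMod p))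
          · simp
          · rw [Finset.prod_cons, Finset.sum_cons, pow_zeta_add, ih]
        · exact Equiv.prod_comp (Equiv.addRight (χ h)) U
  have hbase : base hG (kappa hG (Additive.ofMul y)) = fun h : H => ∑ i, b h i :=
    IsKum.unique hr0 (kappa_isKum hG y hr) hψ
  -- the primitive
  set Φ : H → ZMod p := fun h => ∑ i, i * b h i
  have hΦ : ∀ g k : H, Φ g + Φ k - Φ (g * k) = χ k * ∑ i, b g i := fun g k => by
    have e : ∑ i, i * b g (i + χ k) = Φ g - χ k * ∑ i, b g i := by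
      rw [← Equiv.sum_comp (Equiv.addRight (-χ k)) fun i => i * b g (i + χ k)]
      simp only [Equiv.coe_addRight, neg_add_cancel_right]
      rw [Finset.mul_sum, ← Finset.sum_sub_distrib]
      exact Finset.sum_congr rfl fun i _ => by ring
    show Φ g + Φ k - ∑ i, i * b (g * k) i = _
    simp only [hmul, mul_add, Finset.sum_add_distrib, e]
    show Φ g + Φ k - (Φ k + _) = _
    ring
  obtain ⟨E, hE, hEa⟩ := base_level hG a
  haveI := hE
  haveI : FiniteDimensional ℚ (IntermediateField.adjoin ℚ (Set.range U)) :=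
    IntermediateField.finiteDimensional_adjoin fun x _ => Algebra.IsIntegral.isIntegral x
  have hlev : ∀ g s : H, (s : GQ) ∈ (E ⊔ IntermediateField.adjoin ℚ (Set.range U)).fixingSubgroup →
      Φ (g * s) = Φ g := by
    intro g s hs
    have hχ : χ s = 0 := hEa s (IntermediateField.fixingSubgroup_antitone le_sup_left hs)
    have hbs : ∀ i, b s i = 0 := fun i => zeta_pow_injective (mul_right_cancel₀ (hU0 i) (by
      show zeta p ^ (b s i).val * U i = zeta p ^ (0 : ZMod p).val * U i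
      have e := hb s i
      rw [hχ, add_zero] at e
      rw [← e, ZMod.val_zero, pow_zero, one_mul]
      exact (IntermediateField.mem_fixingSubgroup_iff _ _).mp
        (IntermediateField.fixingSubgroup_antitone le_sup_right hs) _
        (IntermediateField.subset_adjoin ℚ _ ⟨i, rfl⟩)))
    show ∑ i, i * b (g * s) i = _
    simp only [hmul, hbs, hχ, zero_add, add_zero]
    rfl
  obtain ⟨w, hw⟩ := Submodule.mkQ_surjective _ (kappa hG (Additive.ofMul y))
  obtain ⟨za, hza⟩ := Submodule.mkQ_surjective _ a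
  refine (shap2_bijective (f := MonoidHom.id GQ) (r := MonoidHom.id GQ) (r' := MonoidHom.id GQ)
    (fun _ => rfl) hG.opn (isAdm_mu p) (isOrbitReps_one H)).1 ?_
  rw [map_zero]
  funext ⟨_, rfl⟩
  rw [← hw, ← hza]
  have hS : ∀ g : stabAt (MonoidHom.id GQ) H ((1 : GQ) : GQ ⧸ H), (g : GQ) ∈ H :=
    fun g => mem_of_fix_one (MulAction.mem_stabilizer_iff.1 g.2)
  refine (continuousH2π_eq_zero_iff _ _ _).2 ((mem_levelCoboundaries₂_iff _ _ _).2
    ⟨fun g => Φ ⟨g, hS g⟩, ⟨_, inferInstance, fun g s hs => hlev ⟨g, hS g⟩ ⟨s, hS s⟩ hs⟩, ?_⟩)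
  funext ⟨g, k⟩
  rw [d₁₂_hom_apply]
  show (((mu p).ρ (g : GQ) (Φ ⟨k, hS k⟩) : ZMod p) - Φ (⟨g, hS g⟩ * ⟨k, hS k⟩) + Φ ⟨g, hS g⟩) =
    (phi p H (w.1 (g : GQ)) ((ind H (mu p)).ρ (g : GQ) (za.1 (k : GQ))) ((1 : GQ) : GQ ⧸ H) : ZMod p)
  rw [phi_apply, rho_perm, omegaC_mk hG, map_one, inv_one, Units.val_one, one_mul,
    hG.triv _ (hS g), Units.val_one, one_mul,
    inv_smul_eq_iff.2 (MulAction.mem_stabilizer_iff.1 g.2).symm]
  have e1 : (w.1 (g : GQ) ((1 : GQ) : GQ ⧸ H) : ZMod p) = ∑ i, b ⟨g, hS g⟩ i := by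
    have := congrFun hbase ⟨g, hS g⟩
    rw [← hw] at this
    exact this
  have e2 : (za.1 (k : GQ) ((1 : GQ) : GQ ⧸ H) : ZMod p) = χ ⟨k, hS k⟩ := by
    show _ = base hG a ⟨k, hS k⟩
    rw [← hza]
    rfl
  rw [e1, e2, show ((mu p).ρ (g : GQ) (Φ ⟨k, hS k⟩) : ZMod p) = Φ ⟨k, hS k⟩ by
    simp [Representation.twist_apply, hG.triv (g : GQ) (hS g)], mul_comm, ← hΦ]
  ring

end Norm

end FLTAgent.PT
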