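import Fermat.Agent.PT.Global.Cyclic

/-!
The norm index of the `T`-units in the cyclic extension of a Kummer class.
-/

set_option autoImplicit false
set_option linter.unusedSectionVars false
set_option linter.style.haveILetI false

noncomputable section

open CategoryTheory groupCohomology IntermediateField

namespace FLTAgent.PT

variable {p : ℕ} [Fact p.Prime] {H : Subgroup GQ}

/-- the algebraic closure of `ℚ` -/
local notation "Qb" => AlgebraicClosure ℚ

/-- a set of places containing a good set outside which the class is unramified -/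
def Adm [NumberField ↥(Fld H)] (hG : OpenMu p H) (a : G1 p H) (T : Finset (Pl H)) : Prop :=
  a ∈ KT hG T ∧ ∃ T₀ : Finset Nat.Primes, GoodT hG T₀ ∧ plT hG T₀ ⊆ T

variable (hG : OpenMu p H) (a : G1 p H) (h0 : H)

theorem fld_le_kerH : Fld H ≤ Fld (kerH hG a) :=
  fun _ hx => mem_fld.2 fun h hh => mem_fld.1 hx h (kerH_le hG a hh)

/-- the inclusion of the units -/
def upF : (Fld H)ˣ →* (Fld (kerH hG a))ˣ :=
  Units.map (IntermediateField.inclusion (fld_le_kerH hG a)).toRingHom.toMonoidHom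

theorem coe_upF (y : (Fld H)ˣ) :
    (((upF hG a y : (Fld (kerH hG a))ˣ) : Fld (kerH hG a)) : Qb) = ((y : Fld H) : Qb) := rfl

theorem emb_upF (y : (Fld H)ˣ) (x : GQ ⧸ kerH hG a) :
    emb x ((upF hG a y : (Fld (kerH hG a))ˣ) : Fld (kerH hG a)) =
      emb (prC hG a x) (y : Fld H) := by
  induction x using QuotientGroup.induction_on with
  | H g => rfl

theorem gen_mem {z : Qb} (hz : z ∈ Fld (kerH hG a)) : (h0 : GQ) z ∈ Fld (kerH hG a) :=
  mem_fld.2 fun k hk => by
    rw [← AlgEquiv.mul_apply]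
    exact mem_fld_kerH (g := ⟨k, hk.1⟩ * h0) (k := h0) hz (by
      rw [base_mul, (mem_kerH_iff hG a ⟨k, hk.1⟩).1 hk, zero_add])

/-- the generator as a ring endomorphism -/
def sgmR : Fld (kerH hG a) →+* Fld (kerH hG a) :=
  (((h0 : GQ).toAlgHom.comp (Fld (kerH hG a)).val).toRingHom).codRestrict
    (Fld (kerH hG a)) fun x => gen_mem hG a h0 x.2

variable [NumberField ↥(Fld H)] [NumberField ↥(Fld (kerH hG a))]

theorem mem_TU_kerH {T : Finset (Pl H)} {z : (Fld (kerH hG a))ˣ} :
    z ∈ TU (prs (openMu_kerH hG a) (aboveT hG a T)) ↔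
      ∀ (q : Nat.Primes) (x : GQ ⧸ kerH hG a), (⟨q, orb q (prC hG a x)⟩ : Pl H) ∉ T →
        (plc q).valuation (emb x (z : Fld (kerH hG a))) = 1 := by
  rw [mem_TU_prs]
  constructor
  · intro h q x hx
    refine valuation_emb_eq_one q x ?_
    have := h ⟨q, orb q x⟩ (by rwa [mem_aboveT, belowP_mk])
    rwa [← ordAt_eq_ord] at this
  · rintro h ⟨q, O⟩ hO
    have e := ordAt_eq_zero_of_valuation (h q O.out fun h' => hO (mem_aboveT.2 h'))
    rwa [ordAt_eq_ord, show orb q O.out = O from O.out_eq'] at e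

theorem upF_mem_iff {T : Finset (Pl H)} {y : (Fld H)ˣ} :
    upF hG a y ∈ TU (prs (openMu_kerH hG a) (aboveT hG a T)) ↔ y ∈ TU (prs hG T) := by
  rw [mem_TU_kerH, mem_TU_prs]
  constructor
  · rintro h ⟨q, O⟩ hO
    have e1 : prC hG a ((O.out.out : GQ) : GQ ⧸ kerH hG a) = O.out := by
      rw [prC_mk]; exact O.out.out_eq'
    have e := h q ((O.out.out : GQ) : GQ ⧸ kerH hG a) (by
      rwa [e1, show orb q O.out = O from O.out_eq'])
    rw [emb_upF, e1] at e
    have e2 := ordAt_eq_zero_of_valuation e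
    rwa [ordAt_eq_ord, show orb q O.out = O from O.out_eq'] at e2
  · intro h q x hx
    rw [emb_upF]
    refine valuation_emb_eq_one q _ ?_
    have := h _ hx
    rwa [← ordAt_eq_ord] at this

/-- the generator on the units of the extension supported above `T` -/
def sgm (T : Finset (Pl H)) :
    ↥(TU (prs (openMu_kerH hG a) (aboveT hG a T))) →*
      ↥(TU (prs (openMu_kerH hG a) (aboveT hG a T))) :=
  ((Units.map (sgmR hG a h0).toMonoidHom).comp (Subgroup.subtype _)).codRestrict _ fun z => by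
    rw [mem_TU_kerH]
    intro q x hx
    induction x using QuotientGroup.induction_on with
    | H g =>
      show (plc q).valuation (emb ((g * (h0 : GQ) : GQ) : GQ ⧸ kerH hG a)
        ((z : (Fld (kerH hG a))ˣ) : Fld (kerH hG a))) = 1
      refine (mem_TU_kerH hG a).1 z.2 q _ ?_
      rwa [prC_mk, show ((g * (h0 : GQ) : GQ) : GQ ⧸ H) = (g : GQ ⧸ H) from
        QuotientGroup.eq.2 (by simp)]

/-- the units of the extension, additively -/
abbrev TUL (T : Finset (Pl H)) : Type :=
  Additive ↥(TU (prs (openMu_kerH hG a) (aboveT hG a T)))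

/-- the underlying number -/
def numQ {T : Finset (Pl H)} (x : TUL hG a T) : Qb :=
  (((Additive.toMul x : ↥(TU (prs (openMu_kerH hG a) (aboveT hG a T)))) :
    (Fld (kerH hG a))ˣ) : Fld (kerH hG a))

theorem numQ_mem {T : Finset (Pl H)} (x : TUL hG a T) : numQ hG a x ∈ Fld (kerH hG a) :=
  SetLike.coe_mem _

theorem numQ_ne_zero {T : Finset (Pl H)} (x : TUL hG a T) : numQ hG a x ≠ 0 :=
  fun h => Units.ne_zero _ (Subtype.ext h)

theorem numQ_injective {T : Finset (Pl H)} : Function.Injective (numQ hG a (T := T)) :=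
  fun _ _ h => Additive.toMul.injective (Subtype.ext (Units.ext (Subtype.ext h)))

/-- the generator, additively -/
def sgmA (T : Finset (Pl H)) : Module.End ℤ (TUL hG a T) :=
  (MonoidHom.toAdditive (sgm hG a h0 T)).toIntLinearMap

theorem numQ_sgmA {T : Finset (Pl H)} (x : TUL hG a T) :
    numQ hG a (sgmA hG a h0 T x) = (h0 : GQ) (numQ hG a x) := rfl

theorem numQ_sgmA_pow {T : Finset (Pl H)} (n : ℕ) (x : TUL hG a T) :
    numQ hG a ((sgmA hG a h0 T ^ n) x) = ((h0 : GQ) ^ n) (numQ hG a x) := by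
  induction n generalizing x with
  | zero => rfl
  | succ n ih =>
    rw [pow_succ, Module.End.mul_apply, ih, numQ_sgmA, pow_succ, AlgEquiv.mul_apply]

theorem numQ_sub {T : Finset (Pl H)} (x y : TUL hG a T) :
    numQ hG a (x - y) = numQ hG a x / numQ hG a y := by
  unfold numQ
  rw [toMul_sub, Subgroup.coe_div, Units.val_div_eq_div_val]
  rfl

theorem numQ_sum {T : Finset (Pl H)} {ι : Type*} (s : Finset ι) (f : ι → TUL hG a T) :
    numQ hG a (∑ i ∈ s, f i) = ∏ i ∈ s, numQ hG a (f i) := by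
  classical
  induction s using Finset.induction_on with
  | empty => rfl
  | insert i s hi ih =>
    rw [Finset.sum_insert hi, Finset.prod_insert hi, ← ih]
    rfl

theorem numQ_norm {T : Finset (Pl H)} (x : TUL hG a T) :
    numQ hG a ((∑ i ∈ Finset.range p, sgmA hG a h0 T ^ i) x) =
      ∏ i : ZMod p, ((h0 : GQ) ^ i.val) (numQ hG a x) := by
  rw [LinearMap.sum_apply, numQ_sum]
  simp only [numQ_sgmA_pow]
  exact (Finset.prod_nbij' (fun i : ZMod p => i.val) (fun n : ℕ => (n : ZMod p))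
    (fun i _ => Finset.mem_range.2 (ZMod.val_lt i)) (fun _ _ => Finset.mem_univ _)
    (fun i _ => ZMod.natCast_zmod_val i)
    (fun n hn => by rw [ZMod.val_natCast, Nat.mod_eq_of_lt (Finset.mem_range.1 hn)])
    fun i _ => rfl).symm

variable {hG a h0}

theorem sgmA_pow_p (hh0 : base hG a h0 = 1) (T : Finset (Pl H)) :
    sgmA hG a h0 T ^ p = 1 :=
  LinearMap.ext fun x => numQ_injective hG a (by
    rw [numQ_sgmA_pow]
    have e := mem_fld_kerH (numQ_mem hG a x) (g := h0 ^ p) (k := 1)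
      (by rw [base_pow, hh0, mul_one, ZMod.natCast_self, base_one])
    simpa using e)

theorem mem_fld_of_fix (hh0 : base hG a h0 = 1) {z : Qb} (hz : z ∈ Fld (kerH hG a))
    (hfix : (h0 : GQ) z = z) : z ∈ Fld H := by
  have hn : ∀ n : ℕ, ((h0 : GQ) ^ n) z = z := fun n => by
    induction n with
    | zero => rfl
    | succ n ih => rw [pow_succ, AlgEquiv.mul_apply, hfix, ih]
  refine mem_fld.2 fun g hg => ?_
  have e := mem_fld_kerH hz (g := ⟨g, hg⟩) (k := h0 ^ (base hG a ⟨g, hg⟩).val)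
    (base_h0_pow hh0 _).symm
  rw [show g z = _ from e]
  exact hn _

variable (hG a) in
/-- the fixed units -/
def jF (T : Finset (Pl H)) : Additive ↥(TU (prs hG T)) →+ TUL hG a T :=
  MonoidHom.toAdditive (((upF hG a).comp (Subgroup.subtype _)).codRestrict _
    fun y => (upF_mem_iff hG a).2 y.2)

theorem jF_injective (T : Finset (Pl H)) : Function.Injective (jF hG a T) := fun _ _ h =>
  Additive.toMul.injective (Subtype.ext (Units.ext (Subtype.ext (congrArg (numQ hG a) h :))))

theorem range_jF (hh0 : base hG a h0 = 1) (T : Finset (Pl H)) :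
    (jF hG a T).range = (1 - sgmA hG a h0 T).toAddMonoidHom.ker := by
  ext x
  have hiff : x ∈ (1 - sgmA hG a h0 T).toAddMonoidHom.ker ↔
      (h0 : GQ) (numQ hG a x) = numQ hG a x := by
    rw [AddMonoidHom.mem_ker, LinearMap.toAddMonoidHom_coe, LinearMap.sub_apply, sub_eq_zero,
      ← numQ_sgmA, (numQ_injective hG a).eq_iff, eq_comm]
    rfl
  rw [hiff]
  constructor
  · rintro ⟨y, rfl⟩
    exact fix_fld h0.2 ((Additive.toMul y : ↥(TU (prs hG T))) : (Fld H)ˣ).val
  · intro hfix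
    set y : (Fld H)ˣ := Units.mk0 ⟨_, mem_fld_of_fix hh0 (numQ_mem hG a x) hfix⟩
      fun h => numQ_ne_zero hG a x (congrArg Subtype.val h)
    have hy : upF hG a y = ((Additive.toMul x : ↥(TU (prs (openMu_kerH hG a)
        (aboveT hG a T)))) : (Fld (kerH hG a))ˣ) := Units.ext (Subtype.ext rfl)
    exact ⟨Additive.ofMul ⟨y, (upF_mem_iff hG a).1 (hy ▸ SetLike.coe_mem _)⟩,
      numQ_injective hG a rfl⟩

theorem finrank_fix (hh0 : base hG a h0 = 1) (T : Finset (Pl H)) :
    Module.finrank ℤ ↥(LinearMap.ker (1 - sgmA hG a h0 T)) =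
      Module.finrank ℤ (Additive ↥(TU (prs hG T))) := by
  have e : LinearMap.range (jF hG a T).toIntLinearMap = LinearMap.ker (1 - sgmA hG a h0 T) :=
    SetLike.ext fun x => SetLike.ext_iff.1 (range_jF hh0 T) x
  rw [← e, LinearMap.finrank_range_of_inj (f := (jF hG a T).toIntLinearMap) (jF_injective T)]

theorem relIndex_norm_ker_eq_one (hh0 : base hG a h0 = 1) {T : Finset (Pl H)}
    (hT : Adm hG a T) :
    (1 - sgmA hG a h0 T).toAddMonoidHom.range.relIndex
      (∑ i ∈ Finset.range p, sgmA hG a h0 T ^ i).toAddMonoidHom.ker = 1 := by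
  classical
  rw [AddSubgroup.relIndex_eq_one]
  intro x hx
  obtain ⟨haT, T₀, hT₀, hsub⟩ := hT
  have hN : ∏ i ∈ Finset.range p, ((h0 : GQ) ^ i) (numQ hG a x) = 1 := by
    have e := congrArg (numQ hG a) (show (∑ i ∈ Finset.range p, sgmA hG a h0 T ^ i) x = 0 from hx)
    rw [LinearMap.sum_apply, numQ_sum] at e
    simp only [numQ_sgmA_pow] at e
    exact e
  set z := numQ hG a x
  set P : ℕ → Qb := fun n => ∏ i ∈ Finset.range n, ((h0 : GQ) ^ i) z
  have hPadd : ∀ i m, P (i + m) = P i * ((h0 : GQ) ^ i) (P m) := fun i m => by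
    show ∏ j ∈ Finset.range (i + m), _ = _
    rw [Finset.prod_range_add, map_prod]
    congr 1
    exact Finset.prod_congr rfl fun j _ => by rw [pow_add, AlgEquiv.mul_apply]
  have hzi : ∀ i : ℕ, ((h0 : GQ) ^ i) z ∈ Fld (kerH hG a) := fun i => by
    induction i with
    | zero => exact numQ_mem hG a x
    | succ i ih => rw [pow_succ', AlgEquiv.mul_apply]; exact gen_mem hG a h0 ih
  have hPz : ∀ n, P n ∈ Fld (kerH hG a) := fun n => prod_mem fun i _ => hzi i
  have hPp : ∀ n, P (n + p) = P n := fun n => by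
    rw [hPadd, show P p = 1 from hN, map_one, mul_one]
  have hper : ∀ n, P (n % p) = P n := fun n => (Function.Periodic.map_mod_nat hPp n)
  have hP0 : ∀ n, P n ≠ 0 := fun n => Finset.prod_ne_zero_iff.2 fun i _ =>
    (map_ne_zero _).2 (numQ_ne_zero hG a x)
  obtain ⟨E, hE, hEa⟩ := base_level hG a
  haveI := hE
  obtain ⟨w, hw0, hw⟩ := hilbert90_qbar (r := H.subtype) (u := fun h => P (base hG a h).val)
    (fun h => hP0 _) (fun g k => by
      show P (base hG a (g * k)).val = P (base hG a g).val * (g : GQ) (P (base hG a k).val)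
      rw [base_mul, ZMod.val_add, hper, hPadd,
        mem_fld_kerH (hPz _) (g := g) (k := h0 ^ (base hG a g).val) (base_h0_pow hh0 _).symm]
      rfl)
    ⟨E, hE, fun g s hs => by
      show P (base hG a (g * s)).val = _
      rw [base_mul, hEa s hs, add_zero]⟩
  have hwL : w ∈ Fld (kerH hG a) := mem_fld.2 fun g hg => by
    rw [show g w = _ from hw ⟨g, hg.1⟩, (mem_kerH_iff hG a ⟨g, hg.1⟩).1 hg, ZMod.val_zero,
      show P 0 = 1 from rfl, one_mul]
  have hw1 : (h0 : GQ) w = z * w := by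
    haveI : Fact (1 < p) := ⟨(Fact.out : p.Prime).one_lt⟩
    rw [show (h0 : GQ) w = _ from hw h0, hh0, ZMod.val_one]
    show (∏ i ∈ Finset.range 1, ((h0 : GQ) ^ i) z) * w = z * w
    rw [Finset.prod_range_one]
    rfl
  set W : (Fld (kerH hG a))ˣ := Units.mk0 ⟨w, hwL⟩ fun h => hw0 (congrArg Subtype.val h)
  -- the value of `w` is constant on the fibres outside `T`
  have hunr : ∀ (q : Nat.Primes) (x : GQ ⧸ kerH hG a),
      (⟨q, orb q (prC hG a x)⟩ : Pl H) ∉ T → ∀ s ∈ inert q, loc q s • x = x := by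
    intro q x hx s hs
    have hq : q ∉ T₀ := fun h => hx (hsub (mem_plT.2 h))
    obtain ⟨⟨x₀, i⟩, rfl⟩ := (lift'_bijective (hG := hG) (a := a) hh0).2 x
    have hm : prC hG a (lift' hG a h0 x₀.out i) = (x₀.out : GQ ⧸ H) := by
      rw [lift', prC_mk]
      exact QuotientGroup.eq.2 (by simpa using pow_mem (inv_mem h0.2) i.val)
    have hfix : loc q s • (x₀.out : GQ ⧸ H) = (x₀.out : GQ ⧸ H) := hT₀.unr q hq s hs _
    obtain ⟨y, hy, hya⟩ := mem_KT.1 haT
    have hv := (ev1_inert_iff hG (hT₀.unr q hq) (hT₀.ne_p hq) (x₀.out : GQ ⧸ H) y).2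
      (by rw [ordAt_eq_ord, hy _ (hm ▸ hx)]; exact dvd_zero _) s hs
    rw [hya, ev1_res1] at hv
    show loc q s • lift' hG a h0 x₀.out i = lift' hG a h0 x₀.out i
    rw [smul_lift' hh0 hfix, show base hG a ⟨_, conj_mem rfl hfix⟩ = 0 from
      (mul_eq_zero.1 hv).resolve_left (Units.ne_zero _), zero_add]
  have hval : ∀ q (g : GQ), (⟨q, orb q (g : GQ ⧸ H)⟩ : Pl H) ∉ T → ∀ n : ℕ,
      (plc q).valuation (emb ((g * (h0 : GQ) ^ n : GQ) : GQ ⧸ kerH hG a) (W : Fld (kerH hG a))) =
        (plc q).valuation (emb ((g : GQ) : GQ ⧸ kerH hG a) (W : Fld (kerH hG a))) := by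
    intro q g hg n
    induction n with
    | zero => rw [pow_zero, mul_one]
    | succ n ih =>
      rw [← ih, pow_succ, ← mul_assoc, emb_mk, emb_mk]
      show (plc q).valuation ((g * (h0 : GQ) ^ n) ((h0 : GQ) w)) = _
      rw [hw1, map_mul, map_mul]
      have h1 := (mem_TU_kerH hG a).1 (Additive.toMul x).2 q
        ((g * (h0 : GQ) ^ n : GQ) : GQ ⧸ kerH hG a) (by
          rwa [prC_mk, show ((g * (h0 : GQ) ^ n : GQ) : GQ ⧸ H) = (g : GQ ⧸ H) from
            QuotientGroup.eq.2 (by simpa using pow_mem (inv_mem h0.2) n)])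
      rw [show (plc q).valuation ((g * (h0 : GQ) ^ n) z) = 1 from h1, one_mul]
      rfl
  let G' := openMu_kerH hG a
  let k : Pl H → ℤ := fun v =>
    ordAt v.1 ((v.2.out.out : GQ) : GQ ⧸ kerH hG a) W
  have hkfin : (Function.support k).Finite := by
    refine ((finite_ord_support G' W).image (belowP hG a)).subset fun v hv => ?_
    refine ⟨⟨v.1, orb v.1 ((v.2.out.out : GQ) : GQ ⧸ kerH hG a)⟩, ?_, ?_⟩
    · show ord _ _ ≠ 0
      rw [← ordAt_eq_ord]
      exact hv
    · rw [belowP_mk, prC_mk]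
      obtain ⟨q, O⟩ := v
      refine congrArg (Sigma.mk q) ?_
      rw [show ((O.out.out : GQ) : GQ ⧸ H) = O.out from O.out.out_eq']
      exact O.out_eq'
  obtain ⟨f, hf⟩ := hT₀.exists_ord (Finsupp.ofSupportFinite k hkfin)
  have hW' : W / upF hG a f ∈ TU (prs (openMu_kerH hG a) (aboveT hG a T)) := by
    rw [mem_TU_kerH]
    intro q x hx
    have hq : q ∉ T₀ := fun h => hx (hsub (mem_plT.2 h))
    set O := orb q (prC hG a x)
    obtain ⟨γ, hγ⟩ := orb_eq_iff.1 (O.out_eq'.trans rfl : orb q O.out = orb q (prC hG a x))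
    obtain ⟨⟨x₀, i⟩, hi⟩ := (lift'_bijective (hG := hG) (a := a) hh0).2 (loc q γ • x)
    have hx₀ : x₀ = O.out := by
      have e2 := congrArg (prC hG a) hi
      simp only [lift', prC_mk, prC_smul, hγ] at e2
      rw [← e2, ← x₀.out_eq']
      exact (QuotientGroup.eq.2 (by simpa using pow_mem (inv_mem h0.2) i.val)).symm
    subst hx₀
    set g := O.out.out
    have hord : ordAt q x W = k ⟨q, O⟩ := by
      show ordAt q x W = ordAt q ((g : GQ) : GQ ⧸ kerH hG a) W
      rw [show ordAt q x W = ordAt q (loc q γ • x) W from by unfold ordAt; rw [primeAt_smul],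
        ← hi]
      have hg : (⟨q, orb q (g : GQ ⧸ H)⟩ : Pl H) ∉ T := by
        rw [show ((g : GQ) : GQ ⧸ H) = O.out from O.out.out_eq', show orb q O.out = O from O.out_eq']
        exact hx
      have hY : ∀ n : ℕ, (⟨q, orb q (prC hG a ((g * (h0 : GQ) ^ n : GQ) : GQ ⧸ kerH hG a))⟩ : Pl H)
          ∉ T := fun n => by
        rwa [prC_mk, show ((g * (h0 : GQ) ^ n : GQ) : GQ ⧸ H) = (g : GQ ⧸ H) from
          QuotientGroup.eq.2 (by simpa using pow_mem (inv_mem h0.2) n)]
      have e := hval q g hg i.val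
      rw [valuation_emb_of_fix G'.opn (hunr q _ (hY i.val)), valuation_emb_of_fix G'.opn
        (hunr q _ (by have := hY 0; rwa [pow_zero, mul_one] at this))] at e
      exact zpow_right_injective₀ (zero_lt_iff.mpr (valuation_natCast_ne_zero q))
        (valuation_natCast_lt_one q).ne e
    rw [Units.val_div_eq_div_val, map_div₀, map_div₀, emb_upF,
      valuation_emb_of_fix G'.opn (hunr q x hx),
      (hT₀.unr q hq).valuation_emb hG.opn, hord, ordAt_eq_ord, hf _ hq,
      show Finsupp.ofSupportFinite k hkfin ⟨q, O⟩ = k ⟨q, O⟩ from rfl]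
    exact div_self (zpow_ne_zero _ (valuation_natCast_ne_zero q))
  refine ⟨-Additive.ofMul ⟨_, hW'⟩, numQ_injective hG a ?_⟩
  show numQ hG a ((1 - sgmA hG a h0 T) (-Additive.ofMul ⟨_, hW'⟩)) = z
  rw [map_neg, LinearMap.sub_apply, neg_sub, numQ_sub, numQ_sgmA, div_eq_mul_inv, Module.End.one_apply]
  rw [show numQ hG a (Additive.ofMul ⟨_, hW'⟩) = (w : Qb) / ((f : Fld H) : Qb) by
    show (((W / upF hG a f : (Fld (kerH hG a))ˣ) : Fld (kerH hG a)) : Qb) = _
    rw [Units.val_div_eq_div_val]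
    rfl]
  rw [map_div₀, hw1, fix_fld h0.2, inv_div, div_mul_div_comm, mul_comm ((f : Fld H) : Qb),
    mul_assoc, mul_div_assoc, div_self, mul_one]
  exact mul_ne_zero hw0 (fun h => f.ne_zero (Subtype.ext h))

end FLTAgent.PT
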