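import Fermat.Agent.PT.Global.Units

/-!
The action of the translations on the fixed field of a normal open subgroup, on its places and on
the Kummer classes.
-/

set_option autoImplicit false
set_option linter.unusedSectionVars false
set_option linter.style.haveILetI false

noncomputable section

open CategoryTheory groupCohomology IntermediateField

namespace FLTAgent.PT

variable {p : ℕ} [Fact p.Prime] {H : Subgroup GQ} [H.Normal]

theorem gal_mem_fld (g : GQ) {y : AlgebraicClosure ℚ} (hy : y ∈ Fld H) : g y ∈ Fld H :=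
  mem_fld.2 fun h hh => by
    have e := mem_fld.1 hy (g⁻¹ * h * g) (by
      simpa using Subgroup.Normal.conj_mem ‹H.Normal› h hh g⁻¹)
    rw [AlgEquiv.mul_apply, AlgEquiv.mul_apply] at e
    calc h (g y) = g (g⁻¹ (h (g y))) := (g.apply_symm_apply _).symm
      _ = g y := by rw [e]

/-- the restriction to the fixed field -/
def sigF (g : GQ) : Fld H →ₐ[ℚ] Fld H :=
  ((g : AlgebraicClosure ℚ ≃ₐ[ℚ] AlgebraicClosure ℚ).toAlgHom.comp (Fld H).val).codRestrict
    (Fld H).toSubalgebra fun y => gal_mem_fld g y.2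

theorem coe_sigF (g : GQ) (y : Fld H) :
    (sigF g y : AlgebraicClosure ℚ) = g (y : AlgebraicClosure ℚ) := rfl

/-- the restriction on the multiplicative group -/
def sigU (g : GQ) : (Fld H)ˣ →* (Fld H)ˣ := Units.map (sigF (H := H) g).toRingHom.toMonoidHom

theorem coe_sigU (g : GQ) (y : (Fld H)ˣ) : ((sigU g y : (Fld H)ˣ) : Fld H) = sigF g (y : Fld H) :=
  rfl

theorem sigU_comp (g g' : GQ) (y : (Fld H)ˣ) : sigU g (sigU g' y) = sigU (g * g') y :=
  Units.ext (Subtype.ext rfl)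

theorem sigU_one (y : (Fld H)ˣ) : sigU (1 : GQ) y = y := Units.ext (Subtype.ext rfl)

theorem sigU_injective (g : GQ) : Function.Injective (sigU (H := H) g) := fun a b h => by
  have := congrArg (sigU (H := H) g⁻¹) h
  rwa [sigU_comp, sigU_comp, inv_mul_cancel, sigU_one, sigU_one] at this

theorem emb_sigF (x : GQ ⧸ H) (g : GQ) (y : Fld H) :
    emb x (sigF g y) = emb (x * (g : GQ ⧸ H)) y := by
  induction x using QuotientGroup.induction_on with
  | H a => rfl

theorem smul_mul_coset (a : GQ) (x z : GQ ⧸ H) : a • (x * z) = (a • x) * z := by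
  induction x using QuotientGroup.induction_on with
  | H b =>
    induction z using QuotientGroup.induction_on with
    | H c => exact congrArg _ (mul_assoc a b c).symm

section Perms

/-- the translation of the orbits of a homomorphism -/
def orbRight {G : Type} [Group G] (r : G →* GQ) (H : Subgroup GQ) [H.Normal] (g : GQ) :
    Equiv.Perm (Quotient (MulAction.orbitRel r.range (GQ ⧸ H))) :=
  Quotient.congr (Equiv.mulRight (g : GQ ⧸ H)) fun x y => by
    constructor
    · rintro ⟨a, ha⟩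
      refine ⟨a, ?_⟩
      change (a : GQ) • y = x at ha
      show (a : GQ) • (y * (g : GQ ⧸ H)) = x * (g : GQ ⧸ H)
      rw [smul_mul_coset, ha]
    · rintro ⟨a, ha⟩
      refine ⟨a, ?_⟩
      change (a : GQ) • (y * (g : GQ ⧸ H)) = x * (g : GQ ⧸ H) at ha
      show (a : GQ) • y = x
      rw [smul_mul_coset] at ha
      exact mul_right_cancel ha

theorem orbRight_mk {G : Type} [Group G] (r : G →* GQ) (g : GQ) (x : GQ ⧸ H) :
    orbRight r H g (Quotient.mk'' x) = Quotient.mk'' (x * (g : GQ ⧸ H)) := rfl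

/-- the translation of the places -/
def placeRight (H : Subgroup GQ) [H.Normal] (g : GQ) (v : Pl H) : Pl H :=
  ⟨v.1, orbRight (loc v.1) H g v.2⟩

end Perms

section Ord

variable [NumberField ↥(Fld H)]

theorem ordAt_pos_iff {q : Nat.Primes} {x : GQ ⧸ H} {y : (Fld H)ˣ} :
    0 < ordAt q x y ↔ (plc q).valuation (emb x (y : Fld H)) < 1 := by
  refine ⟨valuation_emb_lt_one, fun h => ?_⟩
  rcases lt_trichotomy 0 (ordAt q x y) with h2 | h2 | h2
  · exact h2
  · exact absurd (valuation_emb_eq_one q x h2.symm) h.ne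
  · exfalso
    have h3 := valuation_emb_lt_one (q := q) (x := x) (y := y⁻¹) (by
      show 0 < ordv _ (-(Additive.ofMul y))
      rw [map_neg]; exact neg_pos.2 h2)
    rw [Units.val_inv_eq_inv_val, map_inv₀, map_inv₀,
      inv_lt_one₀ (zero_lt_iff.2 ((map_ne_zero _).2 ((map_ne_zero (emb x)).2 y.ne_zero)))] at h3
    exact lt_asymm h h3

theorem ordAt_sigU (q : Nat.Primes) (x : GQ ⧸ H) (g : GQ) (y : (Fld H)ˣ) :
    ordAt q x (sigU g y) = ordAt q (x * (g : GQ ⧸ H)) y := by
  have hpos : ∀ y, 0 < ordAt q x (sigU g y) ↔ 0 < ordAt q (x * (g : GQ ⧸ H)) y := fun y => by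
    rw [ordAt_pos_iff, ordAt_pos_iff, coe_sigU, emb_sigF]
  have hneg : ∀ y, ordAt q x (sigU g y) < 0 ↔ ordAt q (x * (g : GQ ⧸ H)) y < 0 := fun y => by
    have h := hpos y⁻¹
    simp only [ordAt, map_inv, ofMul_inv, map_neg, neg_pos] at h
    exact h
  have hzero : ∀ y, ordAt q (x * (g : GQ ⧸ H)) y = 0 → ordAt q x (sigU g y) = 0 := fun y h => by
    have h1 := hpos y
    have h2 := hneg y
    omega
  obtain ⟨π, hπ⟩ := exists_ord_one (primeAt q (x * (g : GQ ⧸ H)))
  have key : ∀ y, ordAt q x (sigU g y) =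
      ordAt q (x * (g : GQ ⧸ H)) y * ordAt q x (sigU g π) := fun y => by
    have h := hzero (y / π ^ ordAt q (x * (g : GQ ⧸ H)) y) (by
      rw [ordAt, ofMul_div, ofMul_zpow, map_sub, map_zsmul, hπ, smul_eq_mul, mul_one, sub_self])
    rwa [ordAt, map_div, map_zpow, ofMul_div, ofMul_zpow, map_sub, map_zsmul, smul_eq_mul,
      sub_eq_zero] at h
  obtain ⟨w, hw⟩ := exists_ord_one (primeAt q x)
  obtain ⟨w', rfl⟩ : ∃ w', sigU g w' = w :=
    ⟨sigU g⁻¹ w, by rw [sigU_comp, mul_inv_cancel, sigU_one]⟩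
  have h1 : (1 : ℤ) = ordAt q (x * (g : GQ ⧸ H)) w' * ordAt q x (sigU g π) :=
    hw.symm.trans (key w')
  have h2 : 0 < ordAt q x (sigU g π) := (hpos π).2 (by rw [ordAt, hπ]; exact one_pos)
  rw [key, Int.eq_one_of_dvd_one h2.le ⟨_, h1.trans (mul_comm _ _)⟩, mul_one]

theorem ord_sigU (v : Pl H) (g : GQ) (y : (Fld H)ˣ) :
    ord v (Additive.ofMul (sigU g y)) = ord (placeRight H g v) (Additive.ofMul y) := by
  obtain ⟨q, O⟩ := v
  induction O using Quotient.inductionOn' with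
  | h x => ?_
  rw [← ordAt_eq_ord, ordAt_sigU, ordAt_eq_ord]
  rfl

end Ord

section Kummer

theorem base_indRight (hG : OpenMu p H) (g : GQ) (a : G1 p H) (h : H) :
    base hG (h1push (MonoidHom.id GQ) (indRight H (mu p) g)
        (fun k f => indRight_eqv H (mu p) g k f) a) h =
      (ExtCitation.cycloChar p g : ZMod p) * base hG a ⟨g⁻¹ * h * g, by
        simpa using Subgroup.Normal.conj_mem ‹H.Normal› h.1 h.2 g⁻¹⟩ := by
  obtain ⟨z, rfl⟩ := Submodule.mkQ_surjective _ a
  set x0 : GQ ⧸ H := ((1 : GQ) : GQ ⧸ H)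
  set k : GQ := g⁻¹ * h.1 * g
  have hc := (mem_cocycles₁_iff _).1 z.2.1
  have e1 : z.1 (g * k) = (ind H (mu p)).ρ g (z.1 k) + z.1 g := hc g k
  have e2 : z.1 (h.1 * g) = (ind H (mu p)).ρ h.1 (z.1 g) + z.1 h.1 := hc h.1 g
  rw [show g * k = h.1 * g by simp [k, mul_assoc]] at e1
  have e' : ((ind H (mu p)).ρ h.1 (z.1 g) (g : GQ ⧸ H) : ZMod p) +
      (z.1 h.1 (g : GQ ⧸ H) : ZMod p) =
      ((ind H (mu p)).ρ g (z.1 k) (g : GQ ⧸ H) : ZMod p) + (z.1 g (g : GQ ⧸ H) : ZMod p) :=
    congrFun (e2.symm.trans e1) (g : GQ ⧸ H)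
  have hfix : h.1 • (g : GQ ⧸ H) = (g : GQ ⧸ H) := by
    rw [MulAction.Quotient.smul_mk, QuotientGroup.eq, smul_eq_mul]
    simpa [mul_assoc] using inv_mem (Subgroup.Normal.conj_mem ‹H.Normal› h.1 h.2 g⁻¹)
  rw [rho_perm, rho_perm, inv_smul_eq_iff.2 hfix.symm, hG.triv h.1 h.2, Units.val_one, one_mul,
    inv_smul_eq_iff.2 (show (g : GQ ⧸ H) = g • x0 by
      rw [MulAction.Quotient.smul_mk, smul_eq_mul, mul_one])] at e'
  show (z.1 h.1 (x0 * (g : GQ ⧸ H)) : ZMod p) = _ * (z.1 k x0 : ZMod p)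
  rw [show x0 * (g : GQ ⧸ H) = g from one_mul _]
  linear_combination e'

/-- the Kummer map commutes with the translations -/
theorem kappa_sigU (hG : OpenMu p H) (g : GQ) (y : (Fld H)ˣ) :
    h1push (MonoidHom.id GQ) (indRight H (mu p) g) (fun k f => indRight_eqv H (mu p) g k f)
        (kappa hG (Additive.ofMul y)) =
      kappa hG (Additive.ofMul (sigU g y)) := by
  haveI : NeZero p := ⟨(Fact.out : p.Prime).ne_zero⟩
  obtain ⟨r, hr, hr0, hk⟩ := kappa_spec hG y
  have hgr : g r ^ p = ((sigU g y : (Fld H)ˣ) : Fld H).val := by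
    rw [← map_pow, hr]; rfl
  refine base_injective hG (IsKum.unique ((map_ne_zero g).2 hr0) (fun h => ?_)
    (kappa_isKum hG (sigU g y) hgr))
  have hmem : g⁻¹ * h.1 * g ∈ H := by
    simpa using Subgroup.Normal.conj_mem ‹H.Normal› h.1 h.2 g⁻¹
  have e : (h : GQ) (g r) = g ((g⁻¹ * h.1 * g : GQ) r) := by
    rw [← AlgEquiv.mul_apply, ← AlgEquiv.mul_apply]
    congr 1
    simp [mul_assoc]
  rw [base_indRight, e, show (g⁻¹ * h.1 * g : GQ) r = _ from hk ⟨_, hmem⟩, map_mul, map_pow,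
    gal_zeta, ← pow_mul]
  congr 1
  rw [ZMod.val_mul]
  conv_lhs => rw [← Nat.mod_add_div (_ * _) p, pow_add, pow_mul _ p, zeta_spec.pow_eq_one, one_pow,
    mul_one]

end Kummer

end FLTAgent.PT
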