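import Fermat.Agent.PT.Global.Second

/-!
The Hasse principle for the `p`-torsion of the Brauer group of a field containing `μ_p`.
-/

set_option autoImplicit false
set_option linter.unusedSectionVars false
set_option linter.style.haveILetI false
set_option maxHeartbeats 400000

noncomputable section

open CategoryTheory groupCohomology IntermediateField

namespace FLTAgent.PT

variable {p : ℕ} [Fact p.Prime] {H : Subgroup GQ}

/-- evaluation at the base coset -/
def ev0 (p : ℕ) [Fact p.Prime] (H : Subgroup GQ) :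
    ind H (mu p) →ₗ[ZMod p] triv p H :=
  LinearMap.proj ((1 : GQ) : GQ ⧸ H)

theorem fix_one_of_mem {g : GQ} (hg : g ∈ H) :
    g • ((1 : GQ) : GQ ⧸ H) = ((1 : GQ) : GQ ⧸ H) := by
  rw [MulAction.Quotient.smul_mk, QuotientGroup.eq]
  simpa using hg

theorem ev0_eqv (hG : OpenMu p H) (h : H) (f : ind H (mu p)) :
    ev0 p H ((ind H (mu p)).ρ (h : GQ) f) = (triv p H).ρ h (ev0 p H f) := by
  show ((ind H (mu p)).ρ (h : GQ) f ((1 : GQ) : GQ ⧸ H) : ZMod p) =
    (f ((1 : GQ) : GQ ⧸ H) : ZMod p)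
  rw [rho_perm, hG.triv h h.2, Units.val_one, one_mul, inv_smul_eq_iff.2 (fix_one_of_mem h.2).symm]

/-- the class over the field -/
def restrictH (hG : OpenMu p H) : G2 p H →ₗ[ZMod p] cH2 H.subtype (triv p H) :=
  continuousH2Map (rH := MonoidHom.id GQ) (rG := H.subtype) H.subtype (fun _ => rfl) (ev0 p H)
    (ev0_eqv hG)

theorem restrictH_injective (hG : OpenMu p H) : Function.Injective (restrictH hG) := by
  rw [injective_iff_map_eq_zero]
  intro c hc
  obtain ⟨z, rfl⟩ := Submodule.mkQ_surjective _ c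
  obtain ⟨y, hy, hd⟩ := (mem_levelCoboundaries₂_iff _ _ _).1
    ((continuousH2π_eq_zero_iff _ _ _).1 hc)
  refine (shap2_bijective (f := MonoidHom.id GQ) (r := MonoidHom.id GQ) (r' := MonoidHom.id GQ)
    (fun _ => rfl) hG.opn (isAdm_mu p) (isOrbitReps_one H)).1 ?_
  rw [map_zero]
  funext ⟨_, rfl⟩
  have hS : ∀ g : stabAt (MonoidHom.id GQ) H ((1 : GQ) : GQ ⧸ H), (g : GQ) ∈ H :=
    fun g => mem_of_fix_one (MulAction.mem_stabilizer_iff.1 g.2)
  refine (continuousH2π_eq_zero_iff _ _ _).2 ((mem_levelCoboundaries₂_iff _ _ _).2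
    ⟨fun g => (y ⟨g, hS g⟩ : ZMod p), ?_, ?_⟩)
  · obtain ⟨E, hE, hl⟩ := hy
    exact ⟨E, hE, fun g s hs => hl ⟨g, hS g⟩ ⟨s, hS s⟩ hs⟩
  · funext ⟨g, k⟩
    have e := congrFun hd (⟨g, hS g⟩, ⟨k, hS k⟩)
    rw [d₁₂_hom_apply] at e ⊢
    have e' : ((mu p).ρ (g : GQ) (y ⟨k, hS k⟩ : ZMod p) : ZMod p) = y ⟨k, hS k⟩ := by
      simp [Representation.twist_apply, hG.triv (g : GQ) (hS g)]
    show ((mu p).ρ (g : GQ) (y ⟨k, hS k⟩ : ZMod p) : ZMod p) - (y (⟨g, hS g⟩ * ⟨k, hS k⟩) : ZMod p) +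
      (y ⟨g, hS g⟩ : ZMod p) = _
    rw [e']
    exact e

section Sub

variable {H' : Subgroup GQ}

/-- the projection of cosets -/
def cosetMap (h : H' ≤ H) : GQ ⧸ H' → GQ ⧸ H :=
  Quotient.map' id fun x y hxy => by
    rw [QuotientGroup.leftRel_apply] at hxy ⊢
    exact h hxy

theorem cosetMap_smul (h : H' ≤ H) (g : GQ) (x : GQ ⧸ H') :
    cosetMap h (g • x) = g • cosetMap h x := by
  induction x using QuotientGroup.induction_on with
  | H b => rfl

/-- pullback of functions -/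
def pullC (p : ℕ) [Fact p.Prime] (h : H' ≤ H) : ind H (mu p) →ₗ[ZMod p] ind H' (mu p) :=
  LinearMap.funLeft (ZMod p) (ZMod p) (cosetMap h)

theorem pullC_eqv (h : H' ≤ H) (g : GQ) (f : ind H (mu p)) :
    pullC p h ((ind H (mu p)).ρ g f) = (ind H' (mu p)).ρ g (pullC p h f) := funext fun x => by
  show ((ind H (mu p)).ρ g f (cosetMap h x) : ZMod p) = (ind H' (mu p)).ρ g (pullC p h f) x
  rw [rho_perm, rho_perm, ← cosetMap_smul]
  rfl

/-- pullback of classes -/
def pullG (p : ℕ) [Fact p.Prime] (h : H' ≤ H) : G2 p H →ₗ[ZMod p] G2 p H' :=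
  h2push (MonoidHom.id GQ) (pullC p h) (pullC_eqv h)

theorem res2_pullG (h : H' ≤ H) (c : G2 p H) (q : Nat.Primes) (hc : res2 q _ c = 0) :
    res2 q _ (pullG p h c) = 0 := by
  have e : res2 q _ (pullG p h c) =
      h2push (loc q) (A := Rep.res (loc q) (ind H (mu p))) (B := Rep.res (loc q) (ind H' (mu p)))
        (pullC p h) (fun g => pullC_eqv h (loc q g)) (res2 q _ c) := by
    obtain ⟨z, rfl⟩ := Submodule.mkQ_surjective _ c
    rfl
  rw [e, hc, map_zero]

/-- a fibre -/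
def fib (h : H' ≤ H) [Finite (GQ ⧸ H')] (x : GQ ⧸ H) : Finset (GQ ⧸ H') :=
  (Set.toFinite {y | cosetMap h y = x}).toFinset

theorem mem_fib {h : H' ≤ H} [Finite (GQ ⧸ H')] {x : GQ ⧸ H} {y : GQ ⧸ H'} :
    y ∈ fib h x ↔ cosetMap h y = x := Set.Finite.mem_toFinset _

/-- the sums over the fibres -/
def traceC (p : ℕ) [Fact p.Prime] (h : H' ≤ H) [Finite (GQ ⧸ H')] :
    ind H' (mu p) →ₗ[ZMod p] ind H (mu p) where
  toFun f := fun x => ∑ y ∈ fib h x, (f y : ZMod p)
  map_add' _ _ := funext fun _ => Finset.sum_add_distrib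
  map_smul' c _ := funext fun _ => (Finset.mul_sum _ _ c).symm

theorem traceC_eqv (h : H' ≤ H) [Finite (GQ ⧸ H')] (g : GQ) (f : ind H' (mu p)) :
    traceC p h ((ind H' (mu p)).ρ g f) = (ind H (mu p)).ρ g (traceC p h f) := funext fun x => by
  refine Eq.trans ?_ (rho_perm g _ x).symm
  show ∑ y ∈ fib h x, ((ind H' (mu p)).ρ g f y : ZMod p) =
    _ * ∑ y ∈ fib h (g⁻¹ • x), (f y : ZMod p)
  simp only [Finset.mul_sum]
  refine Finset.sum_equiv (MulAction.toPerm g⁻¹) (fun y => ?_) fun y _ => rho_perm g _ y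
  rw [mem_fib, mem_fib, MulAction.toPerm_apply, cosetMap_smul, smul_left_cancel_iff]

theorem card_fib (h : H' ≤ H) [Finite (GQ ⧸ H')] (x : GQ ⧸ H) :
    (fib h x).card = H'.relIndex H := by
  let e := Subgroup.quotientEquivProdOfLE h
  have he : ∀ y, (e y).1 = cosetMap h y := fun y => by
    induction y using QuotientGroup.induction_on with
    | H b => rfl
  rw [← Nat.card_eq_finsetCard, Subgroup.relIndex]
  refine Nat.card_congr
    { toFun := fun y => (e y.1).2
      invFun := fun z => ⟨e.symm (x, z), mem_fib.2 (by rw [← he, e.apply_symm_apply])⟩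
      left_inv := fun y => Subtype.ext (by
        show e.symm (x, (e y.1).2) = y.1
        have h1 : (x, (e y.1).2) = e y.1 := Prod.ext ((he y.1).trans (mem_fib.1 y.2)).symm rfl
        rw [h1, e.symm_apply_apply])
      right_inv := fun z => show (e (e.symm (x, z))).2 = z by rw [e.apply_symm_apply] }

theorem traceC_pullC (h : H' ≤ H) [Finite (GQ ⧸ H')] (f : ind H (mu p)) :
    traceC p h (pullC p h f) = (H'.relIndex H : ZMod p) • f := funext fun x => by
  show ∑ y ∈ fib h x, (f (cosetMap h y) : ZMod p) = (H'.relIndex H : ZMod p) * f x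
  rw [Finset.sum_congr rfl fun y hy => by rw [mem_fib.1 hy], Finset.sum_const, nsmul_eq_mul,
    card_fib]

theorem pullG_injective (h : H' ≤ H) [Finite (GQ ⧸ H')] (hp : ¬p ∣ H'.relIndex H) {c : G2 p H}
    (hc : pullG p h c = 0) : c = 0 := by
  have e : h2push (MonoidHom.id GQ) (traceC p h) (traceC_eqv h) (pullG p h c) =
      (H'.relIndex H : ZMod p) • c := by
    obtain ⟨z, rfl⟩ := Submodule.mkQ_surjective _ c
    refine congrArg (h2mk _ _) (Subtype.ext (funext fun g => ?_))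
    exact traceC_pullC h (z.1 g)
  rw [hc, map_zero] at e
  refine (smul_eq_zero.1 e.symm).resolve_left ?_
  exact fun h0 => hp ((ZMod.natCast_eq_zero_iff _ _).1 h0)

end Sub

theorem sym_base_restrict (hG : OpenMu p H)
    (hm : IsEqv (A := triv p H) (B := triv p H) (C := triv p H) (LinearMap.mul (ZMod p) (ZMod p)))
    (hB : IsAdm H.subtype (triv p H)) (a b : G1 p H) (χ ψ : Z1 H.subtype (triv p H))
    (hχ : base hG a = χ.1) (hψ : base hG b = ψ.1) :
    restrictH hG (sym hG a b) =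
      cupH H.subtype (A := triv p H) (B := triv p H) (C := triv p H)
        (LinearMap.mul (ZMod p) (ZMod p)) hm hB (h1mk _ _ χ) (h1mk _ _ ψ) := by
  obtain ⟨za, rfl⟩ := Submodule.mkQ_surjective _ a
  obtain ⟨zb, rfl⟩ := Submodule.mkQ_surjective _ b
  refine congrArg (h2mk _ _) (Subtype.ext (funext fun g => ?_))
  show (phi p H (za.1 (g.1 : GQ)) ((ind H (mu p)).ρ (g.1 : GQ) (zb.1 (g.2 : GQ)))
    ((1 : GQ) : GQ ⧸ H) : ZMod p) = χ.1 g.1 * ψ.1 g.2
  rw [phi_apply, rho_perm, omegaC_mk hG, map_one, inv_one, Units.val_one, one_mul,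
    hG.triv _ g.1.2, Units.val_one, one_mul, inv_smul_eq_iff.2 (fix_one_of_mem g.1.2).symm]
  rw [← congrFun hχ g.1, ← congrFun hψ g.2]
  rfl

/-- a class killed by the extension of a Kummer class is a symbol -/
theorem eq_sym_of_pull_eq_zero (hG : OpenMu p H) {a : G1 p H} (ha : a ≠ 0) {c : G2 p H}
    (hc : pullG p (kerH_le hG a) c = 0) : ∃ b : G1 p H, sym hG a b = c := by
  obtain ⟨h0, hh0⟩ := exists_base_eq_one hG ha
  have hm : IsEqv (A := triv p H) (B := triv p H) (C := triv p H)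
      (LinearMap.mul (ZMod p) (ZMod p)) := fun _ _ _ => rfl
  have hB : IsAdm H.subtype (triv p H) :=
    ⟨inferInstanceAs (Module.Finite (ZMod p) (ZMod p)), ⊥, inferInstance, fun _ _ => rfl⟩
  obtain ⟨E, hE, hEa⟩ := base_level hG a
  have hχ : base hG a ∈ Z1 H.subtype (triv p H) := by
    refine ⟨(mem_cocycles₁_iff _).2 fun g k => ?_, E, hE, fun g s hs => ?_⟩
    · show base hG a (g * k) = base hG a k + base hG a g
      rw [base_mul, add_comm]
    · show base hG a (g * s) = base hG a g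
      rw [base_mul, hEa s hs, add_zero]
  have hN : ∀ g : H, g ∈ (kerH hG a).subgroupOf H ↔ base hG a g = 0 := fun g =>
    mem_kerH_iff hG a g
  have hres : continuousH2Map (rH := H.subtype)
      (rG := H.subtype.comp ((kerH hG a).subgroupOf H).subtype) (A := triv p H)
      (B := Rep.res ((kerH hG a).subgroupOf H).subtype (triv p H))
      ((kerH hG a).subgroupOf H).subtype (fun _ => rfl) LinearMap.id (fun _ _ => rfl)
      (restrictH hG c) = 0 := by
    have e := congrArg (restrictH (openMu_kerH hG a)) hc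
    rw [map_zero] at e
    obtain ⟨z, rfl⟩ := Submodule.mkQ_surjective _ c
    obtain ⟨y, hy, hd⟩ := (mem_levelCoboundaries₂_iff _ _ _).1
      ((continuousH2π_eq_zero_iff _ _ _).1 e)
    refine (continuousH2π_eq_zero_iff _ _ _).2 ((mem_levelCoboundaries₂_iff _ _ _).2
      ⟨fun g => y ⟨(g : H), g.2⟩, ?_, ?_⟩)
    · obtain ⟨E', hE', hl⟩ := hy
      exact ⟨E', hE', fun g s hs => hl ⟨(g : H), g.2⟩ ⟨(s : H), s.2⟩ hs⟩
    · funext ⟨g, k⟩
      exact congrFun hd (⟨(g : H), g.2⟩, ⟨(k : H), k.2⟩)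
  have hsurj : Function.Surjective (base hG a) := fun i =>
    ⟨h0 ^ i.val, base_h0_pow hh0 i⟩
  obtain ⟨y, hy⟩ := exists_symbol (kummerUnits p H.subtype (zeta p) zeta_spec
    fun g => hG.fix_zeta g.2) ⟨_, hχ⟩ hsurj hm hB _ hN (restrictH hG c) hres
  obtain ⟨ψ, rfl⟩ := Submodule.mkQ_surjective _ y
  have hmul : ∀ g k : H, ψ.1 (g * k) = ψ.1 g + ψ.1 k := fun g k => by
    have e := (mem_cocycles₁_iff ψ.1).1 ψ.2.1 g k
    rw [e]
    exact add_comm _ _
  obtain ⟨b, hb⟩ := exists_base hG ψ.1 hmul (by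
    obtain ⟨F, hF, hl⟩ := ψ.2.2
    refine ⟨F, hF, fun h hh => ?_⟩
    have e := hl 1 h hh
    rw [one_mul] at e
    rw [e]
    exact cocycles₁_map_one (⟨ψ.1, ψ.2.1⟩ : cocycles₁ (triv p H)))
  exact ⟨b, restrictH_injective hG ((sym_base_restrict hG hm hB a b ⟨_, hχ⟩ ψ rfl hb).trans hy)⟩

/-- a finite group has a subgroup of index prime to `p`, or a normal one of index `p` -/
theorem exists_descent {Q : Type*} [Group Q] [Finite Q] [Nontrivial Q] :
    (∃ P : Subgroup Q, P ≠ ⊤ ∧ ¬p ∣ P.index) ∨ ∃ f : Q →* Multiplicative (ZMod p), f ≠ 1 := by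
  obtain ⟨P⟩ : Nonempty (Sylow p Q) := inferInstance
  by_cases hP : (P : Subgroup Q) = ⊤
  swap
  · exact Or.inl ⟨P, hP, P.not_dvd_index⟩
  refine Or.inr ?_
  have hQ : IsPGroup p Q :=
    (hP ▸ P.isPGroup' : IsPGroup p (⊤ : Subgroup Q)).of_equiv Subgroup.topEquiv
  obtain ⟨n, hn⟩ := IsPGroup.iff_card.1 hQ
  have hn0 : n ≠ 0 := fun h => by
    rw [h, pow_zero] at hn
    exact absurd hn (Finite.one_lt_card (α := Q)).ne'
  obtain ⟨m, rfl⟩ := Nat.exists_eq_succ_of_ne_zero hn0
  obtain ⟨K, hK⟩ := Sylow.exists_subgroup_card_pow_prime p (G := Q) (n := m)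
    (by rw [hn]; exact pow_dvd_pow p (Nat.le_succ m))
  have hidx : K.index = p := by
    have e := K.index_mul_card
    rw [hK, hn, pow_succ, mul_comm (p ^ m)] at e
    exact Nat.eq_of_mul_eq_mul_right (pow_pos (Fact.out : p.Prime).pos m) e
  haveI : K.Normal := Subgroup.normal_of_index_eq_minFac_card (by
    rw [hidx, hn, Nat.Prime.pow_minFac (Fact.out : p.Prime) (Nat.succ_ne_zero m)])
  have hcard : Nat.card (Q ⧸ K) = Nat.card (Multiplicative (ZMod p)) := by
    rw [show Nat.card (Q ⧸ K) = K.index from rfl, hidx]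
    exact ((Nat.card_congr Multiplicative.toAdd).trans (Nat.card_zmod p)).symm
  have hprime : Nat.card (Q ⧸ K) = p := hidx
  have hprime' : Nat.card (Multiplicative (ZMod p)) = p := hcard ▸ hprime
  refine ⟨(mulEquivOfPrimeCardEq hprime hprime').toMonoidHom.comp (QuotientGroup.mk' K),
    fun h => ?_⟩
  have hKtop : K = ⊤ := eq_top_iff.2 fun x _ => (QuotientGroup.eq_one_iff x).1
    ((mulEquivOfPrimeCardEq hprime hprime').injective (by
      rw [map_one]
      exact DFunLike.congr_fun h x))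
  rw [hKtop, Subgroup.index_top] at hidx
  exact (Fact.out : p.Prime).one_lt.ne hidx

/-- level-constant representatives -/
def HasLevel (E : IntermediateField ℚ (AlgebraicClosure ℚ)) (c : G2 p H) : Prop :=
  ∃ z : levelCocycles₂ (MonoidHom.id GQ) (ind H (mu p)), h2mk _ _ z = c ∧
    ∀ g g' s s', s ∈ E.fixingSubgroup → s' ∈ E.fixingSubgroup → z.1 (g * s, g' * s') = z.1 (g, g')

theorem hasse_aux (hp2 : p ≠ 2) (E : IntermediateField ℚ (AlgebraicClosure ℚ))
    [FiniteDimensional ℚ E] (hn : E.fixingSubgroup.Normal) (n : ℕ) :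
    ∀ (U : Subgroup GQ) (hU : OpenMu p U), E.fixingSubgroup ≤ U →
      E.fixingSubgroup.index - U.index ≤ n →
      ∀ c : G2 p U, HasLevel E c → (∀ q, res2 q _ c = 0) → c = 0 := by
  induction n using Nat.strong_induction_on with
  | _ n ih =>
  intro U hU hle hidx c hlev hloc
  set V := E.fixingSubgroup
  haveI : V.FiniteIndex := by
    have h := finiteIndex_lev (r := MonoidHom.id GQ) E
    rwa [lev, Subgroup.comap_id] at h
  haveI : U.FiniteIndex := Subgroup.finiteIndex_of_le hle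
  obtain ⟨z, rfl, hz⟩ := hlev
  have hstep : ∀ (U' : Subgroup GQ) (hle' : U' ≤ U), OpenMu p U' → V ≤ U' → U' ≠ U →
      pullG p hle' (h2mk _ _ z) = 0 := by
    intro U' hle' hU' hV hne
    have hlt : U.index < U'.index := by
      haveI : U'.FiniteIndex := Subgroup.finiteIndex_of_le hV
      exact Subgroup.index_strictAnti (lt_of_le_of_ne hle' hne)
    have hVle : U'.index ≤ V.index := Subgroup.index_antitone hV
    refine ih (V.index - U'.index) (by omega) U' hU' hV le_rfl _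
      ⟨_, (rfl : _ = pullG p hle' (h2mk _ _ z)), fun g g' s s' hs hs' => ?_⟩
      fun q => res2_pullG hle' _ q (hloc q)
    show pullC p hle' (z.1 (g * s, g' * s')) = pullC p hle' (z.1 (g, g'))
    rw [hz g g' s s' hs hs']
  haveI : (V.subgroupOf U).Normal := hn.subgroupOf U
  haveI : Finite (U ⧸ V.subgroupOf U) := Subgroup.finite_quotient_of_finiteIndex
  by_cases htriv : U ≤ V
  · refine restrictH_injective hU ?_
    rw [map_zero]
    refine (continuousH2π_eq_zero_iff _ _ _).2 ((mem_levelCoboundaries₂_iff _ _ _).2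
      ⟨fun _ => ev0 p U (z.1 (1, 1)), ⟨E, inferInstance, fun _ _ _ => rfl⟩, ?_⟩)
    funext ⟨g, k⟩
    rw [d₁₂_hom_apply]
    show (ev0 p U (z.1 (1, 1)) : ZMod p) - ev0 p U (z.1 (1, 1)) + ev0 p U (z.1 (1, 1)) =
      ev0 p U (z.1 ((g : GQ), (k : GQ)))
    rw [sub_add_cancel, ← hz 1 1 g k (htriv g.2) (htriv k.2), one_mul, one_mul]
  haveI : Nontrivial (U ⧸ V.subgroupOf U) := by
    obtain ⟨x, hx, hxV⟩ := SetLike.not_le_iff_exists.1 htriv
    refine ⟨((⟨x, hx⟩ : U) : U ⧸ V.subgroupOf U), 1, fun h => hxV ?_⟩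
    exact (QuotientGroup.eq_one_iff (⟨x, hx⟩ : U)).1 h
  rcases exists_descent (p := p) (Q := U ⧸ V.subgroupOf U) with ⟨P, hP, hPp⟩ | ⟨f, hf⟩
  · set P' := P.comap (QuotientGroup.mk' (V.subgroupOf U))
    set U' := P'.map U.subtype
    have hle' : U' ≤ U := Subgroup.map_subtype_le P'
    have hV : V ≤ U' := fun v hv => ⟨⟨v, hle hv⟩, by
      show QuotientGroup.mk' (V.subgroupOf U) ⟨v, hle hv⟩ ∈ P
      rw [show QuotientGroup.mk' (V.subgroupOf U) (⟨v, hle hv⟩ : U) = 1 from
        (QuotientGroup.eq_one_iff _).2 hv]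
      exact one_mem P, rfl⟩
    have hU' : OpenMu p U' :=
      ⟨⟨E, inferInstance, fun s hs => hV hs⟩, fun x hx => hU.triv x (hle' hx)⟩
    have hrel : U'.relIndex U = P.index := by
      rw [Subgroup.relIndex, show U'.subgroupOf U = P' from
        Subgroup.comap_map_eq_self_of_injective (Subgroup.subtype_injective U) P']
      exact Subgroup.index_comap_of_surjective P (QuotientGroup.mk'_surjective _)
    have hne : U' ≠ U := fun h => hP (Subgroup.index_eq_one.1 (by
      rw [← hrel, h, Subgroup.relIndex_self]))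
    haveI := hU'.finite
    exact pullG_injective hle' (hrel ▸ hPp) (hstep U' hle' hU' hV hne)
  · let φ : U → ZMod p := fun u => Multiplicative.toAdd (f (QuotientGroup.mk' _ u))
    obtain ⟨a, ha⟩ := exists_base hU φ (fun g k => by
        show Multiplicative.toAdd (f (QuotientGroup.mk' _ (g * k))) = _
        rw [map_mul, map_mul]; rfl)
      ⟨E, inferInstance, fun h hh => by
        show Multiplicative.toAdd (f (QuotientGroup.mk' _ h)) = 0
        rw [show QuotientGroup.mk' (V.subgroupOf U) h = 1 from (QuotientGroup.eq_one_iff h).2 hh,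
          map_one]
        rfl⟩
    have ha0 : a ≠ 0 := fun h => hf (MonoidHom.ext fun x => by
      obtain ⟨u, rfl⟩ := QuotientGroup.mk'_surjective _ x
      rw [h, map_zero] at ha
      exact Multiplicative.toAdd.injective (congrFun ha.symm u))
    have hV : V ≤ kerH hU a := fun v hv => (mem_kerH_iff hU a ⟨v, hle hv⟩).2 (by
      rw [ha]
      show Multiplicative.toAdd (f (QuotientGroup.mk' _ (⟨v, hle hv⟩ : U))) = 0
      rw [show QuotientGroup.mk' (V.subgroupOf U) (⟨v, hle hv⟩ : U) = 1 from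
        (QuotientGroup.eq_one_iff _).2 hv, map_one]
      rfl)
    obtain ⟨h0, hh0⟩ := exists_base_eq_one hU ha0
    have hne : kerH hU a ≠ U := fun h => one_ne_zero (hh0.symm.trans
      ((mem_kerH_iff hU a h0).1 (h.symm ▸ h0.2)))
    obtain ⟨b, hb⟩ := eq_sym_of_pull_eq_zero hU ha0
      (hstep _ (kerH_le hU a) (openMu_kerH hU a) hV hne)
    haveI := hU.opn.numberField
    refine hb ▸ sym_eq_zero_of_local hp2 hU a b ((loc2_eq_zero_iff hU _).2 fun q => ?_)
    rw [hb]
    exact hloc q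

/-- the Hasse principle -/
theorem hasse (hp2 : p ≠ 2) (hG : OpenMu p H) (c : G2 p H) (hc : ∀ q, res2 q _ c = 0) : c = 0 := by
  obtain ⟨z, rfl⟩ := Submodule.mkQ_surjective _ c
  obtain ⟨F, hF, hle⟩ := hG.opn
  obtain ⟨F', hF', hz⟩ := z.2.2
  haveI := hF; haveI := hF'
  obtain ⟨E, hE, hle', hn⟩ := exists_normal_level (F ⊔ F')
  haveI := hE
  refine hasse_aux hp2 E hn _ H hG
    (fun s hs => hle (by simpa using IntermediateField.fixingSubgroup_antitone le_sup_left (hle' hs)))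
    le_rfl _ ⟨z, rfl, fun g g' s s' hs hs' => hz g g' s s'
      (IntermediateField.fixingSubgroup_antitone le_sup_right (hle' hs))
      (IntermediateField.fixingSubgroup_antitone le_sup_right (hle' hs'))⟩ hc

end FLTAgent.PT
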