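import Fermat.Agent.PT.Global.Lines

/-!
The global classes of degree two form a hyperplane among the finitely supported local families, and
no place is isolated in it.
-/

set_option autoImplicit false
set_option linter.unusedSectionVars false
set_option linter.style.haveILetI false
set_option maxHeartbeats 1000000
set_option synthInstance.maxHeartbeats 200000

noncomputable section

open CategoryTheory groupCohomology

namespace FLTAgent.PT

variable {p : ℕ} [Fact p.Prime] {H : Subgroup GQ}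

/-- the global image -/
def glob (hG : OpenMu p H) : Submodule (ZMod p) (Pl H →₀ ZMod p) := LinearMap.range (loc2 hG)

theorem loc2_mem_glob (hG : OpenMu p H) (c : G2 p H) : loc2 hG c ∈ glob hG :=
  LinearMap.mem_range_self _ c

theorem exists_sym_of_single (hp2 : p ≠ 2) (hG : OpenMu p H) {a : G1 p H} (ha : a ≠ 0) {w : Pl H}
    (hw : evP hG w a ≠ 0) (he : Finsupp.single w 1 ∈ glob hG) :
    ∃ b, loc2 hG (sym hG b a) = Finsupp.single w 1 := by
  classical
  obtain ⟨c, hc⟩ := he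
  have hpull : pullG p (kerH_le hG a) c = 0 := by
    refine hasse hp2 (openMu_kerH hG a) _ fun q => ?_
    obtain ⟨z, rfl⟩ := Submodule.mkQ_surjective _ c
    refine Eq.trans ?_ (pullC_local_eq_zero hG ha (res2 q _ (h2mk _ _ z)) fun O hO => ?_)
    · rfl
    · have hne : (⟨q, O⟩ : Pl H) ≠ w := fun e => hw (e ▸ hO)
      show loc2 hG (h2mk _ _ z) ⟨q, O⟩ = 0
      rw [show loc2 hG (h2mk _ _ z) = _ from hc, Finsupp.single_eq_of_ne hne]
  obtain ⟨b, hb⟩ := eq_sym_of_pull_eq_zero hG ha hpull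
  refine ⟨-b, ?_⟩
  rw [map_neg, LinearMap.neg_apply, sym_skew, neg_neg, hb, hc]

variable [NumberField ↥(Fld H)]

theorem exists_good_of_finset (hG : OpenMu p H) (T : Finset Nat.Primes) {ι : Type}
    (s : Finset ι) (f : ι → G1 p H) :
    ∃ T', T ⊆ T' ∧ GoodT hG T' ∧ ∀ i ∈ s, f i ∈ KT hG (plT hG T') := by
  classical
  induction s using Finset.induction_on with
  | empty =>
    obtain ⟨T', h1, h2⟩ := exists_goodT hG T
    exact ⟨T', h1, h2, fun i hi => absurd hi (Finset.notMem_empty i)⟩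
  | insert i s hi ih =>
    obtain ⟨T', h1, -, h3⟩ := ih
    obtain ⟨T'', h1', h2', h3'⟩ := exists_good_mem hG T' (f i)
    refine ⟨T'', h1.trans h1', h2', fun j hj => ?_⟩
    rcases Finset.mem_insert.1 hj with rfl | hj
    · exact h3'
    · exact KT_mono hG (fun v hv => mem_plT.2 (h1' (mem_plT.1 hv))) (h3 j hj)

/-- a class is not supported at places all of which are global by themselves -/
theorem not_all_single (hp2 : p ≠ 2) (hG : OpenMu p H) {T₀ : Finset Nat.Primes} (h₀ : GoodT hG T₀)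
    {a : G1 p H} (ha : a ≠ 0) (haT : a ∈ KT hG (plT hG T₀))
    (hall : ∀ w ∈ plT hG T₀, evP hG w a ≠ 0 → Finsupp.single w 1 ∈ glob hG) : False := by
  classical
  set S₀ := (plT hG T₀).filter fun w => evP hG w a ≠ 0
  have hex : ∀ w : ↥S₀, ∃ b, loc2 hG (sym hG b a) = Finsupp.single w.1 1 := fun w =>
    exists_sym_of_single hp2 hG ha (Finset.mem_filter.1 w.2).2
      (hall w.1 (Finset.mem_filter.1 w.2).1 (Finset.mem_filter.1 w.2).2)
  choose b hb using hex
  obtain ⟨T₁, hsub, h₁, hbT⟩ := exists_good_of_finset hG T₀ S₀.attach b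
  have hsub' : plT hG T₀ ⊆ plT hG T₁ := fun v hv => mem_plT.2 (hsub (mem_plT.1 hv))
  have hfi := first_ineq hp2 hG ha
    (T := plT hG T₁) ⟨KT_mono hG hsub' haT, T₀, h₀, hsub'⟩
  set S := (plT hG T₁).filter fun v => evP hG v a ≠ 0
  set R := (KT hG (plT hG T₁)).map (theta hG a S)
  have hmemR : ∀ u ∈ KT hG (plT hG T₁), theta hG a S u ∈ R :=
    fun u hu => Submodule.mem_map_of_mem hu
  have hold : ∀ v : ↥S, v.1 ∈ plT hG T₀ → (Pi.single v 1 : ↥S → ZMod p) ∈ R := by
    intro v hv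
    set w : ↥S₀ := ⟨v.1, Finset.mem_filter.2 ⟨hv, (Finset.mem_filter.1 v.2).2⟩⟩
    have e : theta hG a S (b w) = (Pi.single v 1 : ↥S → ZMod p) := funext fun v' => by
      rw [theta_apply, hb w]
      rcases eq_or_ne v' v with rfl | h
      · rw [Finsupp.single_eq_same, Pi.single_eq_same]
      · rw [Finsupp.single_eq_of_ne (fun e => h (Subtype.ext e)), Pi.single_eq_of_ne h]
    exact e ▸ hmemR _ (hbT w (Finset.mem_attach _ _))
  have hall' : ∀ v : ↥S, (Pi.single v 1 : ↥S → ZMod p) ∈ R := by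
    intro v
    by_cases hv : v.1 ∈ plT hG T₀
    · exact hold v hv
    have hq : v.1.1 ∉ T₀ := fun h => hv (mem_plT.2 h)
    obtain ⟨y, hy⟩ := h₀.exists_ord (Finsupp.single v.1 1)
    set z := kappa hG (Additive.ofMul y)
    have hz : z ∈ KT hG (plT hG T₁) := mem_KT.2 ⟨y, fun u hu => by
      have hu0 : u.1 ∉ T₀ := fun h => hu (mem_plT.2 (hsub h))
      rw [hy u hu0, Finsupp.single_eq_of_ne]
      rintro rfl
      exact hu (Finset.mem_filter.1 v.2).1, rfl⟩
    have hvv : theta hG a S z v ≠ 0 := by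
      rw [theta_apply, loc2_sym]
      refine coord_ram_unr_ne_zero hG (h₀.unr _ hq) (h₀.ne_p hq) (unrO_of_KT h₀ haT hv hq)
        (Finset.mem_filter.1 v.2).2 ?_
      rw [unrO_kappa_iff hG (h₀.unr _ hq) (h₀.ne_p hq), ordAt_eq_ord,
        show orb v.1.1 v.1.2.out = v.1.2 from v.1.2.out_eq', hy _ hq, Finsupp.single_eq_same]
      exact fun h => (Fact.out : p.Prime).one_lt.ne' (Nat.dvd_one.1 (Int.natCast_dvd_natCast.1 h))
    have hrest : theta hG a S z - theta hG a S z v • (Pi.single v 1 : ↥S → ZMod p) ∈ R := by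
      rw [pi_eq_sum_univ' (theta hG a S z - _)]
      refine sum_mem fun v' _ => ?_
      rcases eq_or_ne v' v with rfl | h
      · simp
      by_cases hv' : v'.1 ∈ plT hG T₀
      · exact R.smul_mem _ (hold v' hv')
      have hq' : v'.1.1 ∉ T₀ := fun h' => hv' (mem_plT.2 h')
      have h0 : theta hG a S z v' = 0 := by
        rw [theta_apply, loc2_sym]
        refine coord_unr_eq_zero hG (h₀.unr _ hq') ?_ (unrO_of_KT h₀ haT hv' hq')
        rw [unrO_kappa_iff hG (h₀.unr _ hq') (h₀.ne_p hq'), ordAt_eq_ord,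
          show orb v'.1.1 v'.1.2.out = v'.1.2 from v'.1.2.out_eq', hy _ hq',
          Finsupp.single_eq_of_ne (fun e => h (Subtype.ext e))]
        exact dvd_zero _
      simp [h0, h]
    have h1 : theta hG a S z v • (Pi.single v 1 : ↥S → ZMod p) ∈ R := by
      have := R.sub_mem (hmemR z hz) hrest
      rwa [sub_sub_cancel] at this
    have := R.smul_mem (theta hG a S z v)⁻¹ h1
    rwa [smul_smul, inv_mul_cancel₀ hvv, one_smul] at this
  have htop : R = ⊤ := eq_top_iff.2 fun f _ => by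
    rw [pi_eq_sum_univ' f]
    exact sum_mem fun v _ => R.smul_mem _ (hall' v)
  have hdim : Module.finrank (ZMod p) R = S.card := by
    rw [htop, finrank_top, Module.finrank_pi, Fintype.card_coe]
  have : Module.finrank (ZMod p) R + 1 ≤ S.card := hfi
  omega

/-- a global family at two places -/
theorem exists_pair (hp2 : p ≠ 2) (hG : OpenMu p H) {v w : Pl H} (hvw : v ≠ w) :
    ∃ j ∈ glob hG, j ≠ 0 ∧ ∀ u, u ≠ v → u ≠ w → j u = 0 := by
  classical
  obtain ⟨a, hav, haw⟩ := exists_evP_ne_zero₂ hG v w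
  have ha : a ≠ 0 := fun h => hav (by rw [h, map_zero])
  obtain ⟨T₀, hsub, h₀, haT⟩ := exists_good_mem hG {v.1, w.1} a
  obtain ⟨T, -, -, hS, hout, hsec⟩ := second_ineq hp2 hG h₀ ha haT
  haveI := finite_KT hp2 hG T
  set S := T.filter fun u => evP hG u a ≠ 0
  have hvS : v ∈ S := by
    rw [hS]
    exact Finset.mem_filter.2 ⟨mem_plT.2 (hsub (Finset.mem_insert_self _ _)), hav⟩
  have hwS : w ∈ S := by
    rw [hS]
    exact Finset.mem_filter.2
      ⟨mem_plT.2 (hsub (Finset.mem_insert_of_mem (Finset.mem_singleton_self _))), haw⟩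
  set R := (KT hG T).map (theta hG a S)
  let π : (↥S → ZMod p) →ₗ[ZMod p] (↥((S.erase v).erase w) → ZMod p) :=
    LinearMap.funLeft _ _ fun u => ⟨u.1, Finset.mem_of_mem_erase (Finset.mem_of_mem_erase u.2)⟩
  have hcard : ((S.erase v).erase w).card + 2 = S.card := by
    have h1 := Finset.card_erase_add_one (Finset.mem_erase.2 ⟨Ne.symm hvw, hwS⟩)
    have h2 := Finset.card_erase_add_one hvS
    omega
  obtain ⟨f, hf, hf0⟩ : ∃ f ∈ R ⊓ LinearMap.ker π, f ≠ 0 := by
    refine (Submodule.ne_bot_iff _).1 fun h => ?_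
    have h1 := finrank_map_add_inf R π
    rw [h, finrank_bot] at h1
    have h2 := Submodule.finrank_le (R.map π)
    rw [Module.finrank_pi, Fintype.card_coe] at h2
    have h3 : S.card ≤ Module.finrank (ZMod p) R + 1 := hsec
    omega
  obtain ⟨hfR, hfπ⟩ := Submodule.mem_inf.1 hf
  obtain ⟨b, hb, rfl⟩ := hfR
  refine ⟨loc2 hG (sym hG b a), loc2_mem_glob hG _, fun h => hf0 (funext fun u => ?_),
    fun u huv huw => ?_⟩
  · rw [theta_apply, h]; rfl
  · by_cases hu : u ∈ S
    · exact congrFun (LinearMap.mem_ker.1 hfπ)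
        ⟨u, Finset.mem_erase.2 ⟨huw, Finset.mem_erase.2 ⟨huv, hu⟩⟩⟩
    · exact hout b hb u hu

theorem exists_not_mem_glob (hp2 : p ≠ 2) (hG : OpenMu p H) :
    ∃ v : Pl H, Finsupp.single v 1 ∉ glob hG := by
  by_contra! h
  haveI := hG.finite
  set v : Pl H := ⟨pP p, orb (pP p) ((1 : GQ) : GQ ⧸ H)⟩
  obtain ⟨a, ha, -⟩ := exists_evP_ne_zero₂ hG v v
  obtain ⟨T₀, -, h₀, haT⟩ := exists_good_mem hG ∅ a
  exact not_all_single hp2 hG h₀ (fun e => ha (by rw [e, map_zero])) haT fun w _ _ => h w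

/-- the global image is a hyperplane -/
theorem exists_glob_ker (hp2 : p ≠ 2) (hG : OpenMu p H) :
    ∃ l : (Pl H →₀ ZMod p) →ₗ[ZMod p] ZMod p, l ≠ 0 ∧ glob hG = LinearMap.ker l := by
  classical
  obtain ⟨v₀, hv₀⟩ := exists_not_mem_glob hp2 hG
  have hspan : ∀ w, ∃ c : ZMod p, Finsupp.single w 1 - c • Finsupp.single v₀ 1 ∈ glob hG := by
    intro w
    rcases eq_or_ne w v₀ with rfl | hw
    · exact ⟨1, by rw [one_smul, sub_self]; exact zero_mem _⟩
    obtain ⟨j, hj, hj0, hsupp⟩ := exists_pair hp2 hG hw.symm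
    have hdec : j = j v₀ • Finsupp.single v₀ 1 + j w • Finsupp.single w 1 := Finsupp.ext fun u => by
      rcases eq_or_ne u v₀ with rfl | hu
      · simp [hw.symm]
      rcases eq_or_ne u w with rfl | hu'
      · simp [hu]
      · simp [hsupp u hu hu', hu, hu']
    have hjw : j w ≠ 0 := fun h0 => by
      rw [h0, zero_smul, add_zero] at hdec
      have hj' : j v₀ ≠ 0 := fun h1 => hj0 (by rw [hdec, h1, zero_smul])
      have := (glob hG).smul_mem (j v₀)⁻¹ (hdec ▸ hj : j v₀ • Finsupp.single v₀ 1 ∈ glob hG)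
      rw [smul_smul, inv_mul_cancel₀ hj', one_smul] at this
      exact hv₀ this
    refine ⟨-((j w)⁻¹ * j v₀), ?_⟩
    have key : (j w)⁻¹ • j = Finsupp.single w 1 -
        -((j w)⁻¹ * j v₀) • Finsupp.single v₀ 1 := by
      conv_lhs => arg 2; rw [hdec]
      rw [smul_add, smul_smul, smul_smul, inv_mul_cancel₀ hjw, one_smul, neg_smul, sub_neg_eq_add,
        add_comm]
    rw [← key]
    exact (glob hG).smul_mem _ hj
  choose c hc using hspan
  let l : (Pl H →₀ ZMod p) →ₗ[ZMod p] ZMod p := Finsupp.linearCombination (ZMod p) c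
  have hsub : ∀ f : Pl H →₀ ZMod p, f - l f • Finsupp.single v₀ 1 ∈ glob hG := by
    intro f
    induction f using Finsupp.induction_linear with
    | zero => simp
    | add f g hf hg =>
      rw [map_add, add_smul, add_sub_add_comm]
      exact add_mem hf hg
    | single w r =>
      rw [show l (Finsupp.single w r) = r * c w from Finsupp.linearCombination_single _ _ _,
        mul_smul, ← Finsupp.smul_single_one w r, ← smul_sub]
      exact (glob hG).smul_mem r (hc w)
  have hker : glob hG = LinearMap.ker l := by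
    refine le_antisymm (fun f hf => LinearMap.mem_ker.2 (by_contra fun h => hv₀ ?_)) fun f hf => ?_
    · have h1 := (glob hG).sub_mem hf (hsub f)
      rw [sub_sub_cancel] at h1
      have := (glob hG).smul_mem (l f)⁻¹ h1
      rwa [smul_smul, inv_mul_cancel₀ h, one_smul] at this
    · have := hsub f
      rwa [LinearMap.mem_ker.1 hf, zero_smul, sub_zero] at this
  refine ⟨l, fun h0 => hv₀ ?_, hker⟩
  rw [hker, h0]
  exact LinearMap.mem_ker.2 rfl

/-- the classes at the places above a finite set of primes -/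
abbrev LocPl (H : Subgroup GQ) (p : ℕ) [Fact p.Prime] (T₀ : Finset Nat.Primes) : Type :=
  ∀ q : ↥T₀, lH1 q.1 (ind H (mu p))

/-- the localisation at the places above a finite set of primes -/
def resPl (H : Subgroup GQ) (T₀ : Finset Nat.Primes) : G1 p H →ₗ[ZMod p] LocPl H p T₀ :=
  LinearMap.pi fun q => res1 q.1 (ind H (mu p))

theorem resPl_apply (T₀ : Finset Nat.Primes) (b : G1 p H) (q : ↥T₀) :
    resPl H T₀ b q = res1 q.1 _ b := rfl

/-- the weighted sum of the symbols above a finite set of primes -/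
def pairPl (hG : OpenMu p H) (l : (Pl H →₀ ZMod p) →ₗ[ZMod p] ZMod p) (T₀ : Finset Nat.Primes) :
    LocPl H p T₀ →ₗ[ZMod p] LocPl H p T₀ →ₗ[ZMod p] ZMod p :=
  LinearMap.mk₂ (ZMod p)
    (fun x y => ∑ w : ↥(plT hG T₀), l (Finsupp.single w.1 1) *
      coord hG w.1.1 (symq hG w.1.1 (x ⟨w.1.1, mem_plT.1 w.2⟩) (y ⟨w.1.1, mem_plT.1 w.2⟩)) w.1.2)
    (fun x x' y => by
      simp only [Pi.add_apply, map_add, LinearMap.add_apply, mul_add, Finset.sum_add_distrib])
    (fun r x y => by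
      simp only [Pi.smul_apply, map_smul, LinearMap.smul_apply, smul_eq_mul, Finset.mul_sum,
        mul_left_comm r])
    (fun x y y' => by
      simp only [Pi.add_apply, map_add, mul_add, Finset.sum_add_distrib])
    (fun r x y => by
      simp only [Pi.smul_apply, map_smul, smul_eq_mul, Finset.mul_sum, mul_left_comm r])

theorem pairPl_apply (hG : OpenMu p H) (l : (Pl H →₀ ZMod p) →ₗ[ZMod p] ZMod p)
    (T₀ : Finset Nat.Primes) (x y : LocPl H p T₀) :
    pairPl hG l T₀ x y = ∑ w : ↥(plT hG T₀), l (Finsupp.single w.1 1) *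
      coord hG w.1.1 (symq hG w.1.1 (x ⟨w.1.1, mem_plT.1 w.2⟩) (y ⟨w.1.1, mem_plT.1 w.2⟩))
        w.1.2 := rfl

theorem pairPl_resT_eq_zero (hG : OpenMu p H) {l : (Pl H →₀ ZMod p) →ₗ[ZMod p] ZMod p}
    (hl : glob hG = LinearMap.ker l) {T₀ : Finset Nat.Primes} (h₀ : GoodT hG T₀) {b c : G1 p H}
    (hb : b ∈ KT hG (plT hG T₀)) (hc : c ∈ KT hG (plT hG T₀)) :
    pairPl hG l T₀ (resPl H T₀ b) (resPl H T₀ c) = 0 := by
  classical
  rw [pairPl_apply]
  have hsupp : loc2 hG (sym hG b c) =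
      ∑ w ∈ plT hG T₀, Finsupp.single w (loc2 hG (sym hG b c) w) := by
    refine Finsupp.ext fun u => ?_
    rw [Finsupp.finset_sum_apply]
    by_cases hu : u ∈ plT hG T₀
    · rw [Finset.sum_eq_single u]
      · rw [Finsupp.single_eq_same]
      · exact fun w _ hw => Finsupp.single_eq_of_ne hw.symm
      · exact fun h => absurd hu h
    · rw [loc2_sym_eq_zero_of_KT h₀ hb hc hu fun h => hu (mem_plT.2 h),
        Finset.sum_eq_zero fun w hw => Finsupp.single_eq_of_ne fun e : u = w => hu (e ▸ hw)]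
  have h0 : l (loc2 hG (sym hG b c)) = 0 :=
    LinearMap.mem_ker.1 (hl ▸ loc2_mem_glob hG (sym hG b c))
  rw [hsupp, map_sum, ← Finset.sum_coe_sort] at h0
  rw [← h0]
  refine Finset.sum_congr rfl fun w _ => ?_
  rw [← Finsupp.smul_single_one w.1 (loc2 hG (sym hG b c) w.1), map_smul, smul_eq_mul, mul_comm,
    loc2_sym, resPl_apply, resPl_apply]

theorem pairPl_single (hG : OpenMu p H) (l : (Pl H →₀ ZMod p) →ₗ[ZMod p] ZMod p)
    (T₀ : Finset Nat.Primes) (x : LocPl H p T₀) (w : ↥(plT hG T₀))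
    (b : lH1 w.1.1 (ind H (mu p)))
    (hb : ∀ O : Orb w.1.1 H, O ≠ w.1.2 → ev1 hG w.1.1 O.out b = 0) :
    pairPl hG l T₀ x (Pi.single (M := fun q : ↥T₀ => lH1 q.1 (ind H (mu p)))
        ⟨w.1.1, mem_plT.1 w.2⟩ b) =
      l (Finsupp.single w.1 1) *
        coord hG w.1.1 (symq hG w.1.1 (x ⟨w.1.1, mem_plT.1 w.2⟩) b) w.1.2 := by
  classical
  rw [pairPl_apply, Finset.sum_eq_single w]
  · rw [Pi.single_eq_same]
  · intro w' _ hne
    obtain ⟨⟨q', O'⟩, hw'⟩ := w'
    by_cases hq : q' = w.1.1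
    · subst hq
      rw [Pi.single_eq_same, coord_symq_right hG O' _ (hb O' fun e' => hne
        (Subtype.ext (Sigma.ext rfl (heq_of_eq e')))), mul_zero]
    · rw [Pi.single_eq_of_ne (fun e' => hq (congrArg Subtype.val e')), map_zero, map_zero,
        Pi.zero_apply, mul_zero]
  · exact fun h => absurd (Finset.mem_univ _) h

theorem resPl_eq_zero_imp (hp2 : p ≠ 2) (hG : OpenMu p H) {T₀ : Finset Nat.Primes}
    (h₀ : GoodT hG T₀) {b : G1 p H} (hb : b ∈ KT hG (plT hG T₀)) (h : resPl H T₀ b = 0) :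
    b = 0 := by
  by_contra hne
  refine not_all_single hp2 hG h₀ hne hb fun w hw hwb => absurd ?_ hwb
  show ev1 hG w.1 w.2.out (res1 w.1 _ b) = 0
  rw [← resPl_apply T₀ b ⟨w.1, mem_plT.1 hw⟩, h]
  exact map_zero _

theorem pairPl_eq_zero_imp (hp2 : p ≠ 2) (hG : OpenMu p H)
    {l : (Pl H →₀ ZMod p) →ₗ[ZMod p] ZMod p}
    (hl : glob hG = LinearMap.ker l) {T₀ : Finset Nat.Primes}
    (h₀ : GoodT hG T₀) {b : G1 p H} (hb : b ∈ KT hG (plT hG T₀))
    (h : pairPl hG l T₀ (resPl H T₀ b) = 0) : b = 0 := by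
  by_contra hne
  refine not_all_single hp2 hG h₀ hne hb fun w hw hwb => hl ▸ LinearMap.mem_ker.2 ?_
  obtain ⟨c, hc, hc'⟩ := exists_coord_single hG w.2
    (a := res1 w.1 (ind H (mu p)) b) hwb
  have h1 := pairPl_single hG l T₀ (resPl H T₀ b) ⟨w, hw⟩ c hc'
  rw [h, LinearMap.zero_apply, resPl_apply] at h1
  exact (mul_eq_zero.1 h1.symm).resolve_right hc

theorem finrank_map_add_inf_monoid {V W : Type*} [AddCommMonoid V] [Module (ZMod p) V]
    [AddCommMonoid W] [Module (ZMod p) W] (S : Submodule (ZMod p) V) [Module.Finite (ZMod p) S]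
    (f : V →ₗ[ZMod p] W) :
    Module.finrank (ZMod p) (S.map f) +
      Module.finrank (ZMod p) (S ⊓ LinearMap.ker f : Submodule _ _) =
        Module.finrank (ZMod p) S := by
  letI := Module.addCommMonoidToAddCommGroup (ZMod p) (M := V)
  letI := Module.addCommMonoidToAddCommGroup (ZMod p) (M := W)
  exact finrank_map_add_inf S f

theorem mem_of_isotropic {W : Type*} [AddCommMonoid W] [Module (ZMod p) W]
    [Module.Finite (ZMod p) W] (B : W →ₗ[ZMod p] W →ₗ[ZMod p] ZMod p) (V : Submodule (ZMod p) W)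
    (hiso : ∀ x ∈ V, ∀ y ∈ V, B x y = 0) (hker : V ⊓ LinearMap.ker B = ⊥)
    (hdim : Module.finrank (ZMod p) W ≤ 2 * Module.finrank (ZMod p) V) {x : W}
    (hx : ∀ y ∈ V, B y x = 0) : x ∈ V := by
  letI := Module.addCommMonoidToAddCommGroup (ZMod p) (M := W)
  have hAd : Module.finrank (ZMod p) (V.map B) = Module.finrank (ZMod p) V := by
    have := finrank_map_add_inf V B
    rw [hker, finrank_bot] at this
    simpa using this
  have hco : V = (V.map B).dualCoannihilator := by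
    refine Submodule.eq_of_le_of_finrank_le (fun y hy => ?_) ?_
    · rw [Submodule.mem_dualCoannihilator]
      rintro φ ⟨z, hz, rfl⟩
      exact hiso z hz y hy
    · have h1 : Module.finrank (ZMod p) ↥(V.map B) +
          Module.finrank (ZMod p) ↥(V.map B).dualCoannihilator = Module.finrank (ZMod p) W :=
        Subspace.finrank_add_finrank_dualCoannihilator_eq (V.map B)
      rw [hAd] at h1
      omega
  rw [hco, Submodule.mem_dualCoannihilator]
  rintro φ ⟨y, hy, rfl⟩
  exact hx y hy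

/-- the functional of the global image vanishes at no place -/
theorem glob_ker_ne_zero (hp2 : p ≠ 2) (hG : OpenMu p H)
    {l : (Pl H →₀ ZMod p) →ₗ[ZMod p] ZMod p} (hl : glob hG = LinearMap.ker l) (v : Pl H) :
    l (Finsupp.single v 1) ≠ 0 := by
  classical
  intro hv
  obtain ⟨T₀, hsub, h₀⟩ := exists_goodT hG {v.1}
  haveI : ∀ q : ↥T₀, Module.Finite (ZMod p) (lH1 q.1 (ind H (mu p))) := fun q =>
    finite_lH1 q.1 hG.adm
  haveI := finite_KT hp2 hG (plT hG T₀)
  set V := (KT hG (plT hG T₀)).map (resPl (p := p) H T₀)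
  have hker : V ⊓ LinearMap.ker (pairPl hG l T₀) = ⊥ := by
    rw [eq_bot_iff]
    intro x hx
    obtain ⟨⟨b, hb, rfl⟩, hxB⟩ := Submodule.mem_inf.1 hx
    rw [pairPl_eq_zero_imp hp2 hG hl h₀ hb (LinearMap.mem_ker.1 hxB), map_zero]
    exact zero_mem _
  have hVd : Module.finrank (ZMod p) V = Module.finrank (ZMod p) (KT hG (plT hG T₀)) := by
    have := finrank_map_add_inf_monoid (KT hG (plT hG T₀)) (resPl (p := p) H T₀)
    rw [show KT hG (plT hG T₀) ⊓ LinearMap.ker (resPl (p := p) H T₀) = ⊥ from eq_bot_iff.2 fun b hb =>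
      (Submodule.mem_bot _).2 (resPl_eq_zero_imp hp2 hG h₀ hb.1 (LinearMap.mem_ker.1 hb.2)),
      finrank_bot] at this
    simpa using this
  have hdim : Module.finrank (ZMod p) (LocPl H p T₀) ≤ 2 * Module.finrank (ZMod p) V := by
    have h2 : Module.finrank (ZMod p) (LocPl H p T₀) = 2 * (plT hG T₀).card + H.index :=
      finrank_locals hG h₀.mem_p
    have h4 := finrank_KT hp2 hG (plT hG T₀)
    have h5 := (rank_fld hp2 hG).2
    omega
  -- the class concentrated at `v`
  obtain ⟨a, ha, -⟩ := exists_evP_ne_zero₂ hG v v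
  set qv : ↥T₀ := ⟨v.1, hsub (Finset.mem_singleton_self _)⟩
  set b₀ := proj1 v.2 (res1 v.1 _ a) with hb₀
  set x : LocPl H p T₀ := Pi.single (M := fun q : ↥T₀ => lH1 q.1 (ind H (mu p))) qv b₀
  have hxV : x ∈ V := by
    refine mem_of_isotropic (W := LocPl H p T₀) (pairPl hG l T₀) V ?_ hker hdim fun y _ => ?_
    · rintro _ ⟨b, hb, rfl⟩ _ ⟨c, hc, rfl⟩
      exact pairPl_resT_eq_zero hG hl h₀ hb hc
    · refine (pairPl_single hG l T₀ y ⟨v, mem_plT.2 qv.2⟩ b₀ fun O hO =>
        ev1_proj1_ne hG hO _).trans ?_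
      rw [hv, zero_mul]
  obtain ⟨b, hb, hbx⟩ := hxV
  have hres : ∀ w ∈ plT hG T₀, evP hG w b ≠ 0 → w = v := by
    intro w hw hwb
    by_contra hne
    apply hwb
    show ev1 hG w.1 w.2.out (res1 w.1 _ b) = 0
    rw [← resPl_apply T₀ b ⟨w.1, mem_plT.1 hw⟩, hbx]
    obtain ⟨q', O'⟩ := w
    by_cases hq : q' = v.1
    · subst hq
      show ev1 hG _ O'.out (Pi.single (M := fun q : ↥T₀ => lH1 q.1 (ind H (mu p))) qv b₀ qv) = 0
      rw [Pi.single_eq_same]
      exact ev1_proj1_ne hG (fun e' => hne (Sigma.ext rfl (heq_of_eq e'))) _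
    · show ev1 hG _ O'.out (Pi.single (M := fun q : ↥T₀ => lH1 q.1 (ind H (mu p))) qv b₀ ⟨q', _⟩) = 0
      rw [Pi.single_eq_of_ne (fun e' => hq (congrArg Subtype.val e')), map_zero]
  have hb0 : b ≠ 0 := by
    intro e'
    apply ha
    show ev1 hG v.1 v.2.out (res1 v.1 _ a) = 0
    rw [← ev1_proj1_self hG v.2, ← hb₀]
    have h1 : resPl (p := p) H T₀ b qv = b₀ := (congrFun hbx qv).trans (Pi.single_eq_same _ _)
    rw [resPl_apply, e', map_zero] at h1
    rw [← h1, map_zero]
  exact not_all_single hp2 hG h₀ hb0 hb fun w hw hwb =>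
    hl ▸ LinearMap.mem_ker.2 (hres w hw hwb ▸ hv)

end FLTAgent.PT
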