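import Fermat.Agent.PT.Global.Cls
import Fermat.Agent.PT.Global.Dict

/-!
Kummer theory: `(Fld H)ˣ / p = H¹(ind H μ_p)`.
-/

set_option autoImplicit false
set_option linter.unusedSectionVars false
set_option linter.style.haveILetI false

noncomputable section

open CategoryTheory groupCohomology IntermediateField

namespace FLTAgent.PT

/-- the algebraic closure of `ℚ` -/
local notation "Qb" => AlgebraicClosure ℚ

variable {p : ℕ} [Fact p.Prime]

/-- the chosen primitive root of unity -/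
def zeta (p : ℕ) [Fact p.Prime] : Qb :=
  haveI : NeZero p := ⟨(Fact.out : p.Prime).ne_zero⟩
  (HasEnoughRootsOfUnity.exists_primitiveRoot Qb p).choose

theorem zeta_spec : IsPrimitiveRoot (zeta p) p :=
  haveI : NeZero p := ⟨(Fact.out : p.Prime).ne_zero⟩
  (HasEnoughRootsOfUnity.exists_primitiveRoot Qb p).choose_spec

theorem zeta_ne_zero : zeta p ≠ 0 := zeta_spec.ne_zero (Fact.out : p.Prime).ne_zero

theorem gal_zeta (g : GQ) : g (zeta p) = zeta p ^ (ExtCitation.cycloChar p g : ZMod p).val :=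
  haveI : NeZero p := ⟨(Fact.out : p.Prime).ne_zero⟩
  modularCyclotomicCharacter.spec Qb (ExtCitation.card_rootsOfUnity_eq_self p) g.toRingEquiv
    ((mem_rootsOfUnity' p (Units.mk0 (zeta p) zeta_ne_zero)).2 zeta_spec.pow_eq_one)

theorem pow_zeta_add (i j : ZMod p) :
    zeta p ^ (i + j).val = zeta p ^ i.val * zeta p ^ j.val := by
  rw [← pow_add, ZMod.val_add]
  conv_rhs => rw [← Nat.mod_add_div (i.val + j.val) p, pow_add, pow_mul, zeta_spec.pow_eq_one,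
    one_pow, mul_one]

theorem zeta_pow_injective : Function.Injective fun i : ZMod p => zeta p ^ i.val := fun i j h =>
  ZMod.val_injective p (zeta_spec.pow_inj (ZMod.val_lt i) (ZMod.val_lt j) h)

variable {H : Subgroup GQ}

theorem OpenMu.fix_zeta (hG : OpenMu p H) {h : GQ} (hh : h ∈ H) : h (zeta p) = zeta p := by
  haveI : Fact (1 < p) := ⟨(Fact.out : p.Prime).one_lt⟩
  rw [gal_zeta, hG.triv h hh, Units.val_one, ZMod.val_one, pow_one]

theorem mem_fld {x : Qb} : x ∈ Fld H ↔ ∀ h ∈ H, (h : GQ) x = x :=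
  IntermediateField.mem_fixedField_iff _ _

theorem fix_fld {h : GQ} (hh : h ∈ H) (y : Fld H) : h (y : Qb) = y := mem_fld.mp y.2 h hh

/-- `φ` is the Kummer character of the root `r` -/
def IsKum (p : ℕ) [Fact p.Prime] (r : Qb) (φ : H → ZMod p) : Prop :=
  ∀ h : H, (h : GQ) r = zeta p ^ (φ h).val * r

theorem IsKum.unique {r : Qb} (hr : r ≠ 0) {φ ψ : H → ZMod p} (h : IsKum p r φ)
    (h' : IsKum p r ψ) : φ = ψ :=
  funext fun g => zeta_pow_injective (mul_right_cancel₀ hr ((h g).symm.trans (h' g)))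

theorem IsKum.mul (hG : OpenMu p H) {r : Qb} (hr : r ≠ 0) {φ : H → ZMod p} (h : IsKum p r φ)
    (g k : H) : φ (g * k) = φ g + φ k := by
  refine zeta_pow_injective (mul_right_cancel₀ hr ?_)
  show zeta p ^ (φ (g * k)).val * r = zeta p ^ (φ g + φ k).val * r
  rw [← h, Subgroup.coe_mul, AlgEquiv.mul_apply, h k, map_mul, map_pow, hG.fix_zeta g.2, h g,
    pow_zeta_add]
  ring

theorem exists_isKum (y : (Fld H)ˣ) :
    ∃ (r : Qb) (φ : H → ZMod p), r ^ p = ((y : Fld H) : Qb) ∧ r ≠ 0 ∧ IsKum p r φ := by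
  haveI : NeZero p := ⟨(Fact.out : p.Prime).ne_zero⟩
  obtain ⟨r, hr⟩ := IsAlgClosed.exists_pow_nat_eq ((y : Fld H) : Qb) (n := p) (NeZero.pos p)
  have hy : ((y : Fld H) : Qb) ≠ 0 := fun h => y.ne_zero (Subtype.ext h)
  have hr0 : r ≠ 0 := fun h => hy (by rw [← hr, h, zero_pow (NeZero.ne p)])
  have key : ∀ h : H, ∃ i : ZMod p, (h : GQ) r = zeta p ^ i.val * r := fun h => by
    obtain ⟨i, hi, hir⟩ := zeta_spec.eq_pow_of_pow_eq_one (ξ := (h : GQ) r / r) (k := p)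
      (by rw [div_pow, ← map_pow, hr, fix_fld h.2, div_self hy])
    exact ⟨(i : ZMod p), by rw [ZMod.val_natCast, Nat.mod_eq_of_lt hi, hir, div_mul_cancel₀ _ hr0]⟩
  choose φ hφ using key
  exact ⟨r, φ, hr, hr0, hφ⟩

theorem exists_base (hG : OpenMu p H) (φ : H → ZMod p) (hmul : ∀ g k, φ (g * k) = φ g + φ k)
    (hlev : ∃ E : IntermediateField ℚ Qb, FiniteDimensional ℚ E ∧
      ∀ h : H, (h : GQ) ∈ E.fixingSubgroup → φ h = 0) :
    ∃ a : G1 p H, base hG a = φ := by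
  set x0 : GQ ⧸ H := ((1 : GQ) : GQ ⧸ H)
  have hS : ∀ (x : ({x0} : Set (GQ ⧸ H))) (g : stabAt (MonoidHom.id GQ) H x.1), (g : GQ) ∈ H := by
    rintro ⟨_, rfl⟩ g
    exact mem_of_fix_one (MulAction.mem_stabilizer_iff.1 g.2)
  let f : ∀ x : ({x0} : Set (GQ ⧸ H)), stabAt (MonoidHom.id GQ) H x.1 →
      Rep.res ((MonoidHom.id GQ).comp (stabAt (MonoidHom.id GQ) H x.1).subtype) (mu p) :=
    fun x g => φ ⟨g, hS x g⟩
  have hf : ∀ x, f x ∈ Z1 ((MonoidHom.id GQ).comp (stabAt (MonoidHom.id GQ) H x.1).subtype)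
      (Rep.res ((MonoidHom.id GQ).comp (stabAt (MonoidHom.id GQ) H x.1).subtype) (mu p)) := by
    intro x
    refine ⟨(mem_cocycles₁_iff _).2 fun g k => ?_, ?_⟩
    · show (φ ⟨((g * k : stabAt _ H x.1) : GQ), _⟩ : ZMod p) =
        ((mu p).ρ (g : GQ) (φ ⟨k, hS x k⟩) : ZMod p) + φ ⟨g, hS x g⟩
      rw [show (⟨((g * k : stabAt _ H x.1) : GQ), hS x _⟩ : H) = ⟨g, hS x g⟩ * ⟨k, hS x k⟩ from rfl,
        hmul, add_comm]
      simp [Representation.twist_apply, hG.triv (g : GQ) (hS x g)]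
    · obtain ⟨E, hE, hφE⟩ := hlev
      refine ⟨E, hE, fun g s hs => ?_⟩
      show φ ⟨((g * s : stabAt _ H x.1) : GQ), _⟩ = φ ⟨g, hS x g⟩
      rw [show (⟨((g * s : stabAt _ H x.1) : GQ), hS x _⟩ : H) = ⟨g, hS x g⟩ * ⟨s, hS x s⟩ from rfl,
        hmul, hφE ⟨s, hS x s⟩ hs, add_zero]
  obtain ⟨a, ha⟩ := (shap1_bijective (f := MonoidHom.id GQ) (r := MonoidHom.id GQ)
    (r' := MonoidHom.id GQ) (fun _ => rfl) hG.opn (isAdm_mu p) (isOrbitReps_one H)).2
    fun x => h1mk _ _ ⟨f x, hf x⟩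
  refine ⟨a, funext fun h => ?_⟩
  obtain ⟨z, rfl⟩ := Submodule.mkQ_surjective _ a
  have hmem : (h : GQ) ∈ stabAt (MonoidHom.id GQ) H x0 := MulAction.mem_stabilizer_iff.2 (by
    show (h : GQ) • x0 = x0
    rw [MulAction.Quotient.smul_mk, QuotientGroup.eq]
    simp)
  let Z : Z1 ((MonoidHom.id GQ).comp (stabAt (MonoidHom.id GQ) H x0).subtype)
      (Rep.res ((MonoidHom.id GQ).comp (stabAt (MonoidHom.id GQ) H x0).subtype) (mu p)) :=
    ⟨_, pullPush_mem_Z1 (MonoidHom.id GQ)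
      (stabAt (MonoidHom.id GQ) H x0).subtype (fun _ => rfl) (evAt (MonoidHom.id GQ) H (mu p) x0)
      (evAt_eqv (MonoidHom.id GQ) H (mu p) x0) z.2⟩
  have e0 : h1mk _ _ Z = h1mk _ _ ⟨f ⟨x0, rfl⟩, hf ⟨x0, rfl⟩⟩ := congrFun ha ⟨x0, rfl⟩
  obtain ⟨m, hm⟩ := (h1mk_eq_zero_iff _ (Z - ⟨f ⟨x0, rfl⟩, hf ⟨x0, rfl⟩⟩)).1
    (by rw [map_sub]; exact sub_eq_zero.2 e0)
  have e3 : ((mu p).ρ (h : GQ) m : ZMod p) - (m : ZMod p) =
      (z.1 (h : GQ) x0 : ZMod p) - φ h := hm (⟨(h : GQ), hmem⟩ : stabAt (MonoidHom.id GQ) H x0)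
  have e4 : ((mu p).ρ (h : GQ) m : ZMod p) = m := by
    simp [Representation.twist_apply, hG.triv (h : GQ) h.2]
  rw [e4, sub_self] at e3
  show (z.1 (h : GQ) x0 : ZMod p) = φ h
  exact sub_eq_zero.1 e3.symm

theorem base_level (hG : OpenMu p H) (a : G1 p H) :
    ∃ E : IntermediateField ℚ Qb, FiniteDimensional ℚ E ∧
      ∀ h : H, (h : GQ) ∈ E.fixingSubgroup → base hG a h = 0 := by
  obtain ⟨z, rfl⟩ := Submodule.mkQ_surjective _ a
  obtain ⟨E, hE, hz⟩ := z.2.2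
  refine ⟨E, hE, fun h hh => ?_⟩
  show (z.1 (h : GQ) _ : ZMod p) = 0
  rw [← one_mul (h : GQ), hz 1 h hh]
  have e := cocycles₁_map_one (⟨z.1, z.2.1⟩ : cocycles₁ (ind H (mu p)))
  rw [show z.1 1 = 0 from e]
  rfl

/-- the Kummer class exists -/
theorem exists_kappa (hG : OpenMu p H) (y : (Fld H)ˣ) :
    ∃ (a : G1 p H) (r : Qb), r ^ p = ((y : Fld H) : Qb) ∧ r ≠ 0 ∧ IsKum p r (base hG a) := by
  haveI : NeZero p := ⟨(Fact.out : p.Prime).ne_zero⟩
  haveI : Algebra.IsIntegral ℚ Qb := ⟨fun x =>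
    (FLTAgent.Common.isAlgebraic_qbar.isAlgebraic x).isIntegral⟩
  obtain ⟨r, φ, hr, hr0, hφ⟩ := exists_isKum (p := p) y
  obtain ⟨a, ha⟩ := exists_base hG φ (hφ.mul hG hr0) ⟨IntermediateField.adjoin ℚ {r},
    IntermediateField.adjoin.finiteDimensional (Algebra.IsIntegral.isIntegral r), fun h hh => by
      refine zeta_pow_injective (mul_right_cancel₀ hr0 ?_)
      show zeta p ^ (φ h).val * r = zeta p ^ (0 : ZMod p).val * r
      rw [← hφ h, (IntermediateField.mem_fixingSubgroup_iff _ _).mp hh r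
        (IntermediateField.subset_adjoin ℚ _ rfl), ZMod.val_zero, pow_zero, one_mul]⟩
  exact ⟨a, r, hr, hr0, ha ▸ hφ⟩

/-- any `p`-th root has the Kummer character as character -/
theorem isKum_of_pow_eq (hG : OpenMu p H) {y : Qb} {r r' : Qb} {φ : H → ZMod p} (hy : y ≠ 0)
    (hr : r ^ p = y) (hr' : r' ^ p = y) (h : IsKum p r φ) : IsKum p r' φ := by
  haveI : NeZero p := ⟨(Fact.out : p.Prime).ne_zero⟩
  have hr0 : r ≠ 0 := fun e => hy (by rw [← hr, e, zero_pow (NeZero.ne p)])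
  obtain ⟨i, -, hi⟩ := zeta_spec.eq_pow_of_pow_eq_one (ξ := r' / r) (k := p)
    (by rw [div_pow, hr, hr', div_self hy])
  have e : r' = zeta p ^ i * r := by rw [hi, div_mul_cancel₀ _ hr0]
  intro g
  rw [e, map_mul, map_pow, hG.fix_zeta g.2, h g]
  ring

theorem kappa_unique (hG : OpenMu p H) {a a' : G1 p H} {y r r' : Qb} (hy : y ≠ 0)
    (hr : r ^ p = y) (hr' : r' ^ p = y) (h : IsKum p r (base hG a)) (h' : IsKum p r' (base hG a')) :
    a = a' :=
  base_injective hG (IsKum.unique (fun e => hy (by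
    rw [← hr', e, zero_pow (Fact.out : p.Prime).ne_zero])) (isKum_of_pow_eq hG hy hr hr' h) h')

/-- the Kummer map -/
def kappa (hG : OpenMu p H) : Additive (Fld H)ˣ →+ G1 p H :=
  AddMonoidHom.mk' (fun y => (exists_kappa hG (Additive.toMul y)).choose) fun y y' => by
    obtain ⟨r, hr, hr0, h⟩ := (exists_kappa hG (Additive.toMul y)).choose_spec
    obtain ⟨r', hr', hr0', h'⟩ := (exists_kappa hG (Additive.toMul y')).choose_spec
    obtain ⟨s, hs, hs0, hk⟩ := (exists_kappa hG (Additive.toMul (y + y'))).choose_spec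
    refine kappa_unique hG (fun e => (Additive.toMul (y + y')).ne_zero (Subtype.ext e)) hs
      (r' := r * r') ?_ hk ?_
    · rw [mul_pow, hr, hr']
      rfl
    · intro g
      rw [map_mul, h g, h' g, map_add, Pi.add_apply, pow_zeta_add]
      ring

theorem kappa_spec (hG : OpenMu p H) (y : (Fld H)ˣ) :
    ∃ r : Qb, r ^ p = ((y : Fld H) : Qb) ∧ r ≠ 0 ∧
      IsKum p r (base hG (kappa hG (Additive.ofMul y))) :=
  (exists_kappa hG y).choose_spec

theorem kappa_isKum (hG : OpenMu p H) (y : (Fld H)ˣ) {r : Qb}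
    (hr : r ^ p = ((y : Fld H) : Qb)) : IsKum p r (base hG (kappa hG (Additive.ofMul y))) := by
  obtain ⟨s, hs, -, h⟩ := kappa_spec hG y
  exact isKum_of_pow_eq hG (fun e => y.ne_zero (Subtype.ext e)) hs hr h

theorem kappa_eq_zero_iff (hG : OpenMu p H) (y : (Fld H)ˣ) :
    kappa hG (Additive.ofMul y) = 0 ↔ ∃ z : (Fld H)ˣ, z ^ p = y := by
  constructor
  · intro h
    obtain ⟨r, hr, hr0, hk⟩ := kappa_spec hG y
    rw [h, map_zero] at hk
    have hmem : r ∈ Fld H := mem_fld.mpr fun g hg => by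
      simpa using hk ⟨g, hg⟩
    exact ⟨Units.mk0 ⟨r, hmem⟩ fun e => hr0 (congrArg Subtype.val e),
      Units.ext (Subtype.ext hr)⟩
  · rintro ⟨z, rfl⟩
    rw [ofMul_pow, map_nsmul, ← Nat.cast_smul_eq_nsmul (ZMod p), ZMod.natCast_self, zero_smul]

theorem kappa_surjective (hG : OpenMu p H) : Function.Surjective (kappa hG) := by
  intro a
  haveI : NeZero p := ⟨(Fact.out : p.Prime).ne_zero⟩
  obtain ⟨E, hE, hEa⟩ := base_level hG a
  obtain ⟨x, hx0, hx⟩ := hilbert90_qbar (r := H.subtype) (u := fun h => zeta p ^ (base hG a h).val)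
    (fun _ => pow_ne_zero _ zeta_ne_zero) (fun u v => by
      show _ = _ * (u : GQ) _
      rw [map_pow, hG.fix_zeta u.2, base_mul hG, pow_zeta_add])
    ⟨E, hE, fun u s hs => by
      show zeta p ^ (base hG a (u * s)).val = _
      rw [base_mul hG, hEa s hs, add_zero]⟩
  have hy : x ^ p ∈ Fld H := mem_fld.mpr fun g hg => by
    rw [map_pow, show g x = _ from hx ⟨g, hg⟩, mul_pow, ← pow_mul, mul_comm (ZMod.val _) p, pow_mul,
      zeta_spec.pow_eq_one, one_pow, one_mul]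
  refine ⟨Additive.ofMul (Units.mk0 ⟨x ^ p, hy⟩ fun e => pow_ne_zero p hx0 (congrArg Subtype.val e)),
    base_injective hG (IsKum.unique hx0 (kappa_isKum hG _ (r := x) rfl) hx)⟩

end FLTAgent.PT
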