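import Fermat.Agent.PT.Global.Hasse

/-!
The lines of the local classes of degree two, and their restriction to a cyclic extension.
-/

set_option autoImplicit false
set_option linter.unusedSectionVars false
set_option linter.style.haveILetI false
set_option maxHeartbeats 400000

noncomputable section

open CategoryTheory groupCohomology

namespace FLTAgent.PT

variable {p : ℕ} [Fact p.Prime] {H : Subgroup GQ} {q : Nat.Primes}

/-- the projection of classes of degree two onto an orbit -/
def proj2 (O : Orb q H) : lH2 q (ind H (mu p)) →ₗ[ZMod p] lH2 q (ind H (mu p)) :=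
  h2push (loc q) (A := Rep.res (loc q) (ind H (mu p))) (B := Rep.res (loc q) (ind H (mu p)))
    (projO O) (projO_eqv O)

theorem coord_proj2 (hG : OpenMu p H) (O O' : Orb q H) (c : lH2 q (ind H (mu p))) :
    coord hG q (proj2 O c) O' = indO (p := p) O O'.out * coord hG q c O' := by
  show lineEquiv hG q O'.out (ev2 q O'.out (proj2 O c)) = _ * lineEquiv hG q O'.out (ev2 q O'.out c)
  rw [← smul_eq_mul, ← map_smul]
  congr 1
  obtain ⟨z, rfl⟩ := Submodule.mkQ_surjective _ c
  exact congrArg (h2mk _ _) (Subtype.ext (funext fun g => rfl))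

/-- the class at a single orbit -/
def e2 (hG : OpenMu p H) (O : Orb q H) : lH2 q (ind H (mu p)) :=
  (LinearEquiv.ofBijective _ (coord_bijective hG q)).symm fun O' => indO (p := p) O O'.out

theorem coord_e2 (hG : OpenMu p H) (O O' : Orb q H) :
    coord hG q (e2 hG O) O' = indO (p := p) O O'.out :=
  congrFun ((LinearEquiv.ofBijective _ (coord_bijective hG q)).apply_symm_apply
    fun O' => indO (p := p) O O'.out) O'

theorem proj2_eq_smul (hG : OpenMu p H) (O : Orb q H) (c : lH2 q (ind H (mu p))) :
    proj2 O c = coord hG q c O • e2 hG O := (coord_bijective hG q).1 (funext fun O' => by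
  rw [coord_proj2, map_smul, Pi.smul_apply, coord_e2, smul_eq_mul, mul_comm]
  rcases eq_or_ne O' O with rfl | h
  · rfl
  · rw [indO_neg (by rw [show orb q O'.out = O' from O'.out_eq']; exact h), mul_zero, mul_zero])

theorem eq_sum_e2 (hG : OpenMu p H) [Fintype (Orb q H)] (c : lH2 q (ind H (mu p))) :
    c = ∑ O, coord hG q c O • e2 hG O := (coord_bijective hG q).1 (funext fun O' => by
  classical
  rw [map_sum, Finset.sum_apply, Finset.sum_eq_single O']
  · rw [map_smul, Pi.smul_apply, coord_e2, indO_pos (show orb q O'.out = O' from O'.out_eq'),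
      smul_eq_mul, mul_one]
  · intro O _ h
    rw [map_smul, Pi.smul_apply, coord_e2,
      indO_neg (by rw [show orb q O'.out = O' from O'.out_eq']; exact h.symm), smul_zero]
  · exact fun h => absurd (Finset.mem_univ _) h)

theorem orb_prC (hG : OpenMu p H) (a : G1 p H) {x : GQ ⧸ kerH hG a} {O' : Orb q (kerH hG a)}
    (h : orb q x = O') : orb q (prC hG a x) = orb q (prC hG a O'.out) := by
  obtain ⟨g, hg⟩ := orb_eq_iff.1 (h.trans O'.out_eq'.symm)
  rw [← hg, prC_smul, orb_smul]

/-- the local classes die in a cyclic extension where they are not at split places -/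
theorem pullC_local_eq_zero (hG : OpenMu p H) {a : G1 p H} (ha : a ≠ 0)
    (c : lH2 q (ind H (mu p)))
    (hc : ∀ O : Orb q H, evP hG ⟨q, O⟩ a = 0 → coord hG q c O = 0) :
    h2push (loc q) (A := Rep.res (loc q) (ind H (mu p)))
      (B := Rep.res (loc q) (ind (kerH hG a) (mu p))) (pullC p (kerH_le hG a))
      (fun g => pullC_eqv (kerH_le hG a) (loc q g)) c = 0 := by
  classical
  set G' := openMu_kerH hG a
  set P := h2push (loc q) (A := Rep.res (loc q) (ind H (mu p)))
      (B := Rep.res (loc q) (ind (kerH hG a) (mu p))) (pullC p (kerH_le hG a))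
      (fun g => pullC_eqv (kerH_le hG a) (loc q g)) with hP
  refine (coord_bijective G' q).1 ?_
  rw [map_zero]
  funext O'
  set O := orb q (prC hG a O'.out)
  have key1 : proj2 O' (P c) = proj2 O' (P (proj2 O c)) := by
    obtain ⟨z, rfl⟩ := Submodule.mkQ_surjective _ c
    refine congrArg (h2mk _ _) (Subtype.ext (funext fun g => funext fun x => ?_))
    show indO (p := p) O' x * (z.1 g (prC hG a x) : ZMod p) =
      indO O' x * (indO O (prC hG a x) * (z.1 g (prC hG a x) : ZMod p))
    by_cases h : orb q x = O'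
    · rw [indO_pos (O := O) (orb_prC hG a h), one_mul]
    · rw [indO_neg h, zero_mul, zero_mul]
  have hcoord : coord G' q (P c) O' = coord G' q (P (proj2 O c)) O' := by
    have e := congrArg (fun y => coord G' q y O') key1
    simpa [coord_proj2, indO_pos (show orb q O'.out = O' from O'.out_eq')] using e
  by_cases h0 : evP hG ⟨q, O⟩ a = 0
  · rw [hcoord, proj2_eq_smul hG, hc O h0, zero_smul, map_zero, map_zero]
  -- a single orbit above
  have hfib : ∀ x : GQ ⧸ kerH hG a, orb q (prC hG a x) = O → orb q x = O' := by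
    intro x hx
    haveI := (Nat.card_eq_one_iff_unique.1 ((card_fibre hG ha ⟨q, O⟩).2 h0)).1
    exact congrArg Subtype.val (Subsingleton.elim
      (α := {O'' : Orb q (kerH hG a) // belowP hG a ⟨q, O''⟩ = ⟨q, O⟩})
      ⟨orb q x, by rw [belowP_mk, hx]⟩ ⟨O', rfl⟩)
  have hind : ∀ x : GQ ⧸ kerH hG a,
      (indO O (prC hG a x) : ZMod p) = indO O' x := fun x => by
    by_cases h : orb q x = O'
    · rw [indO_pos (O := O) (orb_prC hG a h), indO_pos h]
    · rw [indO_neg (O := O) fun h' => h (hfib x h'), indO_neg h]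
  haveI := G'.finite
  set Tr := h2push (loc q) (A := Rep.res (loc q) (ind (kerH hG a) (mu p)))
      (B := Rep.res (loc q) (ind H (mu p))) (traceC p (kerH_le hG a))
      (fun g => traceC_eqv (kerH_le hG a) (loc q g)) with hTr
  have hTP : ∀ d, Tr (P d) = 0 := by
    intro d
    obtain ⟨z, rfl⟩ := Submodule.mkQ_surjective _ d
    obtain ⟨h0, hh0⟩ := exists_base_eq_one hG ha
    haveI : H.FiniteIndex := @Subgroup.finiteIndex_of_finite_quotient _ _ _ hG.finite
    have hrel : (kerH hG a).relIndex H = p := by
      have h1 := Subgroup.relIndex_mul_index (kerH_le hG a)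
      rw [index_kerH hh0] at h1
      exact Nat.eq_of_mul_eq_mul_right (Nat.pos_of_ne_zero Subgroup.FiniteIndex.index_ne_zero) h1
    refine (congrArg (h2mk _ _) (Subtype.ext (funext fun g => ?_))).trans (map_zero (h2mk _ _))
    show traceC p (kerH_le hG a) (pullC p (kerH_le hG a) (z.1 g)) = 0
    rw [traceC_pullC, hrel, ZMod.natCast_self, zero_smul]
  have hTproj : ∀ d, proj2 O (Tr d) = Tr (proj2 O' d) := by
    intro d
    obtain ⟨z, rfl⟩ := Submodule.mkQ_surjective _ d
    refine congrArg (h2mk _ _) (Subtype.ext (funext fun g => funext fun x => ?_))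
    show indO (p := p) O x * ∑ y ∈ fib (kerH_le hG a) x, (z.1 g y : ZMod p) =
      ∑ y ∈ fib (kerH_le hG a) x, indO (p := p) O' y * (z.1 g y : ZMod p)
    rw [Finset.mul_sum]
    refine Finset.sum_congr rfl fun y hy => ?_
    rw [← hind, show prC hG a y = x from mem_fib.1 hy]
  have hsurj : Function.Surjective Tr := by
    refine lH2_surjective q G'.adm hG.adm (traceC p (kerH_le hG a))
      (fun g m => traceC_eqv (kerH_le hG a) g m) fun f => ?_
    have hsec : ∀ x : GQ ⧸ H, cosetMap (kerH_le hG a) ((x.out : GQ) : GQ ⧸ kerH hG a) = x :=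
      fun x => x.out_eq'
    refine ⟨fun y => if y = (((cosetMap (kerH_le hG a) y).out : GQ) : GQ ⧸ kerH hG a) then
      (f (cosetMap (kerH_le hG a) y) : ZMod p) else (0 : ZMod p), funext fun x => ?_⟩
    show ∑ y ∈ fib (kerH_le hG a) x,
      (if y = (((cosetMap (kerH_le hG a) y).out : GQ) : GQ ⧸ kerH hG a) then
        (f (cosetMap (kerH_le hG a) y) : ZMod p) else 0) = (f x : ZMod p)
    rw [Finset.sum_eq_single ((x.out : GQ) : GQ ⧸ kerH hG a)]
    · rw [if_pos (by rw [hsec]), hsec]
    · intro y hy hne
      rw [mem_fib.1 hy, if_neg hne]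
    · exact fun h => absurd (mem_fib.2 (hsec x)) h
  obtain ⟨y, hy⟩ := hsurj (e2 hG O)
  have hne : Tr (e2 G' O') ≠ 0 := by
    intro h
    have e1 : proj2 O (Tr y) = 0 := by
      rw [hTproj, proj2_eq_smul G', map_smul, h, smul_zero]
    rw [hy] at e1
    have e3 := congrArg (fun d => coord hG q d O) e1
    simp [coord_proj2, coord_e2, indO_pos (show orb q O.out = O from O.out_eq')] at e3
  have e4 := hTproj (P c)
  rw [hTP, map_zero, proj2_eq_smul G', map_smul] at e4
  exact (smul_eq_zero.1 e4.symm).resolve_right hne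

end FLTAgent.PT
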