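import Fermat.Agent.PT.Global.PlaceVal
import Fermat.Agent.Chebotarev.Density

/-!
The unramified classes at an orbit form a line paired nontrivially with the ramified ones; classes
at the places of Frobenius elements.
-/

set_option autoImplicit false
set_option linter.unusedSectionVars false
set_option linter.style.haveILetI false

noncomputable section

open CategoryTheory groupCohomology
open scoped Pointwise

namespace FLTAgent.PT

variable {p : ℕ} [Fact p.Prime] {H : Subgroup GQ} {q : Nat.Primes}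

theorem ev1_eq_zero_smul (hG : OpenMu p H) {a : lH1 q (ind H (mu p))} {x : GQ ⧸ H} (g : Gam q)
    (h : ev1 hG q x a = 0) : ev1 hG q (loc q g • x) a = 0 := by
  obtain ⟨z, rfl⟩ := Submodule.mkQ_surjective _ a
  funext γ
  have hmem : g⁻¹ * γ.1 * g ∈ stq q x := by
    refine MulAction.mem_stabilizer_iff.2 ?_
    rw [map_mul, map_mul, map_inv, mul_smul, mul_smul, smul_stq γ, inv_smul_smul]
  have h1 : (z.1 (g⁻¹ * γ.1 * g) x : ZMod p) = 0 := congrFun h ⟨_, hmem⟩
  have hc := (mem_cocycles₁_iff _).1 z.2.1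
  have e1 := hc g (g⁻¹ * γ.1 * g)
  rw [show g * (g⁻¹ * γ.1 * g) = γ.1 * g by group, hc γ.1 g] at e1
  have e : ((ind H (mu p)).ρ (loc q γ.1) (z.1 g) (loc q g • x) : ZMod p) +
      (z.1 γ.1 (loc q g • x) : ZMod p) =
      ((ind H (mu p)).ρ (loc q g) (z.1 (g⁻¹ * γ.1 * g)) (loc q g • x) : ZMod p) +
        (z.1 g (loc q g • x) : ZMod p) := congrFun e1 (loc q g • x)
  rw [rho_perm, rho_perm, inv_smul_eq_iff.2 (smul_stq γ).symm, inv_smul_smul, h1, mul_zero,
    omega_eq_one_of_fix hG (smul_stq γ), Units.val_one, one_mul, zero_add,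
    add_eq_left] at e
  show (z.1 γ.1 (loc q g • x) : ZMod p) = 0
  exact e

theorem ev1_eq_zero_of_out (hG : OpenMu p H) {a : lH1 q (ind H (mu p))} {x : GQ ⧸ H}
    (h : ev1 hG q (orb q x).out a = 0) : ev1 hG q x a = 0 := by
  obtain ⟨g, hg⟩ := orb_eq_iff.1 (orb q x).out_eq'.symm
  rw [← hg]
  exact ev1_eq_zero_smul hG g h

/-- the unramified classes are isotropic -/
theorem symq_unr_eq_zero (hG : OpenMu p H) (hu : UnrFld q H) {a b : lH1 q (ind H (mu p))}
    (ha : a ∈ unr1 q (ind H (mu p))) (hb : b ∈ unr1 q (ind H (mu p))) : symq hG q a b = 0 := by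
  obtain ⟨z, rfl⟩ := Submodule.mkQ_surjective _ a
  obtain ⟨w, rfl⟩ := Submodule.mkQ_surjective _ b
  have hz := (mem_unr1_iff (hu.isUnrAt hG) z).1 ha
  have hw := (mem_unr1_iff (hu.isUnrAt hG) w).1 hb
  have inv : ∀ (v : Z1 (loc q) (Rep.res (loc q) (ind H (mu p)))),
      (∀ s ∈ inert q, v.1 s = 0) → ∀ g s, s ∈ inert q → v.1 (g * s) = v.1 g := by
    intro v hv g s hs
    rw [(mem_cocycles₁_iff _).1 v.2.1 g s, hv s hs, map_zero, zero_add]
  obtain ⟨y, hy, -, hd⟩ := exists_unr_trivialisation hG.adm (hu.isUnrAt hG)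
    ⟨cup11 (phi p H) z.1 w.1, cup11_mem (loc q) (φ := phi p H)
      (A := Rep.res (loc q) (ind H (mu p))) (B := Rep.res (loc q) (ind H (mu p)))
      (C := Rep.res (loc q) (ind H (mu p)))
      (fun g => phi_eqv hG (loc q g)) (hG.adm.res _) z w⟩ fun g g' s s' hs hs' => by
    show phi p H (z.1 (g * s)) ((ind H (mu p)).ρ (loc q (g * s)) (w.1 (g' * s'))) =
      phi p H (z.1 g) ((ind H (mu p)).ρ (loc q g) (w.1 g'))
    rw [inv z hz g s hs, inv w hw g' s' hs', map_mul, map_mul, hu.isUnrAt hG s hs, mul_one]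
  exact (continuousH2π_eq_zero_iff _ _ _).2 ((mem_levelCoboundaries₂_iff _ _ _).2 ⟨y, hy, hd⟩)

theorem proj1_mem_unr1 {a : lH1 q (ind H (mu p))} (hG : OpenMu p H) (hu : UnrFld q H)
    (ha : a ∈ unr1 q (ind H (mu p))) (O : Orb q H) : proj1 O a ∈ unr1 q (ind H (mu p)) := by
  obtain ⟨z, rfl⟩ := Submodule.mkQ_surjective _ a
  have hz := (mem_unr1_iff (hu.isUnrAt hG) z).1 ha
  change h1mk _ _ _ ∈ unr1 q (ind H (mu p))
  rw [mem_unr1_iff (hu.isUnrAt hG)]
  intro s hs
  show projO O (z.1 s) = 0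
  rw [hz s hs, map_zero]

theorem coord_symq_proj (hG : OpenMu p H) (O : Orb q H) (a b : lH1 q (ind H (mu p))) :
    coord hG q (symq hG q (proj1 O a) (proj1 O b)) O = coord hG q (symq hG q a b) O := by
  have e1 := coord_symq_left hG O (a := proj1 O a - a)
    (by rw [map_sub, ev1_proj1_self, sub_self]) (proj1 O b)
  have e2 := coord_symq_right hG O a (b := proj1 O b - b)
    (by rw [map_sub, ev1_proj1_self, sub_self])
  simp only [map_sub, LinearMap.sub_apply, Pi.sub_apply, sub_eq_zero] at e1 e2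
  rw [e1, e2]

theorem coord_unr_eq_zero (hG : OpenMu p H) (hu : UnrFld q H) {O : Orb q H}
    {a b : lH1 q (ind H (mu p))} (ha : UnrO q O a) (hb : UnrO q O b) :
    coord hG q (symq hG q a b) O = 0 := by
  rw [← coord_symq_proj, symq_unr_eq_zero hG hu ha hb, map_zero]
  rfl

theorem unrO_proj1 {O : Orb q H} {a : lH1 q (ind H (mu p))} :
    UnrO q O (proj1 O a) ↔ UnrO q O a := by
  have e : proj1 O (proj1 O a) = proj1 O a := by
    obtain ⟨z, rfl⟩ := Submodule.mkQ_surjective _ a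
    refine congrArg (h1mk _ _) (Subtype.ext (funext fun g => funext fun x => ?_))
    show indO (p := p) O x * (indO O x * (z.1 g x : ZMod p)) = indO O x * (z.1 g x : ZMod p)
    rcases eq_or_ne (orb q x) O with h | h
    · rw [indO_pos h, one_mul, one_mul]
    · rw [indO_neg h, zero_mul, zero_mul]
  rw [UnrO, UnrO, e]

/-- a ramified class pairs nontrivially with an unramified one -/
theorem exists_unr_pairing (hG : OpenMu p H) (hu : UnrFld q H) (hq : (q : ℕ) ≠ p) {O : Orb q H}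
    {b : lH1 q (ind H (mu p))} (hb : ¬UnrO q O b) :
    ∃ u ∈ unr1 q (ind H (mu p)), coord hG q (symq hG q b u) O ≠ 0 := by
  haveI := hG.finite
  obtain ⟨y, hy, hy0⟩ : ∃ y ∈ unr1 q (dual' (ind H (mu p))),
      pair11 q hG.adm (proj1 O b) y ≠ 0 := by
    by_contra! h
    exact hb ((unr1_orthogonal q hq hG.adm (hu.isUnrAt hG) _).2 h)
  set u := h1push (loc q) (A := Rep.res (loc q) (dual' (ind H (mu p))))
    (B := Rep.res (loc q) (ind H (mu p))) (dualPerm p H) (fun g => dualPerm_eqv hG (loc q g)) y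
    with hudef
  refine ⟨u, ?_, fun h0 => hy0 ?_⟩
  · obtain ⟨z, hz, rfl⟩ := hy
    change h1mk _ _ _ ∈ unr1 q (ind H (mu p))
    rw [mem_unr1_iff (hu.isUnrAt hG)]
    intro s hs
    show dualPerm p H (z.1 s) = 0
    rw [hz s hs, map_zero]
  · rw [pair11_eq_symq hG q, ← hudef]
    refine (congrArg _ ((coord_bijective hG q).1 ?_)).trans (map_zero _)
    rw [map_zero]
    funext O'
    rcases eq_or_ne O' O with rfl | hO'
    · have e := coord_symq_left hG O' (a := proj1 O' b - b)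
        (by rw [map_sub, ev1_proj1_self, sub_self]) u
      simp only [map_sub, LinearMap.sub_apply, Pi.sub_apply, sub_eq_zero] at e
      rw [e, h0]
      rfl
    · exact coord_symq_left hG O' (ev1_proj1_ne hG hO' b) u

theorem finrank_lH0_perm (hG : OpenMu p H) (q : Nat.Primes) :
    Module.finrank (ZMod p) (lH0 q (ind H (mu p))) = orbitCount q H := by
  haveI := hG.finite
  haveI : Fintype (Orb q H) := Fintype.ofFinite _
  let F : lH0 q (ind H (mu p)) →ₗ[ZMod p] (Orb q H → ZMod p) :=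
    { toFun := fun f O => (f.1 O.out : ZMod p)
      map_add' := fun _ _ => rfl
      map_smul' := fun _ _ => rfl }
  have hf : ∀ (f : lH0 q (ind H (mu p))) (g : Gam q) (x : GQ ⧸ H),
      (f.1 (loc q g • x) : ZMod p) = (ExtCitation.cycloChar p (loc q g) : ZMod p) * f.1 x := by
    intro f g x
    have e : ((ind H (mu p)).ρ (loc q g) f.1 (loc q g • x) : ZMod p) = f.1 (loc q g • x) :=
      congrFun (f.2 g) (loc q g • x)
    rw [rho_perm, inv_smul_smul] at e
    exact e.symm
  have hbij : Function.Bijective F := by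
    refine ⟨fun f f' h => Subtype.ext (funext fun x => ?_), fun c => ?_⟩
    · obtain ⟨g, hg⟩ := orb_eq_iff.1 (orb q x).out_eq'.symm
      have e : (f.1 (orb q x).out : ZMod p) = f'.1 (orb q x).out := congrFun h (orb q x)
      show (f.1 x : ZMod p) = f'.1 x
      rw [← hg, hf, hf, e]
    · refine ⟨⟨fun x => (((omegaC p (orb q x).out)⁻¹ * omegaC p x : (ZMod p)ˣ) : ZMod p) *
        c (orb q x), fun g => funext fun x => ?_⟩, funext fun O => ?_⟩
      · refine (rho_perm (loc q g) _ x).trans ?_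
        rw [← map_inv, orb_smul, ← mul_assoc, ← Units.val_mul,
          omegaC_smul hG (loc q g⁻¹), map_inv, map_inv, mul_left_comm,
          mul_inv_cancel_left]
      · show (((omegaC p (orb q O.out).out)⁻¹ * omegaC p O.out : (ZMod p)ˣ) : ZMod p) *
          c (orb q O.out) = c O
        rw [show orb q O.out = O from O.out_eq', inv_mul_cancel, Units.val_one, one_mul]
  rw [(LinearEquiv.ofBijective F hbij).finrank_eq, Module.finrank_pi, orbitCount,
    Nat.card_eq_fintype_card]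

variable [NumberField ↥(Fld H)]

theorem exists_not_unrO (hG : OpenMu p H) (hu : UnrFld q H) (hq : (q : ℕ) ≠ p) (O : Orb q H) :
    ∃ b : lH1 q (ind H (mu p)), ¬UnrO q O b := by
  obtain ⟨π, hπ⟩ := exists_ord_one (primeAt q O.out)
  refine ⟨res1 q _ (kappa hG (Additive.ofMul π)), fun h => ?_⟩
  have hd := (unrO_kappa_iff hG hu hq O π).1 h
  rw [ordAt, hπ] at hd
  exact (Fact.out : p.Prime).one_lt.ne' (Nat.dvd_one.1 (Int.natCast_dvd_natCast.1 hd))

/-- the unramified classes at an orbit form a line -/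
theorem exists_smul_eq_proj1 (hG : OpenMu p H) (hu : UnrFld q H) (hq : (q : ℕ) ≠ p) {O : Orb q H}
    {a u : lH1 q (ind H (mu p))} (ha : UnrO q O a) (huu : UnrO q O u) (hu0 : ev1 hG q O.out u ≠ 0) :
    ∃ c : ZMod p, ev1 hG q O.out a = c • ev1 hG q O.out u := by
  classical
  haveI := hG.finite
  haveI : Fintype (Orb q H) := Fintype.ofFinite _
  haveI := finite_lH1 q hG.adm
  have hex : ∀ O' : Orb q H, ∃ w : lH1 q (ind H (mu p)), UnrO q O' w ∧ ev1 hG q O'.out w ≠ 0 := by
    intro O'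
    obtain ⟨b, hb⟩ := exists_not_unrO hG hu hq O'
    obtain ⟨w, hw, hc⟩ := exists_unr_pairing hG hu hq hb
    exact ⟨w, proj1_mem_unr1 hG hu hw O', fun h => hc (coord_symq_right hG O' b h)⟩
  choose w hw hw0 using hex
  let v : Orb q H → unr1 q (ind H (mu p)) := fun O' =>
    if h : O' = O then ⟨proj1 O u, huu⟩ else ⟨proj1 O' (w O'), hw O'⟩
  have hvne : ∀ O', ev1 hG q O'.out (v O').1 ≠ 0 := by
    intro O'
    by_cases h : O' = O
    · subst h
      simp only [v, dif_pos]
      rw [ev1_proj1_self]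
      exact hu0
    · simp only [v, dif_neg h]
      rw [ev1_proj1_self]
      exact hw0 O'
  have hvz : ∀ O' O'', O'' ≠ O' → ev1 hG q O''.out (v O').1 = 0 := by
    intro O' O'' h
    by_cases h' : O' = O
    · subst h'
      simp only [v, dif_pos]
      exact ev1_proj1_ne hG h u
    · simp only [v, dif_neg h']
      exact ev1_proj1_ne hG h _
  have hev : ∀ (c : Orb q H → ZMod p) (O'' : Orb q H),
      ev1 hG q O''.out (∑ O', c O' • v O' : unr1 q (ind H (mu p))).1 =
        c O'' • ev1 hG q O''.out (v O'').1 := by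
    intro c O''
    rw [Submodule.coe_sum, map_sum, Finset.sum_eq_single O'']
    · rw [Submodule.coe_smul, map_smul]
    · intro O' _ h
      rw [Submodule.coe_smul, map_smul, hvz O' O'' h.symm, smul_zero]
    · exact fun h => absurd (Finset.mem_univ _) h
  have hli : LinearIndependent (ZMod p) v := by
    rw [Fintype.linearIndependent_iff]
    intro c hc O''
    have e := hev c O''
    rw [hc, Submodule.coe_zero, map_zero] at e
    exact (smul_eq_zero.1 e.symm).resolve_right (hvne O'')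
  have hspan : Submodule.span (ZMod p) (Set.range v) = ⊤ :=
    hli.span_eq_top_of_card_eq_finrank' (by
      rw [finrank_unr1 q hG.adm, finrank_lH0_perm hG q, orbitCount, Nat.card_eq_fintype_card])
  obtain ⟨c, hc⟩ := (Submodule.mem_span_range_iff_exists_fun (ZMod p)).1
    (hspan ▸ Submodule.mem_top : (⟨proj1 O a, ha⟩ : unr1 q (ind H (mu p))) ∈
      Submodule.span (ZMod p) (Set.range v))
  refine ⟨c O, ?_⟩
  have e := hev c O
  rw [hc] at e
  simp only [v, dif_pos, ev1_proj1_self] at e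
  exact e

/-- an unramified class pairs nontrivially with every ramified one -/
theorem coord_ram_unr_ne_zero (hG : OpenMu p H) (hu : UnrFld q H) (hq : (q : ℕ) ≠ p) {O : Orb q H}
    {a b : lH1 q (ind H (mu p))} (ha : UnrO q O a) (ha0 : ev1 hG q O.out a ≠ 0)
    (hb : ¬UnrO q O b) : coord hG q (symq hG q b a) O ≠ 0 := by
  obtain ⟨w, hw, hc⟩ := exists_unr_pairing hG hu hq hb
  obtain ⟨c, hcw⟩ := exists_smul_eq_proj1 hG hu hq (proj1_mem_unr1 hG hu hw O) ha ha0
  intro h0
  apply hc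
  have e := coord_symq_right hG O b (b := w - c • a) (by rw [map_sub, map_smul, hcw, sub_self])
  simp only [map_sub, map_smul, Pi.sub_apply, Pi.smul_apply, h0, smul_zero, sub_zero] at e
  exact e

omit [NumberField ↥(Fld H)] in
/-- a place whose stabiliser contains a given element at a finite level -/
theorem exists_frob_place (hG : OpenMu p H) (E : IntermediateField ℚ (AlgebraicClosure ℚ))
    [FiniteDimensional ℚ E] (hE : E.fixingSubgroup ≤ H) (S : Finset Nat.Primes) {h : GQ}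
    (hh : h ∈ H) :
    ∃ q : Nat.Primes, q ∉ S ∧ ∃ (g : GQ) (γ : stq q (g : GQ ⧸ H)),
      ∀ a : G1 p H, (∀ s : H, (s : GQ) ∈ E.fixingSubgroup → base hG a s = 0) →
        ev1 hG q (g : GQ ⧸ H) (res1 q _ a) γ =
          (ExtCitation.cycloChar p g : ZMod p) * base hG a ⟨h, hh⟩ := by
  obtain ⟨ℓ, A, τ, k, hℓ, hS, hA, hF, hk⟩ :=
    Chebotarev.exists_frobenius_pow E h (S.image fun q : Nat.Primes => (q : ℕ))
  refine ⟨⟨ℓ, hℓ⟩, fun hq => hS (Finset.mem_image.2 ⟨_, hq, rfl⟩), ?_⟩
  set q : Nat.Primes := ⟨ℓ, hℓ⟩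
  obtain ⟨σ, hσ⟩ := exists_conj hℓ hA (lies_plc q)
  have hd : σ * τ ^ k * σ⁻¹ ∈ (plc q).decompositionSubgroup ℚ := by
    have hτ : τ ^ k ∈ A.decompositionSubgroup ℚ :=
      pow_mem hF.mem_decompositionSubgroup k
    have hsA : σ • A = plc q := SetLike.ext fun x => by
      rw [ValuationSubring.mem_smul_pointwise_iff_exists]
      exact ⟨fun ⟨y, hy, hyx⟩ => hyx ▸ (hσ y).1 hy, fun hx => ⟨σ⁻¹ x, (hσ _).2 (by
        rwa [show σ (σ⁻¹ x) = x from σ.apply_symm_apply x]), σ.apply_symm_apply x⟩⟩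
    show (σ * τ ^ k * σ⁻¹) • plc q = plc q
    rw [← hsA, mul_smul, inv_smul_smul, mul_smul, show τ ^ k • A = A from hτ]
  rw [← range_loc q] at hd
  obtain ⟨γ, hγ⟩ := hd
  have hE' : h⁻¹ * τ ^ k ∈ E.fixingSubgroup := by
    rw [IntermediateField.mem_fixingSubgroup_iff]
    intro x hx
    rw [AlgEquiv.mul_apply, hk x hx]
    exact h.symm_apply_apply x
  have hτH : τ ^ k ∈ H := by simpa using mul_mem hh (hE hE')
  have hmem : γ ∈ stq q (σ : GQ ⧸ H) := by
    refine MulAction.mem_stabilizer_iff.2 ?_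
    rw [hγ, MulAction.Quotient.smul_mk, QuotientGroup.eq, smul_eq_mul]
    simpa [mul_assoc] using inv_mem hτH
  refine ⟨σ, ⟨γ, hmem⟩, fun a ha => ?_⟩
  rw [ev1_res1]
  congr 1
  have e : (⟨σ⁻¹ * loc q γ * σ, conj_mem rfl (smul_stq ⟨γ, hmem⟩)⟩ : H) =
      ⟨h, hh⟩ * ⟨h⁻¹ * τ ^ k, hE hE'⟩ := Subtype.ext (by
    show σ⁻¹ * loc q γ * σ = h * (h⁻¹ * τ ^ k)
    rw [hγ]; group)
  rw [e, base_mul, ha (⟨_, hE hE'⟩ : H) hE', add_zero]

end FLTAgent.PT
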