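import Fermat.Agent.PT.Global.First

/-!
The first inequality: the norms from the extension of a class, among the classes of the `T`-units.
-/

set_option autoImplicit false
set_option linter.unusedSectionVars false
set_option linter.style.haveILetI false

noncomputable section

open CategoryTheory groupCohomology IntermediateField NumberField NumberField.InfinitePlace

namespace FLTAgent.PT

variable {p : ℕ} [Fact p.Prime] {H : Subgroup GQ} [NumberField ↥(Fld H)]

theorem rank_fld (hp2 : p ≠ 2) (hG : OpenMu p H) :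
    Units.rank (Fld H) + 1 = H.index / 2 ∧ 2 * (H.index / 2) = H.index := by
  have h1 := nrComplex_eq hp2 hG
  have h2 := orbInf_eq hG.opn
  have h3 : 0 < Fintype.card (InfinitePlace (Fld H)) := Fintype.card_pos
  have h4 := card_add_two_mul_card_eq_rank (Fld H)
  have h5 : H.index = Module.finrank ℚ (Fld H) := card_quotient hG.opn
  have h6 : nrRealPlaces (Fld H) = 0 :=
    IsPrimitiveRoot.nrRealPlaces_eq_zero_of_two_lt (by have := (Fact.out : p.Prime).two_le; omega)
      (isPrimitiveRoot_zeta_fld hG)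
  unfold Units.rank
  omega

theorem exp_bound {q dN dK r r' n : ℕ} (hq : 1 < q) (h1 : r' * q = q ^ n)
    (h2 : q ^ dN * r = q ^ dK) (h3 : r ≤ r') : dK + 1 ≤ dN + n := by
  refine (Nat.pow_le_pow_iff_right hq).1 ?_
  rw [pow_succ, pow_add, ← h1, ← h2, mul_assoc]
  exact Nat.mul_le_mul le_rfl (Nat.mul_le_mul_right _ h3)

open Classical in
set_option maxHeartbeats 400000 in
/-- the first inequality -/
theorem exists_normClasses (hp2 : p ≠ 2) (hG : OpenMu p H) {a : G1 p H} (ha : a ≠ 0)
    {T : Finset (Pl H)} (hT : Adm hG a T) :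
    ∃ N : Submodule (ZMod p) (G1 p H), N ≤ KT hG T ∧ (∀ b ∈ N, sym hG b a = 0) ∧
      Module.finrank (ZMod p) (KT hG T) + 1 ≤
        Module.finrank (ZMod p) N + (T.filter fun v => evP hG v a ≠ 0).card := by
  obtain ⟨h0, hh0⟩ := exists_base_eq_one hG ha
  set G' := openMu_kerH hG a
  haveI := G'.opn.numberField
  have hp := (Fact.out : p.Prime)
  haveI hfinA : Module.Finite ℤ (TUL hG a T) := (finite_finrank_TU _).1
  haveI := (finite_finrank_TU (prs hG T)).1
  set σ := sgmA hG a h0 T
  obtain ⟨hh, hpos⟩ := herbrand_eq hp σ (sgmA_pow_p hh0 T)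
  rw [relIndex_norm_ker_eq_one hh0 hT, one_pow, one_mul, finrank_fix hh0 T,
    (finite_finrank_TU (prs hG T)).2, (finite_finrank_TU _).2] at hh
  set Nm := ∑ i ∈ Finset.range p, σ ^ i
  set r0 := Nm.toAddMonoidHom.range.relIndex (1 - σ).toAddMonoidHom.ker with hr0
  set ns := (T.filter fun v => evP hG v a ≠ 0).card
  obtain ⟨hrF, hevF⟩ := rank_fld hp2 hG
  obtain ⟨hrL, -⟩ := rank_fld hp2 G'
  rw [index_kerH hh0, Nat.mul_div_assoc p ⟨H.index / 2, hevF.symm⟩, ← hrF] at hrL
  have hcard : (aboveT hG a T).card + (p - 1) * ns = p * T.card := by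
    convert card_aboveT hG ha T
  rw [show (prs hG T).card = T.card from Finset.card_map _,
    show (prs G' (aboveT hG a T)).card = (aboveT hG a T).card from Finset.card_map _] at hh
  -- `r0 * p = p ^ ns`
  have hkey : r0 * p = p ^ ns := by
    refine Nat.pow_left_injective (n := p - 1) (by have := hp.two_le; omega) ?_
    show (r0 * p) ^ (p - 1) = (p ^ ns) ^ (p - 1)
    have hpp : 0 < p ^ (Units.rank ↥(Fld (kerH hG a)) + (aboveT hG a T).card) := pow_pos hp.pos _
    refine Nat.eq_of_mul_eq_mul_right hpp ?_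
    rw [mul_pow, mul_assoc, mul_left_comm, hh, ← pow_mul, ← pow_add, ← pow_add]
    congr 1
    have := hp.one_lt
    rw [mul_add, mul_one] at hrL
    rw [mul_add, mul_comm ns]
    omega
  -- the classes
  let κT : Additive ↥(TU (prs hG T)) →+ G1 p H :=
    (kappa hG).comp (MonoidHom.toAdditive (TU (prs hG T)).subtype)
  set S : AddSubgroup (Additive ↥(TU (prs hG T))) := Nm.toAddMonoidHom.range.comap (jF hG a T)
  have hS : S.index = r0 := by rw [AddSubgroup.index_comap, range_jF hh0]
  have hKT : (KT hG T).toAddSubgroup = κT.range := by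
    ext b
    exact ⟨fun ⟨y, hy, e⟩ => ⟨Additive.ofMul ⟨Additive.toMul y, hy⟩, e⟩,
      fun ⟨y, e⟩ => ⟨Additive.ofMul ((Additive.toMul y : ↥(TU (prs hG T))) : (Fld H)ˣ),
        (Additive.toMul y).2, e⟩⟩
  refine ⟨AddSubgroup.toZModSubmodule p (S.map κT), ?_, ?_, ?_⟩
  · rintro b ⟨y, -, rfl⟩
    show κT y ∈ (KT hG T).toAddSubgroup
    rw [hKT]
    exact ⟨y, rfl⟩
  · rintro b ⟨y, ⟨z, hz⟩, rfl⟩
    refine sym_norm_eq_zero hG a hh0 (z := numQ hG a z) (numQ_mem hG a z) ?_
    rw [← numQ_norm]
    exact (congrArg (numQ hG a) hz).symm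
  · haveI := finite_KT hp2 hG T
    set N := AddSubgroup.toZModSubmodule p (S.map κT)
    have hle : S.map κT ≤ κT.range := fun b ⟨y, _, e⟩ => ⟨y, e⟩
    have hNK : N ≤ KT hG T := fun b hb => show b ∈ (KT hG T).toAddSubgroup by
      rw [hKT]; exact hle hb
    haveI : Finite N := Finite.of_injective _ (Submodule.inclusion_injective hNK)
    have hdvd : (S.map κT).relIndex κT.range ∣ r0 := by
      rw [← hS]
      have e : (S.map κT).addSubgroupOf κT.range = S.map κT.rangeRestrict := by
        ext b
        constructor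
        · rintro ⟨y, hy, e⟩
          exact ⟨y, hy, Subtype.ext e⟩
        · rintro ⟨y, hy, rfl⟩
          exact ⟨y, hy, rfl⟩
      rw [AddSubgroup.relIndex, e]
      exact AddSubgroup.index_map_dvd _ κT.rangeRestrict_surjective
    have hmul : Nat.card N * (S.map κT).relIndex κT.range = Nat.card (KT hG T) := by
      have h := AddSubgroup.relIndex_mul_relIndex ⊥ (S.map κT) κT.range bot_le hle
      rw [AddSubgroup.relIndex_bot_left, AddSubgroup.relIndex_bot_left] at h
      rw [show Nat.card (KT hG T) = Nat.card κT.range from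
        congrArg (fun A : AddSubgroup (G1 p H) => Nat.card A) hKT]
      exact h
    rw [Module.natCard_eq_pow_finrank (K := ZMod p) (V := N),
      Module.natCard_eq_pow_finrank (K := ZMod p) (V := KT hG T), Nat.card_zmod] at hmul
    exact exp_bound hp.one_lt hkey hmul (Nat.le_of_dvd hpos hdvd)

end FLTAgent.PT
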