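import Fermat.Agent.PT.Global.Kummer
import Fermat.Agent.Common.InertiaConj

/-!
Orders and valuations at the places of the fixed field; ramification of the Kummer classes.
-/

set_option autoImplicit false
set_option linter.unusedSectionVars false
set_option linter.style.haveILetI false

noncomputable section

open CategoryTheory groupCohomology IntermediateField NumberField IsDedekindDomain

namespace FLTAgent.PT

/-- the algebraic closure of `ℚ` -/
local notation "Qb" => AlgebraicClosure ℚ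

section Density

variable {H : Subgroup GQ}

/-- an element fixed by the stabiliser of a coset has the value of an element of the field -/
theorem exists_valuation_eq_of_fix (hH : IsOpenSub (MonoidHom.id GQ) H) (q : Nat.Primes)
    (x : GQ ⧸ H) {z : Qb} (hz : z ≠ 0) (hfix : ∀ γ : stq q x, loc q γ.1 z = z) :
    ∃ y : (Fld H)ˣ, (plc q).valuation z = (plc q).valuation (emb x (y : Fld H)) := by
  haveI : Fact (q : ℕ).Prime := ⟨q.2⟩
  set ψ := padicEmbedding (q : ℕ)
  set S : Submonoid (PadicAlgCl (q : ℕ)) :=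
    MonoidHom.mrange ((ψ.comp (emb x)).toRingHom : Fld H →* PadicAlgCl (q : ℕ))
  set M := IntermediateField.adjoin ℚ_[(q : ℕ)] (S : Set (PadicAlgCl (q : ℕ)))
  haveI : IsGalois ℚ_[(q : ℕ)] (PadicAlgCl (q : ℕ)) := ⟨⟩
  have h1 : ψ z ∈ M := by
    rw [← InfiniteGalois.fixedField_fixingSubgroup M, IntermediateField.mem_fixedField_iff]
    intro φ hφ
    have hloc : ∀ w : Qb, ψ (loc q (φ : Gam q) w) = φ (ψ w) :=
      padicEmbedding_localGaloisToGlobal (q : ℕ) φ
    have hmem : (φ : Gam q) ∈ stq q x := by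
      refine MulAction.mem_stabilizer_iff.2 ((emb_bijective hH).1 (AlgHom.ext fun y => ?_))
      rw [emb_smul]
      refine ψ.injective ?_
      show ψ (loc q (φ : Gam q) (emb x y)) = ψ (emb x y)
      refine (hloc _).trans ?_
      exact (IntermediateField.mem_fixingSubgroup_iff _ _).mp hφ _
        (IntermediateField.subset_adjoin _ _ ⟨y, rfl⟩)
    rw [← hloc]
    exact congrArg ψ (hfix ⟨_, hmem⟩)
  have h2 : ψ z ∈ Submodule.span ℚ_[(q : ℕ)] (S : Set (PadicAlgCl (q : ℕ))) := by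
    have e : M.toSubalgebra = Algebra.adjoin ℚ_[(q : ℕ)] (S : Set (PadicAlgCl (q : ℕ))) :=
      IntermediateField.adjoin_toSubalgebra_of_isAlgebraic
        (fun w _ => Algebra.IsAlgebraic.isAlgebraic w)
    have h' : ψ z ∈ Subalgebra.toSubmodule M.toSubalgebra := h1
    rw [e, Algebra.adjoin_eq_span, Submonoid.closure_eq] at h'
    exact h'
  have key : ∀ w ∈ Submodule.span ℚ_[(q : ℕ)] (S : Set (PadicAlgCl (q : ℕ))), ∀ ε : ℝ, 0 < ε →
      ∃ y : Fld H, ‖w - ψ (emb x y)‖ < ε := by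
    intro w hw
    induction hw using Submodule.span_induction with
    | mem w hw =>
      obtain ⟨y, rfl⟩ := hw
      exact fun ε hε => ⟨y, lt_of_eq_of_lt (norm_eq_zero.mpr (sub_self _)) hε⟩
    | zero => exact fun ε hε => ⟨0, by simpa using hε⟩
    | add u v _ _ hu hv =>
      intro ε hε
      obtain ⟨a, ha⟩ := hu (ε / 2) (half_pos hε)
      obtain ⟨b, hb⟩ := hv (ε / 2) (half_pos hε)
      refine ⟨a + b, ?_⟩
      rw [map_add, map_add, add_sub_add_comm]
      linarith [norm_add_le (u - ψ (emb x a)) (v - ψ (emb x b))]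
    | smul c u _ hu =>
      intro ε hε
      obtain ⟨a, ha⟩ := hu (ε / (2 * (‖c‖ + 1))) (by positivity)
      obtain ⟨r, hr⟩ := Padic.rat_dense (q : ℕ) c (ε := ε / (2 * (‖ψ (emb x a)‖ + 1)))
        (by positivity)
      refine ⟨(r : Fld H) * a, ?_⟩
      have hra : ψ (emb x ((r : Fld H) * a)) = (r : ℚ_[(q : ℕ)]) • ψ (emb x a) := by
        rw [map_mul, map_mul, map_ratCast, map_ratCast, Algebra.smul_def, map_ratCast]
      rw [hra, show c • u - (r : ℚ_[(q : ℕ)]) • ψ (emb x a) =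
        c • (u - ψ (emb x a)) + (c - (r : ℚ_[(q : ℕ)])) • ψ (emb x a) by rw [smul_sub, sub_smul]; abel]
      refine lt_of_le_of_lt (norm_add_le _ _) ?_
      rw [norm_smul, norm_smul]
      have h3 : ‖c‖ * ‖u - ψ (emb x a)‖ ≤ ε / 2 := by
        calc ‖c‖ * ‖u - ψ (emb x a)‖ ≤ (‖c‖ + 1) * (ε / (2 * (‖c‖ + 1))) :=
              mul_le_mul (by linarith) ha.le (norm_nonneg _) (by positivity)
          _ = ε / 2 := by field_simp
      have h4 : ‖c - (r : ℚ_[(q : ℕ)])‖ * ‖ψ (emb x a)‖ < ε / 2 := by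
        calc ‖c - (r : ℚ_[(q : ℕ)])‖ * ‖ψ (emb x a)‖
              ≤ ‖c - (r : ℚ_[(q : ℕ)])‖ * (‖ψ (emb x a)‖ + 1) := by
              gcongr; linarith
          _ < (ε / (2 * (‖ψ (emb x a)‖ + 1))) * (‖ψ (emb x a)‖ + 1) := by
              gcongr
          _ = ε / 2 := by field_simp
      linarith
  have hz0 : ψ z ≠ 0 := (map_ne_zero ψ).mpr hz
  obtain ⟨y, hy⟩ := key _ h2 ‖ψ z‖ (norm_pos_iff.mpr hz0)
  have hn : ‖ψ (emb x y)‖ = ‖ψ z‖ := by
    by_contra hne
    have e := IsUltrametricDist.norm_add_eq_max_of_norm_ne_norm (x := ψ (emb x y)) (y := -ψ z)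
      (by rwa [norm_neg])
    rw [← sub_eq_add_neg, norm_neg, norm_sub_rev] at e
    exact absurd (e ▸ hy) (not_lt.mpr (le_max_right _ _))
  have hy0 : y ≠ 0 := fun h => hz0 (norm_eq_zero.mp (by rw [← hn, h]; simp))
  refine ⟨Units.mk0 y hy0, ?_⟩
  have hey : emb x y ≠ 0 := (map_ne_zero (emb x)).mpr hy0
  have hA : ∀ a b : Qb, b ≠ 0 → ‖ψ a‖ = ‖ψ b‖ →
      (plc q).valuation a ≤ (plc q).valuation b := by
    intro a b hb hab
    have hb' : ‖ψ b‖ ≠ 0 := norm_ne_zero_iff.mpr ((map_ne_zero ψ).mpr hb)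
    have hmem : a / b ∈ plc q := by
      show ‖ψ (a / b)‖₊ ≤ 1
      rw [← NNReal.coe_le_coe, coe_nnnorm, map_div₀, norm_div, hab, div_self hb', NNReal.coe_one]
    have := ((plc q).valuation_le_one_iff _).mpr hmem
    rwa [map_div₀, div_le_one₀ (zero_lt_iff.mpr ((map_ne_zero _).mpr hb))] at this
  exact le_antisymm (hA _ _ hey hn.symm) (hA _ _ hz hn)

end Density

variable {p : ℕ} [Fact p.Prime] {H : Subgroup GQ} [NumberField ↥(Fld H)]

/-- the order at a coset -/
abbrev ordAt (q : Nat.Primes) (x : GQ ⧸ H) (y : (Fld H)ˣ) : ℤ :=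
  ordv (primeAt q x) (Additive.ofMul y)

theorem exists_ord_one (v : Prm (Fld H)) : ∃ y : (Fld H)ˣ, ordv v (Additive.ofMul y) = 1 := by
  obtain ⟨π, hπ⟩ := v.valuation_exists_uniformizer (Fld H)
  have h0 : π ≠ 0 := fun h => by
    rw [h, map_zero] at hπ
    exact WithZero.exp_ne_zero hπ.symm
  refine ⟨Units.mk0 π h0, ?_⟩
  have e := valuation_eq_exp_ordv v (Units.mk0 π h0)
  rw [Units.val_mk0, hπ, WithZero.exp_inj] at e
  omega

theorem valuation_emb_lt_one {q : Nat.Primes} {x : GQ ⧸ H} {y : (Fld H)ˣ}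
    (h : 0 < ordAt q x y) : (plc q).valuation (emb x (y : Fld H)) < 1 := by
  have hlt : (primeAt q x).valuation (Fld H) (y : Fld H) < 1 := by
    rw [valuation_eq_exp_ordv, ← WithZero.exp_zero, WithZero.exp_lt_exp]
    exact neg_lt_zero.mpr h
  obtain ⟨a, b, hab⟩ := HeightOneSpectrum.exists_primeCompl_mul_eq_of_integer (primeAt q x)
    (y : Fld H) hlt.le
  have hb : b.1 ∉ (primeAt q x).asIdeal := b.2
  have ha : a ∈ (primeAt q x).asIdeal := by
    refine (HeightOneSpectrum.valuation_lt_one_iff_mem (K := Fld H) _ _).mp ?_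
    show (primeAt q x).valuation (Fld H) (algebraMap (𝓞 (Fld H)) (Fld H) a) < 1
    rw [← hab, map_mul,
      (HeightOneSpectrum.valuation_eq_one_iff_notMem (K := Fld H) (primeAt q x)).mpr hb, mul_one]
    exact hlt
  have e := congrArg (fun z : Fld H => (plc q).valuation (emb x z)) hab
  simp only [map_mul] at e
  have hb1 : (plc q).valuation (emb x (b.1 : Fld H)) = 1 :=
    le_antisymm (Ext.valuation_le_one _ _ b.1) (not_lt.mp fun hl => hb (mem_primeAt.mpr hl))
  rw [hb1, mul_one] at e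
  rw [e]
  exact mem_primeAt.mp ha

theorem ordAt_eq_zero_of_valuation {q : Nat.Primes} {x : GQ ⧸ H} {y : (Fld H)ˣ}
    (h : (plc q).valuation (emb x (y : Fld H)) = 1) : ordAt q x y = 0 := by
  rcases lt_trichotomy (ordAt q x y) 0 with hn | hn | hn
  · refine absurd (valuation_emb_lt_one (q := q) (x := x) (y := y⁻¹) ?_) ?_
    · show 0 < ordv _ (-(Additive.ofMul y))
      rw [map_neg]; exact neg_pos.mpr hn
    · rw [Units.val_inv_eq_inv_val, map_inv₀, map_inv₀, h, inv_one]
      exact lt_irrefl 1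
  · exact hn
  · exact absurd h (valuation_emb_lt_one hn).ne

theorem ordAt_eq_of_valuation {q : Nat.Primes} {x : GQ ⧸ H} {y y' : (Fld H)ˣ}
    (h : (plc q).valuation (emb x (y : Fld H)) = (plc q).valuation (emb x (y' : Fld H))) :
    ordAt q x y = ordAt q x y' := by
  have e := ordAt_eq_zero_of_valuation (q := q) (x := x) (y := y / y') (by
    rw [Units.val_div_eq_div_val, map_div₀, map_div₀, h, div_self]
    exact (map_ne_zero _).mpr ((map_ne_zero (emb x)).mpr y'.ne_zero))
  rw [ordAt, ofMul_div, map_sub, sub_eq_zero] at e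
  exact e

/-- a root of the conjugate detects the values of the Kummer class -/
theorem exists_root (hG : OpenMu p H) (q : Nat.Primes) (x : GQ ⧸ H) (y : (Fld H)ˣ) :
    ∃ z : Qb, z ^ p = emb x (y : Fld H) ∧ z ≠ 0 ∧ ∀ γ : stq q x, ∃ i : ZMod p,
      loc q γ.1 z = zeta p ^ i.val * z ∧
      (i = 0 ↔ ev1 hG q x (res1 q _ (kappa hG (Additive.ofMul y))) γ = 0) := by
  induction x using QuotientGroup.induction_on with
  | H g =>
    obtain ⟨r, hr, hr0, hk⟩ := kappa_spec hG y
    refine ⟨g r, by rw [← map_pow, hr]; rfl, (map_ne_zero _).mpr hr0, fun γ => ?_⟩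
    set k : H := ⟨g⁻¹ * loc q γ.1 * g, conj_mem rfl (smul_stq γ)⟩
    refine ⟨(ExtCitation.cycloChar p g : ZMod p) * base hG (kappa hG (Additive.ofMul y)) k, ?_, ?_⟩
    · have e : loc q γ.1 (g r) = g ((k : GQ) r) := by
        rw [← AlgEquiv.mul_apply, ← AlgEquiv.mul_apply]
        congr 1
        simp [k, mul_assoc]
      rw [e, hk k, map_mul, map_pow, gal_zeta, ← pow_mul]
      congr 1
      rw [ZMod.val_mul]
      conv_lhs => rw [← Nat.mod_add_div (_ * _) p, pow_add, pow_mul _ p, zeta_spec.pow_eq_one,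
        one_pow, mul_one]
    · rw [ev1_res1]

theorem dvd_ordAt_of_ev1_eq_zero (hG : OpenMu p H) {q : Nat.Primes} {x : GQ ⧸ H} {y : (Fld H)ˣ}
    (h : ev1 hG q x (res1 q _ (kappa hG (Additive.ofMul y))) = 0) :
    (p : ℤ) ∣ ordAt q x y := by
  obtain ⟨z, hz, hz0, hγ⟩ := exists_root hG q x y
  obtain ⟨y', hy'⟩ := exists_valuation_eq_of_fix hG.opn q x hz0 fun γ => by
    obtain ⟨i, hi, hi0⟩ := hγ γ
    rw [hi, hi0.mpr (congrFun h γ), ZMod.val_zero, pow_zero, one_mul]
  have e := ordAt_eq_of_valuation (q := q) (x := x) (y := y) (y' := y' ^ p) (by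
    rw [← hz, map_pow, hy', Units.val_pow_eq_pow_val, map_pow, map_pow])
  rw [e, ordAt, ofMul_pow, map_nsmul, nsmul_eq_mul]
  exact dvd_mul_right _ _

/-- unramified in the fixed field -/
def UnrFld (q : Nat.Primes) (H : Subgroup GQ) : Prop :=
  ∀ s ∈ inert q, ∀ x : GQ ⧸ H, loc q s • x = x

omit [NumberField ↥(Fld H)] in
theorem finite_not_unrFld (hH : IsOpenSub (MonoidHom.id GQ) H) :
    {q : Nat.Primes | ¬UnrFld q H}.Finite := by
  obtain ⟨F, hF, hle⟩ := hH
  obtain ⟨E, hE, hle', hn⟩ := exists_normal_level F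
  refine (finite_ramified E).subset fun q hq => ?_
  by_contra h
  refine hq fun s hs x => smul_coset_eq hn (fun t ht => hle (by simpa using hle' ht)) ?_ x
  by_contra h'
  exact h ⟨s, hs, h'⟩

omit [NumberField ↥(Fld H)] in
theorem UnrFld.stq_mem {q : Nat.Primes} (hu : UnrFld q H) {s : Gam q} (hs : s ∈ inert q)
    (x : GQ ⧸ H) : s ∈ stq q x :=
  MulAction.mem_stabilizer_iff.2 (hu s hs x)

omit [NumberField ↥(Fld H)] in
theorem UnrFld.isUnrAt (hG : OpenMu p H) {q : Nat.Primes} (hu : UnrFld q H) :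
    IsUnrAt q (ind H (mu p)) := fun s hs => LinearMap.ext fun f => funext fun x => by
  show ((ind H (mu p)).ρ (loc q s) f x : ZMod p) = f x
  rw [rho_perm, omega_eq_one_of_fix hG (hu s hs x), Units.val_one, one_mul,
    inv_smul_eq_iff.2 (hu s hs x).symm]

omit [NumberField ↥(Fld H)] in
theorem mem_inertia_range {q : Nat.Primes} {σ : GQ} (hσ : σ ∈ (plc q).inertiaSubgroupIn ℚ) :
    ∃ s ∈ inert q, loc q s = σ := by
  have h : σ ∈ (loc q).range := by
    rw [range_loc]
    obtain ⟨τ, -, rfl⟩ := hσ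
    exact τ.2
  obtain ⟨s, rfl⟩ := h
  exact ⟨s, hσ, rfl⟩

omit [NumberField ↥(Fld H)] in
theorem valuation_natCast_ne_zero (q : Nat.Primes) :
    (plc q).valuation ((q : ℕ) : Qb) ≠ 0 :=
  (map_ne_zero _).mpr (Nat.cast_ne_zero.mpr q.2.ne_zero)

theorem valuation_emb_of_fix (hH : IsOpenSub (MonoidHom.id GQ) H) {q : Nat.Primes}
    {x : GQ ⧸ H} (hu : ∀ s ∈ inert q, loc q s • x = x) (y : (Fld H)ˣ) :
    (plc q).valuation (emb x (y : Fld H)) = (plc q).valuation ((q : ℕ) : Qb) ^ ordAt q x y := by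
  haveI := hH.finite_fld
  haveI : FiniteDimensional ℚ (emb x).fieldRange :=
    Module.Finite.equiv (AlgEquiv.ofInjectiveField (emb x)).toLinearEquiv
  have hk : ∀ w : (Fld H)ˣ, ∃ k : ℤ,
      (plc q).valuation (emb x (w : Fld H)) = (plc q).valuation ((q : ℕ) : Qb) ^ k := fun w =>
    SS2.exists_zpow_valuation q.2 (lies_plc q) (emb x).fieldRange (fun σ hσ a ha => by
      obtain ⟨s, hs, rfl⟩ := mem_inertia_range hσ
      obtain ⟨b, rfl⟩ := ha
      show loc q s (emb x b) = emb x b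
      rw [← emb_smul, hu s hs]) ⟨_, rfl⟩ ((map_ne_zero (emb x)).mpr w.ne_zero)
  have hq0 : ((q : ℕ) : Fld H) ≠ 0 := Nat.cast_ne_zero.mpr q.2.ne_zero
  set Q : (Fld H)ˣ := Units.mk0 _ hq0
  have hord : ∀ (w : (Fld H)ˣ) (k : ℤ),
      (plc q).valuation (emb x (w : Fld H)) = (plc q).valuation ((q : ℕ) : Qb) ^ k →
        ordAt q x w = k * ordAt q x Q := fun w k h => by
    rw [ordAt_eq_of_valuation (y := w) (y' := Q ^ k) (by
      rw [h, Units.val_zpow_eq_zpow_val, map_zpow₀, map_zpow₀, Units.val_mk0,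
        map_natCast (emb x)]),
      ordAt, ofMul_zpow, map_zsmul, smul_eq_mul]
  obtain ⟨π, hπ⟩ := exists_ord_one (primeAt q x)
  obtain ⟨m, hm⟩ := hk π
  have h1 : (1 : ℤ) = m * ordAt q x Q := hπ.symm.trans (hord π m hm)
  have hpos : 0 < ordAt q x Q := by
    by_contra h
    have hle : (primeAt q x).valuation (Fld H) (Q : Fld H) < 1 := by
      have e : (Q : Fld H) = algebraMap (𝓞 (Fld H)) (Fld H) ((q : ℕ) : 𝓞 (Fld H)) := by
        rw [map_natCast]; rfl
      rw [e, HeightOneSpectrum.valuation_lt_one_iff_mem]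
      exact natCast_mem_primeAt q x
    rw [valuation_eq_exp_ordv, ← WithZero.exp_zero, WithZero.exp_lt_exp, neg_lt_zero] at hle
    exact h hle
  have hQ : ordAt q x Q = 1 := Int.eq_one_of_dvd_one hpos.le ⟨m, by rw [mul_comm]; exact h1⟩
  obtain ⟨k, hk⟩ := hk y
  rw [hk, hord y k hk, hQ, mul_one]

theorem UnrFld.valuation_emb (hH : IsOpenSub (MonoidHom.id GQ) H) {q : Nat.Primes}
    (hu : UnrFld q H) (x : GQ ⧸ H) (y : (Fld H)ˣ) :
    (plc q).valuation (emb x (y : Fld H)) = (plc q).valuation ((q : ℕ) : Qb) ^ ordAt q x y :=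
  valuation_emb_of_fix hH (fun s hs => hu s hs x) y

omit [NumberField ↥(Fld H)] in
theorem valuation_natCast_lt_one (q : Nat.Primes) :
    (plc q).valuation ((q : ℕ) : Qb) < 1 :=
  (ValuationSubring.mem_nonunits_iff _).1 (lies_plc q)

/-- the roots of unity of order `p` are distinct modulo a place away from `p` -/
theorem zeta_residue {q : Nat.Primes} (hq : (q : ℕ) ≠ p) {i : ℕ}
    (h : (plc q).valuation (zeta p ^ i - 1) < 1) : zeta p ^ i = 1 := by
  by_contra hne
  set ξ : Qb := zeta p ^ i with hξdef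
  have hξp : ξ ^ p = 1 := by rw [hξdef, ← pow_mul, mul_comm, pow_mul, zeta_spec.pow_eq_one, one_pow]
  have hsum : ∑ j ∈ Finset.range p, ξ ^ j = 0 := by
    have := geom_sum_mul ξ p
    rw [hξp, sub_self, mul_eq_zero] at this
    exact this.resolve_right (sub_ne_zero.mpr hne)
  have hle : (plc q).valuation ξ ≤ 1 :=
    le_of_eq ((pow_eq_one_iff_left (Fact.out : p.Prime).ne_zero).mp (by rw [← map_pow, hξp, map_one]))
  have hlt : ∀ j : ℕ, (plc q).valuation (ξ ^ j - 1) < 1 := fun j => by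
    induction j with
    | zero => simp
    | succ j ih =>
      rw [show ξ ^ (j + 1) - 1 = ξ * (ξ ^ j - 1) + (ξ - 1) by ring]
      refine lt_of_le_of_lt (Valuation.map_add _ _ _) (max_lt ?_ h)
      rw [map_mul]
      exact lt_of_le_of_lt (mul_le_of_le_one_left' hle) ih
  have hp : (plc q).valuation ((p : ℕ) : Qb) < 1 := by
    have e : ((p : ℕ) : Qb) = -∑ j ∈ Finset.range p, (ξ ^ j - 1) := by
      rw [Finset.sum_sub_distrib, hsum, zero_sub, neg_neg, Finset.sum_const, Finset.card_range,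
        nsmul_eq_mul, mul_one]
    rw [e, Valuation.map_neg]
    exact Valuation.map_sum_lt _ one_ne_zero fun j _ => hlt j
  exact hq ((Nat.prime_dvd_prime_iff_eq q.2 (Fact.out : p.Prime)).mp
    (SS2.dvd_of_valuation_natCast_lt q.2 (lies_plc q) hp))

theorem ev1_inert_iff (hG : OpenMu p H) {q : Nat.Primes} (hu : UnrFld q H) (hq : (q : ℕ) ≠ p)
    (x : GQ ⧸ H) (y : (Fld H)ˣ) :
    (∀ s (hs : s ∈ inert q), ev1 hG q x (res1 q _ (kappa hG (Additive.ofMul y)))
      ⟨s, hu.stq_mem hs x⟩ = 0) ↔ (p : ℤ) ∣ ordAt q x y := by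
  obtain ⟨z, hz, hz0, hγ⟩ := exists_root hG q x y
  constructor
  · intro h
    haveI : FiniteDimensional ℚ (IntermediateField.adjoin ℚ ({z} : Set Qb)) :=
      IntermediateField.adjoin.finiteDimensional
        (FLTAgent.Common.isAlgebraic_qbar.isAlgebraic z).isIntegral
    obtain ⟨k, hk⟩ := SS2.exists_zpow_valuation q.2 (lies_plc q)
      (IntermediateField.adjoin ℚ ({z} : Set Qb)) (fun σ hσ a ha => by
        obtain ⟨s, hs, rfl⟩ := mem_inertia_range hσ
        have hfz : loc q s z = z := by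
          obtain ⟨i, hi, hi0⟩ := hγ ⟨s, hu.stq_mem hs x⟩
          rw [show loc q s z = _ from hi, hi0.mpr (h s hs), ZMod.val_zero, pow_zero, one_mul]
        induction ha using IntermediateField.adjoin_induction with
        | mem a ha => rw [ha]; exact hfz
        | algebraMap r => exact AlgEquiv.commutes _ r
        | add a b _ _ ha hb => rw [map_add, ha, hb]
        | inv a _ ha => rw [map_inv₀, ha]
        | mul a b _ _ ha hb => rw [map_mul, ha, hb])
      (IntermediateField.mem_adjoin_simple_self ℚ z) hz0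
    have e := hu.valuation_emb hG.opn x y
    rw [← hz, map_pow, hk, ← zpow_natCast, ← zpow_mul] at e
    refine ⟨k, ?_⟩
    rw [mul_comm]
    exact (zpow_right_injective₀ (zero_lt_iff.mpr (valuation_natCast_ne_zero q))
      (valuation_natCast_lt_one q).ne e).symm
  · rintro ⟨k, hk⟩ s hs
    obtain ⟨i, hi, hi0⟩ := hγ ⟨s, hu.stq_mem hs x⟩
    rw [← hi0]
    set u : Qb := z / ((q : ℕ) : Qb) ^ k
    have hq0 : ((q : ℕ) : Qb) ^ k ≠ 0 := zpow_ne_zero _ (Nat.cast_ne_zero.mpr q.2.ne_zero)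
    have hu1 : (plc q).valuation u = 1 := by
      refine (pow_eq_one_iff_left (Fact.out : p.Prime).ne_zero).mp ?_
      rw [← map_pow, div_pow, hz, map_div₀, hu.valuation_emb hG.opn x y, hk, map_pow,
        map_zpow₀, ← zpow_natCast, ← zpow_mul, mul_comm k, div_self]
      exact zpow_ne_zero _ (valuation_natCast_ne_zero q)
    have hsu : loc q s u = zeta p ^ i.val * u := by
      rw [map_div₀, show loc q s z = _ from hi, map_zpow₀, map_natCast, mul_div_assoc]
    have h' := FLTAgent.Common.inertia_apply_sub_mem (V := plc q) (σ := loc q s) hs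
      (c := u) (((plc q).valuation_le_one_iff u).mp hu1.le)
    rw [hsu, ValuationSubring.mem_nonunits_iff, ← sub_one_mul, map_mul, hu1, mul_one] at h'
    exact zeta_pow_injective (by simpa using zeta_residue (p := p) hq h')

theorem kappa_mem_unr1_iff (hG : OpenMu p H) {q : Nat.Primes} (hu : UnrFld q H)
    (hq : (q : ℕ) ≠ p) (y : (Fld H)ˣ) :
    res1 q _ (kappa hG (Additive.ofMul y)) ∈ unr1 q (ind H (mu p)) ↔
      ∀ x : GQ ⧸ H, (p : ℤ) ∣ ordAt q x y := by
  simp only [← ev1_inert_iff hG hu hq]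
  obtain ⟨z, hz⟩ := Submodule.mkQ_surjective _ (res1 q (ind H (mu p)) (kappa hG (Additive.ofMul y)))
  rw [← hz]
  change h1mk _ _ z ∈ unr1 q (ind H (mu p)) ↔ _
  rw [mem_unr1_iff (hu.isUnrAt hG)]
  exact ⟨fun h x s hs => congrFun (h s hs) x, fun h s hs => funext fun x => h x s hs⟩

/-- unramified at an orbit -/
def UnrO (q : Nat.Primes) (O : Orb q H) (a : lH1 q (ind H (mu p))) : Prop :=
  proj1 O a ∈ unr1 q (ind H (mu p))

theorem unrO_kappa_iff (hG : OpenMu p H) {q : Nat.Primes} (hu : UnrFld q H)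
    (hq : (q : ℕ) ≠ p) (O : Orb q H) (y : (Fld H)ˣ) :
    UnrO q O (res1 q _ (kappa hG (Additive.ofMul y))) ↔ (p : ℤ) ∣ ordAt q O.out y := by
  rw [UnrO, ← ev1_inert_iff hG hu hq]
  obtain ⟨z, hz⟩ := Submodule.mkQ_surjective _ (res1 q (ind H (mu p)) (kappa hG (Additive.ofMul y)))
  rw [← hz]
  change h1mk _ _ _ ∈ unr1 q (ind H (mu p)) ↔ _
  rw [mem_unr1_iff (hu.isUnrAt hG)]
  constructor
  · intro h s hs
    have e : indO (p := p) O O.out * (z.1 s O.out : ZMod p) = 0 := congrFun (h s hs) O.out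
    rwa [indO_pos (show orb q O.out = O from O.out_eq'), one_mul] at e
  · intro h s hs
    funext x
    show indO (p := p) O x * (z.1 s x : ZMod p) = 0
    rcases eq_or_ne (orb q x) O with he | he
    · obtain ⟨g, hg⟩ := orb_eq_iff.1 (he.trans O.out_eq'.symm)
      have hord : ordAt q x y = ordAt q O.out y := by
        rw [← hg]; unfold ordAt; rw [primeAt_smul]
      have h1 := (ev1_inert_iff hG hu hq O.out y).1 (fun s hs => by
        rw [← hz]; exact h s hs)
      rw [← hord] at h1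
      have h2 := (ev1_inert_iff hG hu hq x y).2 h1 s hs
      rw [← hz] at h2
      rw [show (z.1 s x : ZMod p) = 0 from h2, mul_zero]
    · rw [indO_neg he, zero_mul]

end FLTAgent.PT
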