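import Fermat.Agent.PT.Global.Image
import Fermat.Agent.Ext.Kummer

/-!
The reciprocity package: invariant maps with the fundamental exact sequence, and the classes with
prescribed localisations.
-/

set_option autoImplicit false
set_option linter.unusedSectionVars false
set_option linter.style.haveILetI false
set_option maxHeartbeats 1000000
set_option synthInstance.maxHeartbeats 200000

noncomputable section

open CategoryTheory groupCohomology IntermediateField
open scoped Pointwise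

namespace FLTAgent.PT

variable {p : ℕ} [Fact p.Prime] {H : Subgroup GQ}

section Families

/-- a local class as a family on the places -/
def lcl (hG : OpenMu p H) (q : Nat.Primes) :
    lH2 q (ind H (mu p)) →ₗ[ZMod p] (Pl H →₀ ZMod p) :=
  haveI := hG.finite
  Finsupp.lmapDomain (ZMod p) (ZMod p) (fun O : Orb q H => (⟨q, O⟩ : Pl H)) ∘ₗ
    (Finsupp.linearEquivFunOnFinite (ZMod p) (ZMod p) (Orb q H)).symm.toLinearMap ∘ₗ coord hG q

theorem lcl_self (hG : OpenMu p H) (q : Nat.Primes) (c : lH2 q (ind H (mu p))) (O : Orb q H) :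
    lcl hG q c ⟨q, O⟩ = coord hG q c O := by
  haveI := hG.finite
  show Finsupp.mapDomain (fun O : Orb q H => (⟨q, O⟩ : Pl H)) _ _ = _
  exact Finsupp.mapDomain_apply (fun O O' (e : (⟨q, O⟩ : Pl H) = ⟨q, O'⟩) =>
    eq_of_heq (Sigma.mk.inj e).2) _ O

theorem lcl_of_ne (hG : OpenMu p H) (q : Nat.Primes) (c : lH2 q (ind H (mu p))) {v : Pl H}
    (hv : v.1 ≠ q) : lcl hG q c v = 0 := by
  haveI := hG.finite
  refine Finsupp.mapDomain_notin_range _ v ?_
  rintro ⟨O, rfl⟩
  exact hv rfl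

theorem lcl_e2 (hG : OpenMu p H) (v : Pl H) :
    lcl hG v.1 (e2 hG v.2) = Finsupp.single v 1 := by
  classical
  refine Finsupp.ext fun u => ?_
  obtain ⟨q, O⟩ := v
  obtain ⟨q', O'⟩ := u
  by_cases hq : q' = q
  · subst hq
    rw [lcl_self, coord_e2]
    rcases eq_or_ne O' O with rfl | h
    · rw [indO_pos (show orb q' O'.out = O' from O'.out_eq'), Finsupp.single_eq_same]
    · rw [indO_neg (by rw [show orb q' O'.out = O' from O'.out_eq']; exact h),
        Finsupp.single_eq_of_ne fun e : (⟨q', O'⟩ : Pl H) = ⟨q', O⟩ =>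
          h (eq_of_heq (Sigma.mk.inj e).2)]
  · rw [lcl_of_ne hG q _ hq, Finsupp.single_eq_of_ne fun e : (⟨q', O'⟩ : Pl H) = ⟨q, O⟩ =>
      hq (congrArg Sigma.fst e)]

/-- the functional at a prime -/
def Fq (hG : OpenMu p H) (l : (Pl H →₀ ZMod p) →ₗ[ZMod p] ZMod p) (q : Nat.Primes) :
    lH2 q (ind H (mu p)) →ₗ[ZMod p] ZMod p :=
  l ∘ₗ lcl hG q

theorem Fq_e2 (hG : OpenMu p H) (l : (Pl H →₀ ZMod p) →ₗ[ZMod p] ZMod p) (v : Pl H) :
    Fq hG l v.1 (e2 hG v.2) = l (Finsupp.single v 1) := by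
  rw [Fq, LinearMap.comp_apply, lcl_e2]

theorem sum_lcl (hG : OpenMu p H) (b : ∀ q, lH2 q (ind H (mu p))) (s : Finset Nat.Primes)
    (hs : ∀ q, b q ≠ 0 → q ∈ s) (v : Pl H) :
    (∑ q ∈ s, lcl hG q (b q)) v = coord hG v.1 (b v.1) v.2 := by
  rw [Finsupp.finset_sum_apply]
  refine (Finset.sum_eq_single v.1 (fun q _ hq => lcl_of_ne hG q _ hq.symm) fun h => ?_).trans
    (lcl_self hG v.1 (b v.1) v.2)
  rw [not_not.1 fun h' => h (hs _ h'), map_zero]
  rfl

theorem finsum_Fq (hG : OpenMu p H) (l : (Pl H →₀ ZMod p) →ₗ[ZMod p] ZMod p)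
    (b : ∀ q, lH2 q (ind H (mu p))) (s : Finset Nat.Primes) (hs : ∀ q, b q ≠ 0 → q ∈ s) :
    ∑ᶠ q, Fq hG l q (b q) = l (∑ q ∈ s, lcl hG q (b q)) := by
  rw [map_sum, finsum_eq_sum_of_support_subset _ (s := s) fun q hq => hs q fun h => hq (by
    show Fq hG l q (b q) = 0
    rw [h, map_zero])]
  rfl

theorem sum_Fq_res2 (hG : OpenMu p H) {l : (Pl H →₀ ZMod p) →ₗ[ZMod p] ZMod p}
    (hl : glob hG ≤ LinearMap.ker l) (c : G2 p H) :
    ∑ᶠ q, Fq hG l q (res2 q _ c) = 0 := by
  rw [finsum_Fq hG l _ (finite_res2 hG.adm c).toFinset fun q hq => (Set.Finite.mem_toFinset _).2 hq]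
  refine LinearMap.mem_ker.1 (hl ?_)
  refine ⟨c, Finsupp.ext fun v => ?_⟩
  rw [sum_lcl hG _ _ fun q hq => (Set.Finite.mem_toFinset _).2 hq, loc2_apply]

/-- the classes with prescribed localisations -/
theorem exists_of_family (hG : OpenMu p H) {l : (Pl H →₀ ZMod p) →ₗ[ZMod p] ZMod p}
    (hl : LinearMap.ker l ≤ glob hG) (b : ∀ q, lH2 q (ind H (mu p))) (hb : {q | b q ≠ 0}.Finite)
    (hsum : ∑ᶠ q, Fq hG l q (b q) = 0) :
    ∃ c : G2 p H, ∀ q, res2 q _ c = b q := by
  rw [finsum_Fq hG l b hb.toFinset fun q hq => hb.mem_toFinset.2 hq] at hsum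
  obtain ⟨c, hc⟩ := hl (LinearMap.mem_ker.2 hsum)
  refine ⟨c, fun q => (coord_bijective hG q).1 (funext fun O => ?_)⟩
  rw [← loc2_apply hG c ⟨q, O⟩, hc, sum_lcl hG b _ fun q hq => hb.mem_toFinset.2 hq]

end Families

section Push

theorem res2_push_nat {A B : Rep.{0} (ZMod p) GQ} (φ : A →ₗ[ZMod p] B)
    (hφ : ∀ g a, φ (A.ρ g a) = B.ρ g (φ a)) (q : Nat.Primes) (c : cH2 (MonoidHom.id GQ) A) :
    res2 q B (h2push (MonoidHom.id GQ) φ hφ c) =
      h2push (loc q) (A := Rep.res (loc q) A) (B := Rep.res (loc q) B) φ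
        (fun g a => hφ (loc q g) a) (res2 q A c) := by
  obtain ⟨z, rfl⟩ := Submodule.mkQ_surjective _ c
  rfl

/-- the sum of the components, on local classes -/
def sumq (hG : OpenMu p H) (q : Nat.Primes) :
    lH2 q (ind H (mu p)) →ₗ[ZMod p] lH2 q (mu p) :=
  haveI := hG.finite
  h2push (loc q) (A := Rep.res (loc q) (ind H (mu p))) (B := Rep.res (loc q) (mu p))
    (indSum H (mu p)) fun g => indSum_eqv_mu (loc q g)

theorem sumq_surjective (hG : OpenMu p H) (q : Nat.Primes) :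
    Function.Surjective (sumq (p := p) hG q) :=
  haveI := hG.finite
  indSum_surjective q hG.opn fun g a => indSum_eqv_mu (loc q g) a

theorem exists_ne_zero_lH2_mu (q : Nat.Primes) : ∃ x : lH2 q (mu p), x ≠ 0 := by
  by_contra! h
  haveI : Subsingleton (lH2 q (mu p)) := ⟨fun a b => (h a).trans (h b).symm⟩
  have := finrank_lH2_mu (p := p) q
  rw [Module.finrank_zero_of_subsingleton] at this
  omega

/-- the sum of the invariants as a functional on the families -/
def psiR (hG : OpenMu p H) (R : Recip p) : (Pl H →₀ ZMod p) →ₗ[ZMod p] ZMod p :=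
  Finsupp.linearCombination (ZMod p) fun v => R.inv v.1 (sumq hG v.1 (e2 hG v.2))

theorem Fq_psiR (hG : OpenMu p H) (R : Recip p) (q : Nat.Primes) (c : lH2 q (ind H (mu p))) :
    Fq hG (psiR hG R) q c = R.inv q (sumq hG q c) := by
  haveI := hG.finite
  letI := Fintype.ofFinite (Orb q H)
  conv_lhs => rw [eq_sum_e2 hG c]
  conv_rhs => rw [eq_sum_e2 hG c]
  rw [map_sum, map_sum, map_sum]
  refine Finset.sum_congr rfl fun O _ => ?_
  rw [map_smul, map_smul, map_smul, Fq_e2 hG _ ⟨q, O⟩, psiR, Finsupp.linearCombination_single,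
    one_smul]

/-- a nonzero functional vanishing on the global image cuts it out -/
theorem ker_le_glob {l ψ : (Pl H →₀ ZMod p) →ₗ[ZMod p] ZMod p} (hG : OpenMu p H)
    (hl : glob hG = LinearMap.ker l) (hψ : glob hG ≤ LinearMap.ker ψ) (hψ0 : ψ ≠ 0) :
    LinearMap.ker ψ ≤ glob hG := by
  obtain ⟨f₀, hf₀⟩ : ∃ f, l f = 1 := by
    by_cases h : l = 0
    · refine absurd (LinearMap.ext fun f => LinearMap.mem_ker.1 (hψ ?_)) hψ0
      rw [hl, h]
      exact LinearMap.mem_ker.2 rfl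
    · obtain ⟨f, hf⟩ := DFunLike.ne_iff.1 h
      exact ⟨(l f)⁻¹ • f, by rw [map_smul, smul_eq_mul, inv_mul_cancel₀ hf]⟩
  have key : ∀ f, ψ f = l f * ψ f₀ := fun f => by
    have h : ψ (f - l f • f₀) = 0 := LinearMap.mem_ker.1 (hψ (by
      rw [hl, LinearMap.mem_ker, map_sub, map_smul, hf₀, smul_eq_mul, mul_one, sub_self]))
    rwa [map_sub, map_smul, smul_eq_mul, sub_eq_zero] at h
  have h₀ : ψ f₀ ≠ 0 := fun h => hψ0 (LinearMap.ext fun f => by
    rw [key f, h, mul_zero, LinearMap.zero_apply])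
  intro f hf
  rw [hl, LinearMap.mem_ker]
  exact (mul_eq_zero.1 ((key f).symm.trans (LinearMap.mem_ker.1 hf))).resolve_right h₀

/-- classes of `Br(F)[p]` with prescribed local classes of zero sum -/
theorem exists_global_of_sum_zero (hp2 : p ≠ 2) (hG : OpenMu p H) (R : Recip p)
    (b : ∀ q, lH2 q (ind H (mu p))) (hb : {q | b q ≠ 0}.Finite)
    (hsum : ∑ᶠ q, R.inv q (sumq hG q (b q)) = 0) :
    ∃ c : G2 p H, ∀ q, res2 q _ c = b q := by
  haveI := hG.finite
  haveI := hG.opn.numberField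
  obtain ⟨l, -, hl⟩ := exists_glob_ker hp2 hG
  refine exists_of_family hG (l := psiR hG R) (ker_le_glob hG hl ?_ ?_) b hb ?_
  · rintro f ⟨c, rfl⟩
    rw [LinearMap.mem_ker]
    have h1 := finsum_Fq hG (psiR hG R) (fun q => res2 q _ c) (finite_res2 hG.adm c).toFinset
      fun q hq => (Set.Finite.mem_toFinset _).2 hq
    have h2 : (∑ q ∈ (finite_res2 hG.adm c).toFinset, lcl hG q (res2 q _ c)) = loc2 hG c :=
      Finsupp.ext fun v => by
        rw [sum_lcl hG _ _ fun q hq => (Set.Finite.mem_toFinset _).2 hq, loc2_apply]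
    rw [← h2, ← h1]
    refine Eq.trans (finsum_congr fun q => ?_)
      (R.sum_zero (h2push (MonoidHom.id GQ) (indSum H (mu p)) indSum_eqv_mu c))
    rw [Fq_psiR, res2_push_nat]
    rfl
  · intro h
    obtain ⟨x, hx⟩ := exists_ne_zero_lH2_mu (p := p) (pP p)
    obtain ⟨c, hc⟩ := sumq_surjective hG (pP p) x
    refine hx ((R.inv (pP p)).injective ?_)
    rw [← hc, ← Fq_psiR, h, map_zero]
    rfl
  · simpa only [Fq_psiR] using hsum

end Push

section Base

/-- the kernel of the cyclotomic character -/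
abbrev kerCyc (p : ℕ) [Fact p.Prime] : Subgroup GQ := (ExtCitation.cycloChar p).ker

theorem openMu_kerCyc (p : ℕ) [Fact p.Prime] : OpenMu p (kerCyc p) := by
  obtain ⟨F, hF, h⟩ := (isAdm_mu p).level
  refine ⟨⟨F, hF, fun g hg => MonoidHom.mem_ker.2 (Units.ext ?_)⟩, fun g hg => MonoidHom.mem_ker.1 hg⟩
  simpa [Representation.twist_apply] using LinearMap.congr_fun (h g hg) 1

theorem mk_kerCyc_eq {a b : GQ}
    (h : ExtCitation.cycloChar p a = ExtCitation.cycloChar p b) :
    (a : GQ ⧸ kerCyc p) = b := by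
  rw [QuotientGroup.eq, MonoidHom.mem_ker, map_mul, map_inv, h, inv_mul_cancel]

theorem card_kerCyc (p : ℕ) [Fact p.Prime] :
    (Nat.card (GQ ⧸ kerCyc p) : ZMod p) = -1 := by
  have hs : Function.Surjective (ExtCitation.cycloChar p) := fun a =>
    FLTAgent.Ext.exists_cycloChar_eq a
  rw [Nat.card_congr (QuotientGroup.quotientKerEquivOfSurjective _ hs).toEquiv,
    Nat.card_eq_fintype_card, ZMod.card_units, Nat.cast_sub (Fact.out : p.Prime).one_le,
    ZMod.natCast_self, Nat.cast_one, zero_sub]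

/-- a prime with a single orbit -/
theorem exists_single_orbit (p : ℕ) [Fact p.Prime] :
    ∃ q : Nat.Primes, ∀ O O' : Orb q (kerCyc p), O = O' := by
  obtain ⟨u, hu⟩ := IsCyclic.exists_generator (α := (ZMod p)ˣ)
  obtain ⟨σ, hσ⟩ := FLTAgent.Ext.exists_cycloChar_eq u
  obtain ⟨F, hF, hle⟩ := (openMu_kerCyc p).opn
  haveI := hF
  obtain ⟨ℓ, A, τ, k, hℓ, -, hA, hτA, hk⟩ := Chebotarev.exists_frobenius_pow F σ ∅
  set q : Nat.Primes := ⟨ℓ, hℓ⟩
  obtain ⟨s, hs⟩ := exists_conj hℓ hA (lies_plc q)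
  have hsA : s • A = plc q := SetLike.ext fun x => by
    rw [ValuationSubring.mem_smul_pointwise_iff_exists]
    exact ⟨fun ⟨y, hy, hyx⟩ => hyx ▸ (hs y).1 hy, fun hx => ⟨s⁻¹ x, (hs _).2 (by
      rwa [show s (s⁻¹ x) = x from s.apply_symm_apply x]), s.apply_symm_apply x⟩⟩
  have hd : s * τ ^ k * s⁻¹ ∈ (plc q).decompositionSubgroup ℚ := by
    have hτ : τ ^ k ∈ A.decompositionSubgroup ℚ := pow_mem hτA.mem_decompositionSubgroup k
    show (s * τ ^ k * s⁻¹) • plc q = plc q
    rw [← hsA, mul_smul, inv_smul_smul, mul_smul, show τ ^ k • A = A from hτ]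
  rw [← range_loc q] at hd
  obtain ⟨γ, hγ⟩ := hd
  have hχ : ExtCitation.cycloChar p (loc q γ) = u := by
    have h1 : σ⁻¹ * τ ^ k ∈ kerCyc p := hle (by
      show σ⁻¹ * τ ^ k ∈ F.fixingSubgroup
      rw [IntermediateField.mem_fixingSubgroup_iff]
      intro x hx
      rw [AlgEquiv.mul_apply, hk x hx]
      exact σ.symm_apply_apply x)
    rw [MonoidHom.mem_ker, map_mul, map_inv, inv_mul_eq_one, hσ] at h1
    rw [hγ, map_mul, map_mul, map_inv, mul_inv_cancel_comm, ← h1]
  refine ⟨q, fun O O' => ?_⟩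
  induction O using Quotient.inductionOn' with
  | h x => ?_
  induction O' using Quotient.inductionOn' with
  | h y => ?_
  induction x using QuotientGroup.induction_on with
  | H a => ?_
  induction y using QuotientGroup.induction_on with
  | H b => ?_
  obtain ⟨n, hn⟩ := hu (ExtCitation.cycloChar p a * (ExtCitation.cycloChar p b)⁻¹)
  refine orb_eq_iff.2 ⟨γ ^ n, ?_⟩
  rw [MulAction.Quotient.smul_mk, smul_eq_mul]
  refine mk_kerCyc_eq ?_
  rw [map_mul, map_zpow, map_zpow, hχ]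
  exact (congrArg (· * ExtCitation.cycloChar p b) hn).trans (inv_mul_cancel_right _ _)

variable (p) in
/-- the constant functions, on local classes -/
def constq (q : Nat.Primes) : lH2 q (mu p) →ₗ[ZMod p] lH2 q (ind (kerCyc p) (mu p)) :=
  h2push (loc q) (A := Rep.res (loc q) (mu p)) (B := Rep.res (loc q) (ind (kerCyc p) (mu p)))
    (indConst (kerCyc p) (mu p)) fun _ _ => rfl

variable (p) in
/-- the translations, on local classes -/
def rgtq (q : Nat.Primes) (g : GQ) :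
    lH2 q (ind (kerCyc p) (mu p)) →ₗ[ZMod p] lH2 q (ind (kerCyc p) (mu p)) :=
  h2push (loc q) (A := Rep.res (loc q) (ind (kerCyc p) (mu p)))
    (B := Rep.res (loc q) (ind (kerCyc p) (mu p))) (indRight (kerCyc p) (mu p) g)
    fun h => indRight_eqv (kerCyc p) (mu p) g (loc q h)

theorem sumq_constq (q : Nat.Primes) (x : lH2 q (mu p)) :
    sumq (openMu_kerCyc p) q (constq p q x) = -x := by
  classical
  haveI := (openMu_kerCyc p).finite
  obtain ⟨z, rfl⟩ := Submodule.mkQ_surjective _ x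
  rw [← map_neg]
  refine congrArg (h2mk _ _) (Subtype.ext (funext fun g => ?_))
  letI := Fintype.ofFinite (GQ ⧸ kerCyc p)
  show ∑ _x : GQ ⧸ kerCyc p, (z.1 g : ZMod p) = -(z.1 g : ZMod p)
  rw [Finset.sum_const, Finset.card_univ, ← Nat.card_eq_fintype_card, nsmul_eq_mul, card_kerCyc,
    neg_one_mul]

theorem sumq_rgtq (q : Nat.Primes) (g : GQ) (c : lH2 q (ind (kerCyc p) (mu p))) :
    sumq (openMu_kerCyc p) q (rgtq p q g c) = sumq (openMu_kerCyc p) q c := by
  haveI := (openMu_kerCyc p).finite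
  obtain ⟨z, rfl⟩ := Submodule.mkQ_surjective _ c
  refine congrArg (h2mk _ _) (Subtype.ext (funext fun h => ?_))
  letI := Fintype.ofFinite (GQ ⧸ kerCyc p)
  exact Equiv.sum_comp (Equiv.mulRight (g : GQ ⧸ kerCyc p)) fun x => z.1 h x

theorem constq_sumq (q : Nat.Primes) (c : lH2 q (ind (kerCyc p) (mu p))) :
    haveI := (openMu_kerCyc p).finite
    letI := Fintype.ofFinite (GQ ⧸ kerCyc p)
    constq p q (sumq (openMu_kerCyc p) q c) = ∑ z : GQ ⧸ kerCyc p, rgtq p q z.out c := by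
  haveI := (openMu_kerCyc p).finite
  letI := Fintype.ofFinite (GQ ⧸ kerCyc p)
  obtain ⟨w, rfl⟩ := Submodule.mkQ_surjective _ c
  have hm : ∀ z : GQ ⧸ kerCyc p, rgtq p q z.out (h2mk _ _ w) = h2mk _ _ _ := fun z => rfl
  rw [Finset.sum_congr rfl fun z _ => hm z, ← map_sum]
  refine congrArg (h2mk _ _) (Subtype.ext (funext fun h => funext fun x => ?_))
  rw [Submodule.coe_sum, Finset.sum_apply, Finset.sum_apply]
  show ∑ y, (w.1 h y : ZMod p) = ∑ z : GQ ⧸ kerCyc p, (w.1 h (x * (z.out : GQ ⧸ kerCyc p)) : ZMod p)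
  rw [← Equiv.sum_comp (Equiv.mulLeft x) fun y => (w.1 h y : ZMod p)]
  refine Finset.sum_congr rfl fun z _ => ?_
  rw [show ((z.out : GQ) : GQ ⧸ kerCyc p) = z from z.out_eq']
  rfl

/-- the functional of the global image is invariant under the translations -/
theorem Fq_rgtq (hp2 : p ≠ 2) [NumberField ↥(Fld (kerCyc p))]
    {l : (Pl (kerCyc p) →₀ ZMod p) →ₗ[ZMod p] ZMod p}
    (hl : glob (openMu_kerCyc p) = LinearMap.ker l) (q : Nat.Primes) (g : GQ)
    (c : lH2 q (ind (kerCyc p) (mu p))) :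
    Fq (openMu_kerCyc p) l q (rgtq p q g c) = Fq (openMu_kerCyc p) l q c := by
  classical
  set hG := openMu_kerCyc p
  haveI := hG.finite
  let T : (Pl (kerCyc p) →₀ ZMod p) →ₗ[ZMod p] (Pl (kerCyc p) →₀ ZMod p) :=
    Finsupp.linearCombination (ZMod p) fun v => lcl hG v.1 (rgtq p v.1 g (e2 hG v.2))
  have hT : ∀ q c, T (lcl hG q c) = lcl hG q (rgtq p q g c) := fun q c => by
    letI := Fintype.ofFinite (Orb q (kerCyc p))
    conv_lhs => rw [eq_sum_e2 hG c]
    conv_rhs => rw [eq_sum_e2 hG c]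
    rw [map_sum, map_sum, map_sum, map_sum]
    refine Finset.sum_congr rfl fun O _ => ?_
    rw [map_smul, map_smul, map_smul, map_smul, lcl_e2 hG ⟨q, O⟩]
    show _ • T (Finsupp.single _ _) = _
    rw [show T (Finsupp.single (⟨q, O⟩ : Pl (kerCyc p)) 1) = _ from
      Finsupp.linearCombination_single _ _ _, one_smul]
  have hTg : glob hG ≤ LinearMap.ker (l ∘ₗ T) := by
    rintro f ⟨c, rfl⟩
    set s := (finite_res2 hG.adm c).toFinset
    have h2 : (∑ q ∈ s, lcl hG q (res2 q _ c)) = loc2 hG c := Finsupp.ext fun v => by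
      rw [sum_lcl hG _ _ fun q hq => (Set.Finite.mem_toFinset _).2 hq, loc2_apply]
    rw [LinearMap.mem_ker, LinearMap.comp_apply, ← h2, map_sum T]
    have h3 : (∑ q ∈ s, T (lcl hG q (res2 q _ c))) =
        loc2 hG (h2push (MonoidHom.id GQ) (indRight (kerCyc p) (mu p) g)
          (indRight_eqv (kerCyc p) (mu p) g) c) := Finsupp.ext fun v => by
      rw [Finset.sum_congr rfl fun q _ => hT q _,
        sum_lcl hG (fun q => rgtq p q g (res2 q _ c)) s (fun q hq =>
          (Set.Finite.mem_toFinset _).2 fun h => hq (by rw [h, map_zero])), loc2_apply, res2_push_nat]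
      rfl
    rw [h3]
    exact LinearMap.mem_ker.1 (hl ▸ loc2_mem_glob hG _)
  obtain ⟨q₁, hq₁⟩ := exists_single_orbit p
  -- a scalar
  obtain ⟨f₀, hf₀⟩ : ∃ f, l f = 1 := by
    set v : Pl (kerCyc p) := ⟨q₁, orb q₁ ((1 : GQ) : GQ ⧸ kerCyc p)⟩
    exact ⟨(l (Finsupp.single v 1))⁻¹ • Finsupp.single v 1, by
      rw [map_smul, smul_eq_mul, inv_mul_cancel₀ (glob_ker_ne_zero hp2 hG hl v)]⟩
  have key : ∀ f, l (T f) = l f * l (T f₀) := fun f => by
    have h : l (T (f - l f • f₀)) = 0 := LinearMap.mem_ker.1 (hTg (by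
      rw [hl, LinearMap.mem_ker, map_sub, map_smul, hf₀, smul_eq_mul, mul_one, sub_self]))
    rwa [map_sub, map_sub, map_smul, map_smul, smul_eq_mul, sub_eq_zero] at h
  have hF : ∀ q c, Fq hG l q (rgtq p q g c) = Fq hG l q c * l (T f₀) := fun q c => by
    show l (lcl hG q (rgtq p q g c)) = l (lcl hG q c) * l (T f₀)
    rw [← key, hT]
  -- the scalar is `1`
  have hinj : Function.Injective (sumq hG q₁) := by
    rw [injective_iff_map_eq_zero]
    intro d hd
    letI := Fintype.ofFinite (Orb q₁ (kerCyc p))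
    set O₁ := orb q₁ ((1 : GQ) : GQ ⧸ kerCyc p)
    have hd' : ∀ d', d' = coord hG q₁ d' O₁ • e2 hG O₁ := fun d' => by
      refine (eq_sum_e2 hG d').trans (Finset.sum_eq_single O₁ (fun O _ h => absurd (hq₁ O O₁) h) ?_)
      exact fun h => absurd (Finset.mem_univ _) h
    rw [hd' d] at hd ⊢
    rw [map_smul] at hd
    rcases smul_eq_zero.1 hd with h | h
    · rw [h, zero_smul]
    · obtain ⟨x, hx⟩ := exists_ne_zero_lH2_mu (p := p) q₁
      obtain ⟨y, hy⟩ := sumq_surjective hG q₁ x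
      exact absurd (by rw [← hy, hd' y, map_smul, h, smul_zero]) hx
  set O₁ := orb q₁ ((1 : GQ) : GQ ⧸ kerCyc p)
  have h1 := hF q₁ (e2 hG O₁)
  rw [hinj (sumq_rgtq q₁ g (e2 hG O₁))] at h1
  have hne : Fq hG l q₁ (e2 hG O₁) ≠ 0 := by
    rw [Fq_e2 hG l ⟨q₁, O₁⟩]
    exact glob_ker_ne_zero hp2 hG hl _
  rw [hF, (mul_eq_left₀ hne).1 h1.symm, mul_one]

variable (p) in
/-- the invariant attached to a functional on the families -/
def invF (l : (Pl (kerCyc p) →₀ ZMod p) →ₗ[ZMod p] ZMod p) (q : Nat.Primes) :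
    lH2 q (mu p) →ₗ[ZMod p] ZMod p :=
  -(Fq (openMu_kerCyc p) l q ∘ₗ constq p q)

theorem invF_sumq (hp2 : p ≠ 2) [NumberField ↥(Fld (kerCyc p))]
    {l : (Pl (kerCyc p) →₀ ZMod p) →ₗ[ZMod p] ZMod p}
    (hl : glob (openMu_kerCyc p) = LinearMap.ker l) (q : Nat.Primes)
    (c : lH2 q (ind (kerCyc p) (mu p))) :
    invF p l q (sumq (openMu_kerCyc p) q c) = Fq (openMu_kerCyc p) l q c := by
  haveI := (openMu_kerCyc p).finite
  letI := Fintype.ofFinite (GQ ⧸ kerCyc p)
  rw [invF, LinearMap.neg_apply, LinearMap.comp_apply, constq_sumq, map_sum,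
    Finset.sum_congr rfl fun z _ => Fq_rgtq hp2 hl q z.out c, Finset.sum_const, Finset.card_univ,
    ← Nat.card_eq_fintype_card, nsmul_eq_mul, card_kerCyc, neg_one_mul, neg_neg]

theorem bijective_invF (hp2 : p ≠ 2) [NumberField ↥(Fld (kerCyc p))]
    {l : (Pl (kerCyc p) →₀ ZMod p) →ₗ[ZMod p] ZMod p}
    (hl : glob (openMu_kerCyc p) = LinearMap.ker l) (q : Nat.Primes) :
    Function.Bijective (invF p l q) := by
  haveI := Module.finite_of_finrank_eq_succ (finrank_lH2_mu (p := p) q)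
  set O := orb q ((1 : GQ) : GQ ⧸ kerCyc p)
  have hne : invF p l q (sumq (openMu_kerCyc p) q (e2 (openMu_kerCyc p) O)) ≠ 0 := by
    rw [invF_sumq hp2 hl, Fq_e2 _ l ⟨q, O⟩]
    exact glob_ker_ne_zero hp2 _ hl _
  have hs : Function.Surjective (invF p l q) := fun t =>
    ⟨(t * (invF p l q (sumq (openMu_kerCyc p) q (e2 (openMu_kerCyc p) O)))⁻¹) •
      sumq (openMu_kerCyc p) q (e2 (openMu_kerCyc p) O), by
      rw [map_smul, smul_eq_mul, inv_mul_cancel_right₀ hne]⟩
  exact ⟨(LinearMap.injective_iff_surjective_of_finrank_eq_finrank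
    (by rw [finrank_lH2_mu, Module.finrank_self])).2 hs, hs⟩

/-- the reciprocity package -/
theorem nonempty_recip (hp2 : p ≠ 2) : Nonempty (Recip p) := by
  have hG := openMu_kerCyc p
  haveI := hG.opn.numberField
  haveI := hG.finite
  obtain ⟨l, -, hl⟩ := exists_glob_ker hp2 hG
  let ηG := h2push (MonoidHom.id GQ) (A := mu p) (B := ind (kerCyc p) (mu p))
    (indConst (kerCyc p) (mu p)) fun _ _ => rfl
  have hη : ∀ q c, res2 q _ (ηG c) = constq p q (res2 q _ c) := fun q c => res2_push_nat _ _ q c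
  let εG := h2push (MonoidHom.id GQ) (A := ind (kerCyc p) (mu p)) (B := mu p)
    (indSum (kerCyc p) (mu p)) indSum_eqv_mu
  have hε : ∀ q c, res2 q _ (εG c) = sumq hG q (res2 q _ c) := fun q c => res2_push_nat _ _ q c
  refine ⟨{ inv := fun q => LinearEquiv.ofBijective (invF p l q) (bijective_invF hp2 hl q)
            finite_support := fun c => finite_res2 (isAdm_mu p) c
            sum_zero := fun c => ?_
            exists_of_sum_zero := fun b hb hsum => ?_
            injective := fun c hc => ?_ }⟩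
  · show ∑ᶠ q, invF p l q (res2 q _ c) = 0
    have h := sum_Fq_res2 hG hl.le (-ηG c)
    refine Eq.trans (finsum_congr fun q => ?_) h
    rw [map_neg, hη, map_neg]
    rfl
  · obtain ⟨c, hc⟩ := exists_of_family hG hl.ge (fun q => -constq p q (b q))
      (hb.subset fun q hq h => hq (by show -constq p q (b q) = 0; rw [h, map_zero, neg_zero]))
      (Eq.trans (finsum_congr fun q => by rw [map_neg]; rfl) hsum)
    exact ⟨εG c, fun q => by rw [hε, hc, map_neg, sumq_constq, neg_neg]⟩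
  · have h0 : ηG c = 0 := hasse hp2 hG _ fun q => by rw [hη, hc, map_zero]
    have h1 : εG (ηG c) = -c := by
      obtain ⟨z, rfl⟩ := Submodule.mkQ_surjective _ c
      rw [← map_neg]
      refine congrArg (h2mk _ _) (Subtype.ext (funext fun g => ?_))
      letI := Fintype.ofFinite (GQ ⧸ kerCyc p)
      show ∑ _x : GQ ⧸ kerCyc p, (z.1 g : ZMod p) = -(z.1 g : ZMod p)
      rw [Finset.sum_const, Finset.card_univ, ← Nat.card_eq_fintype_card, nsmul_eq_mul,
        card_kerCyc, neg_one_mul]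
    rwa [h0, map_zero, eq_comm, neg_eq_zero] at h1

end Base

end FLTAgent.PT
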