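import Fermat.Agent.PT.Global.NormIndex

/-!
The second inequality through auxiliary places, and the norm theorem: a symbol that vanishes
everywhere locally vanishes.
-/

set_option autoImplicit false
set_option linter.unusedSectionVars false
set_option linter.style.haveILetI false
set_option maxHeartbeats 1000000
set_option synthInstance.maxHeartbeats 200000

noncomputable section

open CategoryTheory groupCohomology IntermediateField

namespace FLTAgent.PT

variable {p : ℕ} [Fact p.Prime] {H : Subgroup GQ}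

/-- the symbols with `a` at some places -/
def theta (hG : OpenMu p H) (a : G1 p H) (S : Finset (Pl H)) :
    G1 p H →ₗ[ZMod p] (↥S → ZMod p) :=
  LinearMap.pi fun v => Finsupp.lapply v.1 ∘ₗ loc2 hG ∘ₗ (sym hG).flip a

theorem theta_apply (hG : OpenMu p H) (a b : G1 p H) (S : Finset (Pl H)) (v : ↥S) :
    theta hG a S b v = loc2 hG (sym hG b a) v.1 := rfl

/-- rank and nullity on a subspace -/
theorem finrank_map_add_inf {V W : Type*} [AddCommGroup V] [Module (ZMod p) V] [AddCommGroup W]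
    [Module (ZMod p) W] (S : Submodule (ZMod p) V) [FiniteDimensional (ZMod p) S]
    (f : V →ₗ[ZMod p] W) :
    Module.finrank (ZMod p) (S.map f) + Module.finrank (ZMod p) (S ⊓ LinearMap.ker f : Submodule _ _) =
      Module.finrank (ZMod p) S := by
  have h := LinearMap.finrank_range_add_finrank_ker (f.domRestrict S)
  have h1 : LinearMap.range (f.domRestrict S) = S.map f := LinearMap.range_domRestrict S f
  have h2 : Submodule.map S.subtype (LinearMap.ker (f.domRestrict S)) = S ⊓ LinearMap.ker f := by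
    rw [LinearMap.ker_domRestrict, Submodule.map_comap_subtype]
  rw [← h1, ← h2, Submodule.finrank_map_subtype_eq]
  exact h

open Classical in
theorem first_ineq [NumberField ↥(Fld H)] (hp2 : p ≠ 2) (hG : OpenMu p H) {a : G1 p H}
    (ha : a ≠ 0) {T : Finset (Pl H)} (hT : Adm hG a T) :
    Module.finrank (ZMod p) ((KT hG T).map (theta hG a (T.filter fun v => evP hG v a ≠ 0))) + 1 ≤
      (T.filter fun v => evP hG v a ≠ 0).card := by
  haveI := finite_KT hp2 hG T
  obtain ⟨N, hN, hN0, hd⟩ := exists_normClasses hp2 hG ha hT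
  have hle : N ≤ KT hG T ⊓ LinearMap.ker (theta hG a (T.filter fun v => evP hG v a ≠ 0)) :=
    le_inf hN fun b hb => LinearMap.mem_ker.2 (funext fun v => by
      rw [theta_apply, hN0 b hb, map_zero]; rfl)
  haveI : Finite ↥(KT hG T ⊓ LinearMap.ker (theta hG a (T.filter fun v => evP hG v a ≠ 0))) :=
    Finite.of_injective _ (Submodule.inclusion_injective inf_le_left)
  have h1 := Submodule.finrank_mono hle
  have h2 := finrank_map_add_inf (KT hG T) (theta hG a (T.filter fun v => evP hG v a ≠ 0))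
  omega

variable [NumberField ↥(Fld H)]

theorem unrO_of_KT {hG : OpenMu p H} {T₀ : Finset Nat.Primes} (h₀ : GoodT hG T₀)
    {S : Finset (Pl H)} {b : G1 p H} (hb : b ∈ KT hG S) {v : Pl H} (hv : v ∉ S)
    (hv₀ : v.1 ∉ T₀) : UnrO v.1 v.2 (res1 v.1 _ b) := by
  obtain ⟨y, hy, rfl⟩ := mem_KT.1 hb
  rw [unrO_kappa_iff hG (h₀.unr _ hv₀) (h₀.ne_p hv₀), ordAt_eq_ord,
    show orb v.1 v.2.out = v.2 from v.2.out_eq', hy v hv]
  exact dvd_zero _

theorem loc2_sym_eq_zero_of_KT {hG : OpenMu p H} {T₀ : Finset Nat.Primes} (h₀ : GoodT hG T₀)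
    {S : Finset (Pl H)} {a b : G1 p H} (ha : a ∈ KT hG S) (hb : b ∈ KT hG S) {v : Pl H}
    (hv : v ∉ S) (hv₀ : v.1 ∉ T₀) : loc2 hG (sym hG a b) v = 0 := by
  rw [loc2_sym]
  exact coord_unr_eq_zero hG (h₀.unr _ hv₀) (unrO_of_KT h₀ ha hv hv₀) (unrO_of_KT h₀ hb hv hv₀)

theorem unrO_of_KT' {hG : OpenMu p H} {T₀ : Finset Nat.Primes} (h₀ : GoodT hG T₀)
    {S : Finset (Pl H)} {b : G1 p H} (hb : b ∈ KT hG S) (q : Nat.Primes) (O : Orb q H)
    (hv : (⟨q, O⟩ : Pl H) ∉ S) (hv₀ : q ∉ T₀) : UnrO q O (res1 q _ b) :=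
  unrO_of_KT (v := ⟨q, O⟩) h₀ hb hv hv₀

theorem exists_sep_base (hG : OpenMu p H) {a u : G1 p H} (ha : a ≠ 0)
    (hu : u ∉ Submodule.span (ZMod p) {a}) : ∃ h : H, base hG a h = 0 ∧ base hG u h ≠ 0 := by
  by_contra! hno
  obtain ⟨h0, hh0⟩ := exists_base_eq_one hG ha
  refine hu (Submodule.mem_span_singleton.2 ⟨base hG u h0, base_injective hG (funext fun h => ?_)⟩)
  have e := hno (h * (h0 ^ (base hG a h).val)⁻¹) (by
    rw [base_mul, base_inv, base_h0_pow hh0, add_neg_cancel])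
  rw [base_mul, base_inv, base_pow, ZMod.natCast_zmod_val, ← sub_eq_add_neg, sub_eq_zero] at e
  rw [map_smul, Pi.smul_apply, smul_eq_mul, e, mul_comm]

theorem split_at_orbit (hG : OpenMu p H) {q : Nat.Primes} (hu : UnrFld q H) (hq : (q : ℕ) ≠ p)
    {x : GQ ⧸ H} (γ : stq q x) {A B : lH1 q (ind H (mu p))} (hA : UnrO q (orb q x) A)
    (hB : UnrO q (orb q x) B) (hA0 : ev1 hG q x A γ = 0) (hB0 : ev1 hG q x B γ ≠ 0) :
    ev1 hG q (orb q x).out A = 0 ∧ ev1 hG q (orb q x).out B ≠ 0 := by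
  refine ⟨by_contra fun hne => ?_, fun h => hB0 (congrFun (ev1_eq_zero_of_out hG h) γ)⟩
  obtain ⟨c, hc⟩ := exists_smul_eq_proj1 hG hu hq hB hA hne
  have h' : ev1 hG q x (B - c • A) = 0 :=
    ev1_eq_zero_of_out hG (by rw [map_sub, map_smul]; exact sub_eq_zero.2 hc)
  have e := congrFun h' γ
  rw [map_sub, map_smul, Pi.sub_apply, Pi.smul_apply, hA0, smul_zero, sub_zero] at e
  exact hB0 e

/-- a place outside a good set split for `a` and not for `u` -/
theorem exists_aux_place (hG : OpenMu p H) {T₀ : Finset Nat.Primes} (h₀ : GoodT hG T₀)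
    {a u : G1 p H} (ha : a ≠ 0) (haT : a ∈ KT hG (plT hG T₀)) (huT : u ∈ KT hG (plT hG T₀))
    (hu : u ∉ Submodule.span (ZMod p) {a}) :
    ∃ w : Pl H, w.1 ∉ T₀ ∧ evP hG w a = 0 ∧ evP hG w u ≠ 0 := by
  obtain ⟨h, hha, hhu⟩ := exists_sep_base hG ha hu
  obtain ⟨F, hF, hle⟩ := hG.opn
  obtain ⟨Ea, hEa, hla⟩ := base_level hG a
  obtain ⟨Eu, hEu, hlu⟩ := base_level hG u
  haveI := hF; haveI := hEa; haveI := hEu
  obtain ⟨q, hq, g, γ, hev⟩ := exists_frob_place hG (F ⊔ (Ea ⊔ Eu))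
    (fun s hs => hle (by simpa using IntermediateField.fixingSubgroup_antitone le_sup_left hs))
    T₀ h.2
  have hua := hev u fun s hs => hlu s (IntermediateField.fixingSubgroup_antitone
    (le_sup_right.trans le_sup_right) hs)
  have haa := hev a fun s hs => hla s (IntermediateField.fixingSubgroup_antitone
    (le_sup_left.trans le_sup_right) hs)
  rw [show (⟨(h : GQ), h.2⟩ : H) = h from rfl] at hua haa
  rw [hha, mul_zero] at haa
  have hw : (⟨q, orb q (g : GQ ⧸ H)⟩ : Pl H) ∉ plT hG T₀ := fun h' => hq (mem_plT.1 h')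
  obtain ⟨h1, h2⟩ := split_at_orbit hG (h₀.unr q hq) (h₀.ne_p hq) γ
    (unrO_of_KT' h₀ haT q _ hw hq) (unrO_of_KT' h₀ huT q _ hw hq) haa
    (by rw [hua]; exact mul_ne_zero (Units.ne_zero _) hhu)
  exact ⟨⟨q, orb q (g : GQ ⧸ H)⟩, hq, h1, h2⟩

theorem exists_aux_finset (hp2 : p ≠ 2) (hG : OpenMu p H) {T₀ : Finset Nat.Primes}
    (h₀ : GoodT hG T₀) {a : G1 p H} (ha : a ≠ 0) (haT : a ∈ KT hG (plT hG T₀)) :
    ∃ W : Finset (Pl H), (∀ w ∈ W, w.1 ∉ T₀ ∧ evP hG w a = 0) ∧
      (∀ u ∈ KT hG (plT hG T₀), (∀ w ∈ W, evP hG w u = 0) → u ∈ Submodule.span (ZMod p) {a}) ∧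
      W.card + 1 ≤ Module.finrank (ZMod p) (KT hG (plT hG T₀)) := by
  classical
  set S := KT hG (plT hG T₀)
  haveI := finite_KT hp2 hG (plT hG T₀)
  let K : Finset (Pl H) → Submodule (ZMod p) (G1 p H) := fun W =>
    S ⊓ ⨅ w ∈ W, LinearMap.ker (evP hG w)
  have hmemK : ∀ W u, u ∈ K W ↔ u ∈ S ∧ ∀ w ∈ W, evP hG w u = 0 := fun W u => by
    simp [K, Submodule.mem_iInf]
  have hfinK : ∀ W, Finite (K W) := fun W =>
    Finite.of_injective _ (Submodule.inclusion_injective (inf_le_left : K W ≤ S))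
  suffices H' : ∀ n (W : Finset (Pl H)), Module.finrank (ZMod p) (K W) ≤ n →
      (∀ w ∈ W, w.1 ∉ T₀ ∧ evP hG w a = 0) →
      W.card + Module.finrank (ZMod p) (K W) ≤ Module.finrank (ZMod p) S →
      ∃ W : Finset (Pl H), (∀ w ∈ W, w.1 ∉ T₀ ∧ evP hG w a = 0) ∧
        (∀ u ∈ S, (∀ w ∈ W, evP hG w u = 0) → u ∈ Submodule.span (ZMod p) {a}) ∧
        W.card + 1 ≤ Module.finrank (ZMod p) S by
    refine H' _ ∅ le_rfl (by simp) ?_
    rw [Finset.card_empty, zero_add]
    exact Submodule.finrank_mono inf_le_left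
  intro n
  induction n with
  | zero =>
    intro W hW hWa _
    haveI := hfinK W
    have hK : K W = ⊥ := Submodule.finrank_eq_zero.1 (Nat.le_zero.1 hW)
    exact absurd ((Submodule.mem_bot _).1 (hK ▸ (hmemK W a).2 ⟨haT, fun w hw => (hWa w hw).2⟩)) ha
  | succ n ih =>
    intro W hW hWa hc
    haveI := hfinK W
    by_cases hspan : K W ≤ Submodule.span (ZMod p) {a}
    · refine ⟨W, hWa, fun u hu h => hspan ((hmemK W u).2 ⟨hu, h⟩), ?_⟩
      have h1 : 1 ≤ Module.finrank (ZMod p) (K W) := by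
        rw [← finrank_span_singleton (K := ZMod p) ha]
        exact Submodule.finrank_mono ((Submodule.span_singleton_le_iff_mem _ _).2
          ((hmemK W a).2 ⟨haT, fun w hw => (hWa w hw).2⟩))
      omega
    · obtain ⟨u, hu, hua⟩ := SetLike.not_le_iff_exists.1 hspan
      obtain ⟨huS, huW⟩ := (hmemK W u).1 hu
      obtain ⟨w, hw, hwa, hwu⟩ := exists_aux_place hG h₀ ha haT huS hua
      have hlt : Module.finrank (ZMod p) (K (insert w W)) < Module.finrank (ZMod p) (K W) := by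
        refine Submodule.finrank_lt_finrank_of_lt (lt_of_le_of_ne (fun x hx => ?_) fun he => ?_)
        · obtain ⟨h1, h2⟩ := (hmemK _ x).1 hx
          exact (hmemK _ x).2 ⟨h1, fun v hv => h2 v (Finset.mem_insert_of_mem hv)⟩
        · exact hwu (((hmemK _ u).1 (he ▸ hu)).2 w (Finset.mem_insert_self _ _))
      refine ih (insert w W) (by omega) (fun v hv => ?_) ?_
      · rcases Finset.mem_insert.1 hv with rfl | hv
        · exact ⟨hw, hwa⟩
        · exact hWa v hv
      · have := Finset.card_insert_le w W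
        omega

omit [NumberField ↥(Fld H)] in
/-- `ind H 𝔽_p ≅ ind H μ_p` -/
theorem finrank_lH1_indMu (hG : OpenMu p H) (q : Nat.Primes) :
    Module.finrank (ZMod p) (lH1 q (ind H (mu p))) =
      2 * orbitCount q H + if (q : ℕ) = p then H.index else 0 := by
  rw [← finrank_lH1_perm q hG.opn hG.triv]
  let f : ind H (one p) →ₗ[ZMod p] ind H (mu p) :=
    { toFun := fun f x => (omegaC p x : ZMod p) * (f x : ZMod p)
      map_add' := fun f g => funext fun x => mul_add (omegaC p x : ZMod p) (f x : ZMod p) (g x : ZMod p)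
      map_smul' := fun c f => funext fun x => mul_left_comm (omegaC p x : ZMod p) c (f x : ZMod p) }
  let g : ind H (mu p) →ₗ[ZMod p] ind H (one p) :=
    { toFun := fun f x => (((omegaC p x)⁻¹ : (ZMod p)ˣ) : ZMod p) * (f x : ZMod p)
      map_add' := fun f g => funext fun x => mul_add (((omegaC p x)⁻¹ : (ZMod p)ˣ) : ZMod p) (f x : ZMod p) (g x : ZMod p)
      map_smul' := fun c f => funext fun x => mul_left_comm (((omegaC p x)⁻¹ : (ZMod p)ˣ) : ZMod p) c (f x : ZMod p) }
  have hf : ∀ γ v, f ((ind H (one p)).ρ γ v) = (ind H (mu p)).ρ γ (f v) := fun γ v => funext fun x => by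
    refine Eq.trans ?_ (rho_perm γ _ x).symm
    show (omegaC p x : ZMod p) * (v (γ⁻¹ • x) : ZMod p) =
      _ * ((omegaC p (γ⁻¹ • x) : ZMod p) * (v (γ⁻¹ • x) : ZMod p))
    rw [← mul_assoc, ← Units.val_mul, ← omegaC_smul hG, smul_inv_smul]
  have hgf : ∀ v, g (f v) = v := fun v => funext fun x => by
    show (((omegaC p x)⁻¹ : (ZMod p)ˣ) : ZMod p) * ((omegaC p x : ZMod p) * (v x : ZMod p)) = v x
    rw [← mul_assoc, ← Units.val_mul, inv_mul_cancel, Units.val_one, one_mul]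
  have hfg : ∀ v, f (g v) = v := fun v => funext fun x => by
    show (omegaC p x : ZMod p) * ((((omegaC p x)⁻¹ : (ZMod p)ˣ) : ZMod p) * (v x : ZMod p)) = v x
    rw [← mul_assoc, ← Units.val_mul, mul_inv_cancel, Units.val_one, one_mul]
  have hg : ∀ γ v, g ((ind H (mu p)).ρ γ v) = (ind H (one p)).ρ γ (g v) := fun γ v => by
    conv_lhs => rw [← hfg v, ← hf, hgf]
  refine (LinearEquiv.ofLinearMap
    (h1push (loc q) (A := Rep.res (loc q) (ind H (mu p))) (B := Rep.res (loc q) (ind H (one p)))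
      g fun γ => hg (loc q γ))
    (h1push (loc q) (A := Rep.res (loc q) (ind H (one p))) (B := Rep.res (loc q) (ind H (mu p)))
      f fun γ => hf (loc q γ)) ?_ ?_).finrank_eq
  · refine LinearMap.ext fun c => ?_
    obtain ⟨z, rfl⟩ := Submodule.mkQ_surjective _ c
    exact congrArg (h1mk _ _) (Subtype.ext (funext fun γ => hgf (z.1 γ)))
  · refine LinearMap.ext fun c => ?_
    obtain ⟨z, rfl⟩ := Submodule.mkQ_surjective _ c
    exact congrArg (h1mk _ _) (Subtype.ext (funext fun γ => hfg (z.1 γ)))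

/-- no class of the enlarged units is trivial at all places of `T₀` -/
theorem aux_injective (hp2 : p ≠ 2) (hG : OpenMu p H) {T₀ : Finset Nat.Primes} (h₀ : GoodT hG T₀)
    {a : G1 p H} (ha : a ≠ 0) {W : Finset (Pl H)}
    (hW : ∀ w ∈ W, w.1 ∉ T₀ ∧ evP hG w a = 0)
    (hker : ∀ u ∈ KT hG (plT hG T₀), (∀ w ∈ W, evP hG w u = 0) → u ∈ Submodule.span (ZMod p) {a})
    (hcard : W.card + 1 ≤ Module.finrank (ZMod p) (KT hG (plT hG T₀)))
    [DecidableEq (Pl H)] {b : G1 p H} (hb : b ∈ KT hG (plT hG T₀ ∪ W))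
    (hres : ∀ q ∈ T₀, res1 q _ b = 0) : b = 0 := by
  classical
  by_contra hb0
  set T := plT hG T₀
  set T₁ := T ∪ W
  haveI := finite_KT hp2 hG T
  have hS : ∀ v ∈ T, evP hG v b = 0 := fun v hv => by
    show ev1 hG v.1 v.2.out (res1 v.1 _ b) = 0
    rw [hres v.1 (mem_plT.1 hv), map_zero]
  set S := T₁.filter fun v => evP hG v b ≠ 0
  have hSW : ∀ v ∈ S, v ∈ W := fun v hv => by
    obtain ⟨h1, h2⟩ := Finset.mem_filter.1 hv
    exact (Finset.mem_union.1 h1).resolve_left fun h => h2 (hS v h)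
  -- a ramified class at each auxiliary place
  choose β hβ using fun w : ↥W =>
    exists_not_unrO hG (h₀.unr _ (hW w.1 w.2).1) (h₀.ne_p (hW w.1 w.2).1) w.1.2
  let Φ : G1 p H →ₗ[ZMod p] (↥W → ZMod p) :=
    LinearMap.pi fun w => LinearMap.proj w.1.2 ∘ₗ coord hG w.1.1 ∘ₗ symq hG w.1.1 (β w) ∘ₗ
      res1 w.1.1 _
  have hΦ : ∀ (w : ↥W) (u : G1 p H), u ∈ KT hG T → (Φ u w = 0 ↔ evP hG w.1 u = 0) := by
    intro w u hu
    have hw := (hW w.1 w.2).1
    refine ⟨fun h => ?_, fun h => coord_symq_right hG _ _ h⟩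
    by_contra h'
    exact coord_ram_unr_ne_zero hG (h₀.unr _ hw) (h₀.ne_p hw)
      (unrO_of_KT h₀ hu (fun h'' => hw (mem_plT.1 h'')) hw) h' (hβ w) h
  have hsurj : ∀ t : ↥W → ZMod p, ∃ u ∈ KT hG T, Φ u = t := by
    have h1 := finrank_map_add_inf (KT hG T) Φ
    have h2 : Module.finrank (ZMod p) (KT hG T ⊓ LinearMap.ker Φ : Submodule _ _) ≤ 1 := by
      refine le_trans (Submodule.finrank_mono (t := Submodule.span (ZMod p) {a}) fun u hu => ?_)
        (le_of_eq (finrank_span_singleton ha))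
      obtain ⟨huT, hu0⟩ := Submodule.mem_inf.1 hu
      exact hker u huT fun w hw =>
        (hΦ ⟨w, hw⟩ u huT).1 (congrFun (LinearMap.mem_ker.1 hu0) _)
    have h3 : Module.finrank (ZMod p) ((KT hG T).map Φ) = Module.finrank (ZMod p) (↥W → ZMod p) :=
      le_antisymm (Submodule.finrank_le _) (by
        rw [Module.finrank_pi, Fintype.card_coe]; omega)
    intro t
    have ht : t ∈ (KT hG T).map Φ := by rw [Submodule.eq_top_of_finrank_eq h3]; trivial
    exact ht
  have hadm : Adm hG b T₁ := ⟨hb, T₀, h₀, Finset.subset_union_left⟩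
  have hfi := first_ineq hp2 hG hb0 hadm
  set R := (KT hG T₁).map (theta hG b S)
  have hmemR : ∀ u ∈ KT hG T₁, theta hG b S u ∈ R := fun u hu => Submodule.mem_map_of_mem hu
  -- the ramified places
  have hram : ∀ v : ↥S, ¬UnrO v.1.1 v.1.2 (res1 v.1.1 _ b) → (Pi.single v 1 : ↥S → ZMod p) ∈ R := by
    intro v hv
    set w : ↥W := ⟨v.1, hSW v.1 v.2⟩
    obtain ⟨u, hu, hut⟩ := hsurj (Pi.single w 1)
    have hne : evP hG v.1 u ≠ 0 := fun h => by
      have := congrFun hut w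
      rw [(hΦ w u hu).2 h, Pi.single_eq_same] at this
      exact zero_ne_one this
    have hother : ∀ v' : ↥S, v' ≠ v → theta hG b S u v' = 0 := fun v' hv' => by
      refine loc2_sym_left hG b ((hΦ ⟨v'.1, hSW v'.1 v'.2⟩ u hu).1 ?_)
      rw [hut, Pi.single_eq_of_ne]
      exact fun h => hv' (Subtype.ext (congrArg (fun x : ↥W => x.1) h))
    have hvv : theta hG b S u v ≠ 0 := by
      have hw := (hW v.1 (hSW v.1 v.2)).1
      rw [theta_apply, loc2_sym, symq_skew, map_neg, Pi.neg_apply, neg_ne_zero]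
      exact coord_ram_unr_ne_zero hG (h₀.unr _ hw) (h₀.ne_p hw)
        (unrO_of_KT h₀ hu (fun h'' => hw (mem_plT.1 h'')) hw) hne hv
    have e : theta hG b S u = theta hG b S u v • (Pi.single v 1 : ↥S → ZMod p) := funext fun v' => by
      rcases eq_or_ne v' v with rfl | h
      · simp
      · simp [hother v' h, h]
    have hm : theta hG b S u v • (Pi.single v 1 : ↥S → ZMod p) ∈ R :=
      e ▸ hmemR u (KT_mono hG Finset.subset_union_left hu)
    have := R.smul_mem (theta hG b S u v)⁻¹ hm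
    rwa [smul_smul, inv_mul_cancel₀ hvv, one_smul] at this
  have hall : ∀ v : ↥S, (Pi.single v 1 : ↥S → ZMod p) ∈ R := by
    intro v
    by_cases hv : UnrO v.1.1 v.1.2 (res1 v.1.1 _ b)
    swap
    · exact hram v hv
    have hw := (hW v.1 (hSW v.1 v.2)).1
    obtain ⟨y, hy⟩ := h₀.exists_ord (Finsupp.single v.1 1)
    set z := kappa hG (Additive.ofMul y)
    have hz : z ∈ KT hG T₁ := mem_KT.2 ⟨y, fun u hu => by
      have hu' : u ∉ T := fun h => hu (Finset.mem_union_left _ h)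
      rw [hy u fun h => hu' (mem_plT.2 h), Finsupp.single_apply, if_neg]
      rintro rfl
      exact hu (Finset.mem_union_right _ (hSW _ v.2)), rfl⟩
    have hvv : theta hG b S z v ≠ 0 := by
      rw [theta_apply, loc2_sym]
      refine coord_ram_unr_ne_zero hG (h₀.unr _ hw) (h₀.ne_p hw) hv (Finset.mem_filter.1 v.2).2 ?_
      rw [unrO_kappa_iff hG (h₀.unr _ hw) (h₀.ne_p hw), ordAt_eq_ord,
        show orb v.1.1 v.1.2.out = v.1.2 from v.1.2.out_eq', hy _ hw, Finsupp.single_eq_same]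
      exact fun h => (Fact.out : p.Prime).one_lt.ne' (Nat.dvd_one.1 (Int.natCast_dvd_natCast.1 h))
    have hrest : theta hG b S z - theta hG b S z v • (Pi.single v 1 : ↥S → ZMod p) ∈ R := by
      rw [pi_eq_sum_univ' (theta hG b S z - _)]
      refine sum_mem fun v' _ => ?_
      rcases eq_or_ne v' v with rfl | h
      · simp
      by_cases hv' : UnrO v'.1.1 v'.1.2 (res1 v'.1.1 _ b)
      swap
      · exact R.smul_mem _ (hram v' hv')
      have hw' := (hW v'.1 (hSW v'.1 v'.2)).1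
      have h0 : theta hG b S z v' = 0 := by
        rw [theta_apply, loc2_sym]
        refine coord_unr_eq_zero hG (h₀.unr _ hw') ?_ hv'
        rw [unrO_kappa_iff hG (h₀.unr _ hw') (h₀.ne_p hw'), ordAt_eq_ord,
          show orb v'.1.1 v'.1.2.out = v'.1.2 from v'.1.2.out_eq', hy _ hw', Finsupp.single_apply,
          if_neg fun e => h (Subtype.ext e.symm)]
        exact dvd_zero _
      simp [h0, h]
    have h1 : theta hG b S z v • (Pi.single v 1 : ↥S → ZMod p) ∈ R := by
      have := R.sub_mem (hmemR z hz) hrest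
      rwa [sub_sub_cancel] at this
    have := R.smul_mem (theta hG b S z v)⁻¹ h1
    rwa [smul_smul, inv_mul_cancel₀ hvv, one_smul] at this
  have htop : R = ⊤ := eq_top_iff.2 fun f _ => by
    rw [pi_eq_sum_univ' f]
    exact sum_mem fun v _ => R.smul_mem _ (hall v)
  have hdim : Module.finrank (ZMod p) R = S.card := by
    rw [htop, finrank_top, Module.finrank_pi, Fintype.card_coe]
  have : Module.finrank (ZMod p) R + 1 ≤ S.card := hfi
  omega

theorem finrank_locals (hG : OpenMu p H) {T₀ : Finset Nat.Primes} (hp : pP p ∈ T₀) :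
    Module.finrank (ZMod p) (∀ q : ↥T₀, lH1 q.1 (ind H (mu p))) =
      2 * (plT hG T₀).card + H.index := by
  haveI : ∀ q : ↥T₀, Module.Finite (ZMod p) (lH1 q.1 (ind H (mu p))) := fun q =>
    finite_lH1 q.1 hG.adm
  haveI : ∀ q : ↥T₀, Module.Free (ZMod p) (lH1 q.1 (ind H (mu p))) := fun q =>
    Module.Free.of_divisionRing _ _
  rw [Module.finrank_pi_fintype]
  simp only [finrank_lH1_indMu hG]
  rw [Finset.univ_eq_attach,
    Finset.sum_attach T₀ (fun q => 2 * orbitCount q H + if (q : ℕ) = p then H.index else 0),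
    Finset.sum_add_distrib, ← Finset.mul_sum, ← card_plT hG,
    Finset.sum_eq_single_of_mem (f := fun q : Nat.Primes => if (q : ℕ) = p then H.index else 0)
      (pP p) hp fun q _ hq => if_neg fun e => hq (Subtype.ext e)]
  simp [pP]

/-- the symbols of a subspace detected at `T₀` -/
theorem local_ineq (hG : OpenMu p H) {T₀ : Finset Nat.Primes} (hp : pP p ∈ T₀) (a : G1 p H)
    {S : Finset (Pl H)} (hS : ∀ v ∈ S, v.1 ∈ T₀ ∧ evP hG v a ≠ 0) (V : Submodule (ZMod p) (G1 p H))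
    [Finite V] (hV : ∀ b ∈ V, (∀ q ∈ T₀, res1 q _ b = 0) → b = 0) :
    Module.finrank (ZMod p) V + S.card ≤
      Module.finrank (ZMod p) (V.map (theta hG a S)) + (2 * (plT hG T₀).card + H.index) := by
  classical
  rw [← finrank_locals hG hp]
  haveI : ∀ q : ↥T₀, Module.Finite (ZMod p) (lH1 q.1 (ind H (mu p))) := fun q =>
    finite_lH1 q.1 hG.adm
  haveI : ∀ q : ↥T₀, Module.Free (ZMod p) (lH1 q.1 (ind H (mu p))) := fun q =>
    Module.Free.of_divisionRing _ _
  let L : (∀ q : ↥T₀, lH1 q.1 (ind H (mu p))) →ₗ[ZMod p] (↥S → ZMod p) :=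
    LinearMap.pi fun v => LinearMap.proj v.1.2 ∘ₗ coord hG v.1.1 ∘ₗ
      (symq hG v.1.1).flip (res1 v.1.1 _ a) ∘ₗ
        LinearMap.proj (R := ZMod p) (φ := fun q : ↥T₀ => lH1 q.1 (ind H (mu p)))
          ⟨v.1.1, (hS v.1 v.2).1⟩
  have hLsurj : ∀ v : ↥S, ∃ x, L x = Pi.single v 1 := by
    intro v
    obtain ⟨b, hb, hb'⟩ := exists_coord_single hG v.1.2 (a := res1 v.1.1 _ a) (hS v.1 v.2).2
    set qv : ↥T₀ := ⟨v.1.1, (hS v.1 v.2).1⟩
    set c := coord hG v.1.1 (symq hG v.1.1 b (res1 v.1.1 _ a)) v.1.2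
    have hc : c ≠ 0 := fun h => hb (by rw [symq_skew, map_neg, Pi.neg_apply]; simpa [c] using h)
    refine ⟨c⁻¹ • Pi.single (M := fun q : ↥T₀ => lH1 q.1 (ind H (mu p))) qv b, ?_⟩
    rw [map_smul]
    funext v'
    show c⁻¹ * coord hG v'.1.1 (symq hG v'.1.1
      ((Pi.single (M := fun q : ↥T₀ => lH1 q.1 (ind H (mu p))) qv b) ⟨v'.1.1, _⟩)
      (res1 v'.1.1 _ a)) v'.1.2 = _
    rcases eq_or_ne v' v with rfl | hne
    · rw [Pi.single_eq_same, Pi.single_eq_same]
      exact inv_mul_cancel₀ hc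
    · rw [Pi.single_eq_of_ne (M := fun _ : ↥S => ZMod p) hne]
      obtain ⟨⟨q', O'⟩, hv'⟩ := v'
      by_cases hq : q' = v.1.1
      · subst hq
        rw [Pi.single_eq_same, coord_symq_left hG O' (hb' O' fun e => hne
          (Subtype.ext (Sigma.ext rfl (heq_of_eq e)))), mul_zero]
      · rw [Pi.single_eq_of_ne (fun e => hq (congrArg Subtype.val e)), map_zero,
          LinearMap.zero_apply, map_zero, Pi.zero_apply, mul_zero]
  let e := (Module.Free.chooseBasis (ZMod p) (∀ q : ↥T₀, lH1 q.1 (ind H (mu p)))).equivFun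
  let ρ : G1 p H →ₗ[ZMod p] (Module.Free.ChooseBasisIndex (ZMod p)
      (∀ q : ↥T₀, lH1 q.1 (ind H (mu p))) → ZMod p) :=
    e.toLinearMap ∘ₗ LinearMap.pi fun q => res1 q.1 _
  let L' := L ∘ₗ e.symm.toLinearMap
  have hρ : V ⊓ LinearMap.ker ρ = ⊥ := by
    rw [eq_bot_iff]
    intro b hb
    obtain ⟨hbV, hb0⟩ := Submodule.mem_inf.1 hb
    exact hV b hbV fun q hq => congrFun (e.map_eq_zero_iff.1 (LinearMap.mem_ker.1 hb0))
      (⟨q, hq⟩ : ↥T₀)
  have hL' : LinearMap.range L' = ⊤ := by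
    rw [eq_top_iff]
    rintro f -
    rw [pi_eq_sum_univ' f]
    refine sum_mem fun v _ => Submodule.smul_mem _ _ ?_
    obtain ⟨x, hx⟩ := hLsurj v
    exact ⟨e x, (congrArg L (e.symm_apply_apply x)).trans hx⟩
  have hVdim : Module.finrank (ZMod p) (V.map ρ) = Module.finrank (ZMod p) V := by
    have := finrank_map_add_inf V ρ
    rw [hρ, finrank_bot] at this
    simpa using this
  have hmap : V.map (theta hG a S) = (V.map ρ).map L' := by
    rw [← Submodule.map_comp]
    refine congrArg (fun f => V.map f) (LinearMap.ext fun b => funext fun v => ?_)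
    show theta hG a S b v = L (e.symm (e fun q => res1 q.1 _ b)) v
    rw [e.symm_apply_apply]
    exact loc2_sym hG b a v.1
  rw [hmap]
  have h1 := finrank_map_add_inf (V.map ρ) L'
  have h2 := Submodule.finrank_mono (s := V.map ρ ⊓ LinearMap.ker L')
    (t := LinearMap.ker L') inf_le_right
  have h3 := LinearMap.finrank_range_add_finrank_ker L'
  rw [hL', finrank_top, Module.finrank_pi, Fintype.card_coe, Module.finrank_pi] at h3
  have h4 := Module.finrank_eq_card_chooseBasisIndex (ZMod p)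
    (∀ q : ↥T₀, lH1 q.1 (ind H (mu p)))
  omega

theorem le_card_aux (hp2 : p ≠ 2) (hG : OpenMu p H) {T₀ : Finset Nat.Primes} (h₀ : GoodT hG T₀)
    {a : G1 p H} (ha : a ≠ 0) {W : Finset (Pl H)} (hW : ∀ w ∈ W, w.1 ∉ T₀)
    (hker : ∀ u ∈ KT hG (plT hG T₀), (∀ w ∈ W, evP hG w u = 0) →
      u ∈ Submodule.span (ZMod p) {a}) :
    Module.finrank (ZMod p) (KT hG (plT hG T₀)) ≤ W.card + 1 := by
  classical
  choose β hβ using fun w : ↥W =>
    exists_not_unrO hG (h₀.unr _ (hW w.1 w.2)) (h₀.ne_p (hW w.1 w.2)) w.1.2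
  let Φ : G1 p H →ₗ[ZMod p] (↥W → ZMod p) :=
    LinearMap.pi fun w => LinearMap.proj w.1.2 ∘ₗ coord hG w.1.1 ∘ₗ symq hG w.1.1 (β w) ∘ₗ
      res1 w.1.1 _
  haveI := finite_KT hp2 hG (plT hG T₀)
  have h1 := finrank_map_add_inf (KT hG (plT hG T₀)) Φ
  have h2 : Module.finrank (ZMod p)
      (KT hG (plT hG T₀) ⊓ LinearMap.ker Φ : Submodule _ _) ≤ 1 := by
    refine le_trans (Submodule.finrank_mono (t := Submodule.span (ZMod p) {a}) fun u hu => ?_)
      (le_of_eq (finrank_span_singleton ha))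
    obtain ⟨huT, hu0⟩ := Submodule.mem_inf.1 hu
    refine hker u huT fun w hw => by_contra fun h' => ?_
    exact coord_ram_unr_ne_zero hG (h₀.unr _ (hW w hw)) (h₀.ne_p (hW w hw))
      (unrO_of_KT h₀ huT (fun h'' => hW w hw (mem_plT.1 h'')) (hW w hw)) h' (hβ ⟨w, hw⟩)
      (congrFun (LinearMap.mem_ker.1 hu0) (⟨w, hw⟩ : ↥W))
  have h3 : Module.finrank (ZMod p) ((KT hG (plT hG T₀)).map Φ) ≤ W.card :=
    (Submodule.finrank_le _).trans_eq (by rw [Module.finrank_pi, Fintype.card_coe])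
  omega

open Classical in
/-- the second inequality -/
theorem second_ineq (hp2 : p ≠ 2) (hG : OpenMu p H) {T₀ : Finset Nat.Primes} (h₀ : GoodT hG T₀)
    {a : G1 p H} (ha : a ≠ 0) (haT : a ∈ KT hG (plT hG T₀)) :
    ∃ T : Finset (Pl H), Adm hG a T ∧ plT hG T₀ ⊆ T ∧
      (T.filter fun v => evP hG v a ≠ 0) = (plT hG T₀).filter (fun v => evP hG v a ≠ 0) ∧
      (∀ b ∈ KT hG T, ∀ v, v ∉ T.filter (fun v => evP hG v a ≠ 0) →
        loc2 hG (sym hG b a) v = 0) ∧
      (T.filter fun v => evP hG v a ≠ 0).card ≤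
        Module.finrank (ZMod p)
          ((KT hG T).map (theta hG a (T.filter fun v => evP hG v a ≠ 0))) + 1 := by
  obtain ⟨W, hW, hker, hcard⟩ := exists_aux_finset hp2 hG h₀ ha haT
  set T := plT hG T₀ ∪ W
  set S := T.filter fun v => evP hG v a ≠ 0
  have haT1 : a ∈ KT hG T := KT_mono hG Finset.subset_union_left haT
  have hS : S = (plT hG T₀).filter (fun v => evP hG v a ≠ 0) := by
    rw [show S = _ from Finset.filter_union _ _ _,
      Finset.filter_false_of_mem (s := W) fun w hw h => h (hW w hw).2, Finset.union_empty]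
  refine ⟨T, ⟨haT1, T₀, h₀, Finset.subset_union_left⟩, Finset.subset_union_left, hS,
    fun b hb v hv => ?_, ?_⟩
  · by_cases hv0 : evP hG v a = 0
    · exact loc2_sym_right hG b hv0
    have hvT : v ∉ T := fun h => hv (Finset.mem_filter.2 ⟨h, hv0⟩)
    exact loc2_sym_eq_zero_of_KT h₀ hb haT1 hvT
      fun h => hvT (Finset.mem_union_left _ (mem_plT.2 h))
  haveI := finite_KT hp2 hG T
  show S.card ≤ Module.finrank (ZMod p) ((KT hG T).map (theta hG a S)) + 1
  have h1 := local_ineq hG h₀.mem_p a (S := S) (fun v hv => by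
      rw [hS, Finset.mem_filter, mem_plT] at hv
      exact hv) (KT hG T)
    fun b hb h => aux_injective hp2 hG h₀ ha hW hker hcard hb h
  have h2 := le_card_aux hp2 hG h₀ ha (fun w hw => (hW w hw).1) hker
  have hV := finrank_KT hp2 hG T
  have hd := finrank_KT hp2 hG (plT hG T₀)
  have hev := (rank_fld hp2 hG).2
  have hT : T.card = (plT hG T₀).card + W.card := Finset.card_union_of_disjoint
    (Finset.disjoint_left.2 fun w hw hw' => (hW w hw').1 (mem_plT.1 hw))
  omega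

/-- the norm theorem: an everywhere locally trivial symbol is trivial -/
theorem sym_eq_zero_of_local (hp2 : p ≠ 2) (hG : OpenMu p H) (y a : G1 p H)
    (hloc : loc2 hG (sym hG y a) = 0) : sym hG y a = 0 := by
  classical
  rcases eq_or_ne a 0 with rfl | ha
  · rw [map_zero]
  obtain ⟨T₁, -, hg₁, hy₁⟩ := exists_good_mem hG ∅ y
  obtain ⟨T₀, hsub, h₀, haT⟩ := exists_good_mem hG T₁ a
  obtain ⟨T, hadm, hTsub, -, -, hsec⟩ := second_ineq hp2 hG h₀ ha haT
  obtain ⟨N, hN, hN0, hd⟩ := exists_normClasses hp2 hG ha hadm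
  haveI := finite_KT hp2 hG T
  set S := T.filter fun v => evP hG v a ≠ 0
  set K := KT hG T ⊓ LinearMap.ker (theta hG a S)
  haveI : Finite K := Finite.of_injective _ (Submodule.inclusion_injective inf_le_left)
  have hle : N ≤ K := le_inf hN fun b hb => LinearMap.mem_ker.2 (funext fun v => by
    rw [theta_apply, hN0 b hb, map_zero]; rfl)
  have h1 : Module.finrank (ZMod p) ((KT hG T).map (theta hG a S)) + Module.finrank (ZMod p) K =
      Module.finrank (ZMod p) (KT hG T) := finrank_map_add_inf (KT hG T) (theta hG a S)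
  have hNK : N = K := Submodule.eq_of_le_of_finrank_le hle (by omega)
  refine hN0 y (hNK ▸ Submodule.mem_inf.2 ⟨?_, LinearMap.mem_ker.2 (funext fun v => ?_)⟩)
  · refine KT_mono hG (fun v hv => hTsub (mem_plT.2 (hsub (mem_plT.1 hv)))) hy₁
  · rw [theta_apply, hloc]; rfl

end FLTAgent.PT
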