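import Fermat.Agent.PT.Global.GalAct
import Fermat.Agent.PT.Global.CharPerm

/-!
The logarithms and orders of the `T`-units span the functions on the places of `T` and on the
infinite places, up to the constants; the characteristic polynomial of a translation on the classes
of the `T`-units.
-/

set_option autoImplicit false
set_option linter.unusedSectionVars false
set_option linter.style.haveILetI false
set_option maxHeartbeats 1000000
set_option synthInstance.maxHeartbeats 100000

noncomputable section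

open CategoryTheory groupCohomology IntermediateField NumberField Polynomial

namespace FLTAgent.PT

variable {p : ℕ} [Fact p.Prime] {H : Subgroup GQ}

/-- the orbits of complex conjugation -/
abbrev OrbI (H : Subgroup GQ) : Type :=
  Quotient (MulAction.orbitRel (ExtCitation.archimedeanLoc).range (GQ ⧸ H))

theorem norm_embC_conj (x : GQ ⧸ H) (y : Fld H) :
    ‖embC (complexConjugation • x) y‖ = ‖embC x y‖ := by
  rw [embC_conj, ComplexEmbedding.conjugate_coe_eq, Complex.norm_conj]

theorem mk_embC_eq {x y : GQ ⧸ H}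
    (h : (MulAction.orbitRel (ExtCitation.archimedeanLoc).range (GQ ⧸ H)) x y) :
    InfinitePlace.mk (embC x) = InfinitePlace.mk (embC y) := by
  obtain ⟨⟨g, k, rfl⟩, rfl⟩ := h
  obtain ⟨n, hn⟩ := k.2
  show InfinitePlace.mk (embC ((k : GQ) • y)) = InfinitePlace.mk (embC y)
  rw [← hn]
  rcases n.even_or_odd with ⟨m, hm⟩ | ⟨m, hm⟩
  · show InfinitePlace.mk (embC (complexConjugation ^ n • y)) = _
    rw [hm, ← two_mul, zpow_mul, zpow_two, complexConjugation_mul_self, one_zpow, one_smul]
  · show InfinitePlace.mk (embC (complexConjugation ^ n • y)) = _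
    rw [hm, zpow_add, zpow_mul, zpow_two, complexConjugation_mul_self, one_zpow, one_mul, zpow_one,
      embC_conj, InfinitePlace.mk_conjugate_eq]

/-- the infinite place of an orbit -/
def placeI (O : OrbI H) : InfinitePlace (Fld H) :=
  Quotient.liftOn' O (fun x => InfinitePlace.mk (embC x)) fun _ _ h => mk_embC_eq h

theorem placeI_injective (hH : IsOpenSub (MonoidHom.id GQ) H) :
    Function.Injective (placeI : OrbI H → InfinitePlace (Fld H)) := by
  have hinj : Function.Injective (embC : GQ ⧸ H → (Fld H →+* ℂ)) := fun x y h =>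
    (emb_bijective hH).1 (AlgHom.ext fun z =>
      complexEmbedding.injective (RingHom.congr_fun h z))
  rintro ⟨x⟩ ⟨y⟩ h
  rcases InfinitePlace.mk_eq_iff.mp h with h1 | h1
  · exact congrArg _ (hinj h1)
  · rw [← embC_conj] at h1
    exact (Quotient.sound' (s₁ := MulAction.orbitRel (ExtCitation.archimedeanLoc).range (GQ ⧸ H))
      ⟨⟨complexConjugation, ExtCitation.archimedeanGen, rfl⟩, hinj h1⟩).symm

variable [NumberField ↥(Fld H)]

theorem placeI_bijective (hH : IsOpenSub (MonoidHom.id GQ) H) :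
    Function.Bijective (placeI : OrbI H → InfinitePlace (Fld H)) := by
  refine (placeI_injective hH).bijective_of_nat_card_le ?_
  rw [Nat.card_eq_fintype_card, ← orbInf_eq hH]
  rfl

/-- functions on the infinite places are spanned by the logarithms of units and the constants -/
theorem mem_span_log_units {K : Type*} [Field K] [NumberField K] (g : InfinitePlace K → ℝ) :
    g ∈ Submodule.span ℝ
      (insert (fun _ => 1) (Set.range fun (u : (𝓞 K)ˣ) (w : InfinitePlace K) => Real.log (w u))) := by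
  classical
  let w₀ : InfinitePlace K := Units.dirichletUnitTheorem.w₀
  let L : (InfinitePlace K → ℝ) →ₗ[ℝ] Units.dirichletUnitTheorem.logSpace K :=
    LinearMap.pi fun w => (InfinitePlace.mult w.1 : ℝ) • LinearMap.proj w.1
  let N : (InfinitePlace K → ℝ) →ₗ[ℝ] ℝ :=
    ∑ w, (InfinitePlace.mult w : ℝ) • LinearMap.proj w
  set S := Submodule.span ℝ
    (Set.range fun (u : (𝓞 K)ˣ) (w : InfinitePlace K) => Real.log (w u))
  have hN : S ≤ LinearMap.ker N := Submodule.span_le.2 (Set.range_subset_iff.2 fun u => by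
    simpa [N, LinearMap.sum_apply] using Units.sum_mult_mul_log u)
  have hL : S.map L = ⊤ := by
    rw [eq_top_iff, ← Units.dirichletUnitTheorem.unitLattice_span_eq_top K, Submodule.span_le]
    rintro _ ⟨x, -, rfl⟩
    refine ⟨_, Submodule.subset_span ⟨Additive.toMul x, rfl⟩, funext fun w => ?_⟩
    rfl
  have hpos : (0 : ℝ) < ∑ w : InfinitePlace K, (InfinitePlace.mult w : ℝ) :=
    Finset.sum_pos (fun w _ => Nat.cast_pos.2 InfinitePlace.mult_pos) Finset.univ_nonempty
  let o : InfinitePlace K → ℝ := fun _ => 1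
  set c : ℝ := N g / ∑ w : InfinitePlace K, (InfinitePlace.mult w : ℝ) with hc
  have hg0 : N (g - c • o) = 0 := by
    rw [map_sub, map_smul, show N o = ∑ w : InfinitePlace K, (InfinitePlace.mult w : ℝ) by
      simp [N, o, LinearMap.sum_apply], smul_eq_mul, hc, div_mul_cancel₀ _ hpos.ne', sub_self]
  obtain ⟨s, hs, hsL⟩ : L (g - c • o) ∈ S.map L := hL ▸ Submodule.mem_top
  have hz : g - c • o = s := by
    have hd : ∀ w, w ≠ w₀ → (g - c • o) w = s w := fun w hw => by
      have e := (congrFun hsL ⟨w, hw⟩).symm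
      exact mul_left_cancel₀ (Nat.cast_ne_zero.2 InfinitePlace.mult_ne_zero) e
    funext w
    rcases ne_or_eq w w₀ with h | rfl
    · exact hd w h
    have h0 : N (g - c • o - s) = 0 := by
      rw [map_sub, hg0, LinearMap.mem_ker.1 (hN hs), sub_self]
    simp only [N, LinearMap.sum_apply, LinearMap.smul_apply, LinearMap.proj_apply] at h0
    rw [Finset.sum_eq_single w₀ (fun w _ hw => by rw [Pi.sub_apply, hd w hw, sub_self, smul_zero])
      (fun h => absurd (Finset.mem_univ _) h), smul_eq_mul, mul_eq_zero] at h0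
    exact sub_eq_zero.1 (h0.resolve_left (Nat.cast_ne_zero.2 InfinitePlace.mult_ne_zero))
  rw [sub_eq_iff_eq_add] at hz
  rw [hz]
  exact add_mem (Submodule.span_mono (Set.subset_insert _ _) hs)
    (Submodule.smul_mem _ _ (Submodule.subset_span (Set.mem_insert _ _)))

/-- finite order elements are units of finite order -/
theorem exists_torsion_unit {K : Type*} [Field K] [NumberField K] {y : Kˣ} {k : ℤ} (hk : k ≠ 0)
    (h : y ^ k = 1) :
    ∃ u ∈ Units.torsion K, Units.map (algebraMap (𝓞 K) K : 𝓞 K →* K) u = y := by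
  have hv : ∀ v : Prm K, v.valuation K (y : K) = 1 := fun v => by
    refine (ordv_eq_zero_iff v y).1 ((mul_eq_zero.1 ?_).resolve_left hk)
    rw [← smul_eq_mul, ← map_zsmul, ← ofMul_zpow, h, ofMul_one, map_zero]
  obtain ⟨u, hu⟩ := exists_unit_of_ordv_eq_zero hv
  have he : Units.map (algebraMap (𝓞 K) K : 𝓞 K →* K) u = y := Units.ext hu
  refine ⟨u, ?_, he⟩
  refine (CommGroup.mem_torsion u).2 (isOfFinOrder_iff_zpow_eq_one.2 ⟨k, hk, ?_⟩)
  refine Units.map_injective (f := (algebraMap (𝓞 K) K : 𝓞 K →* K))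
    (FaithfulSMul.algebraMap_injective (𝓞 K) K) ?_
  rw [map_zpow, he, h, map_one]

section Main

variable [H.Normal] (hG : OpenMu p H) (T : Finset Nat.Primes)

/-- the `T`-units, additively -/
abbrev AT : Type := Additive ↥(TU (prs hG (plT hG T)))

/-- the places of `T` and the infinite places -/
abbrev Omega (H : Subgroup GQ) (T : Finset Nat.Primes) : Type :=
  OrbI H ⊕ {v : Pl H // v.1 ∈ T}

/-- the permutation of the places -/
def epsT (g : GQ) : Equiv.Perm (Omega H T) :=
  Equiv.sumCongr (orbRight ExtCitation.archimedeanLoc H g)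
    (sigmaPerm (fun q => orbRight (loc q) H g) T)

/-- logarithms and orders -/
def lamT : AT hG T →+ (Omega H T → ℝ) :=
  AddMonoidHom.mk' (fun a => Sum.elim
      (fun O => Real.log (placeI O (((Additive.toMul a : ↥(TU (prs hG (plT hG T)))) : (Fld H)ˣ) : Fld H)))
      fun v => (ord v.1 (Additive.ofMul ((Additive.toMul a : ↥(TU (prs hG (plT hG T)))) : (Fld H)ˣ)) : ℝ))
    fun a b => funext fun ω => by
      rcases ω with O | v
      · simp only [Sum.elim_inl, Pi.add_apply, toMul_add, Subgroup.coe_mul, Units.val_mul, map_mul]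
        exact Real.log_mul (by simp) (by simp)
      · simp only [Sum.elim_inr, Pi.add_apply, toMul_add, Subgroup.coe_mul, ofMul_mul, map_add,
          Int.cast_add]

theorem lamT_inl (a : AT hG T) (x : GQ ⧸ H) :
    lamT hG T a (Sum.inl (Quotient.mk'' x)) =
      Real.log ‖embC x (((Additive.toMul a : ↥(TU (prs hG (plT hG T)))) : (Fld H)ˣ) : Fld H)‖ := rfl

theorem lamT_inr (a : AT hG T) (v : {v : Pl H // v.1 ∈ T}) :
    lamT hG T a (Sum.inr v) =
      (ord v.1 (Additive.ofMul ((Additive.toMul a : ↥(TU (prs hG (plT hG T)))) : (Fld H)ˣ)) : ℝ) :=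
  rfl

theorem sigU_mem_TU (g : GQ) {y : (Fld H)ˣ} (hy : y ∈ TU (prs hG (plT hG T))) :
    sigU g y ∈ TU (prs hG (plT hG T)) :=
  mem_TU_prs.2 fun v hv => by
    rw [ord_sigU]
    exact mem_TU_prs.1 hy _ fun h => hv (mem_plT.2
      (show v.1 ∈ T from (mem_plT (hG := hG) (v := placeRight H g v)).1 h))

/-- the translation of the `T`-units -/
def sigA (g : GQ) : AT hG T →+ AT hG T :=
  MonoidHom.toAdditive (((sigU (H := H) g).comp (TU (prs hG (plT hG T))).subtype).codRestrict _
    fun y => sigU_mem_TU hG T g y.2)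

theorem lamT_sigA (g : GQ) (a : AT hG T) :
    lamT hG T (sigA hG T g a) = lamT hG T a ∘ epsT T g := by
  funext ω
  rcases ω with O | v
  · induction O using Quotient.inductionOn' with
    | h x => ?_
    show Real.log ‖embC x (sigF g _)‖ = Real.log ‖embC (x * (g : GQ ⧸ H)) _‖
    rw [show embC x (sigF g _) = complexEmbedding (emb x (sigF g _)) from rfl, emb_sigF]
    rfl
  · show ((ord v.1 (Additive.ofMul (sigU g _)) : ℤ) : ℝ) = _
    rw [ord_sigU]
    rfl

include hG in
theorem epsT_finite : Finite (Omega H T) := by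
  haveI := hG.finite
  haveI := fun q => hG.finite_orb q
  haveI := finite_sigma_mem (Z := fun q => Orb q H) T
  infer_instance

/-- the constant function on the infinite places -/
def eInf : Omega H T → ℝ := Sum.elim (fun _ => 1) fun _ => 0

theorem span_lamT :
    Submodule.span ℝ (insert (eInf T) (Set.range (lamT hG T))) = ⊤ := by
  classical
  haveI := epsT_finite hG T
  letI := Fintype.ofFinite (Omega H T)
  haveI := fun q => hG.finite_orb q
  haveI := finite_sigma_mem (Z := fun q => Orb q H) T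
  letI := Fintype.ofFinite {v : Pl H // v.1 ∈ T}
  set S := Submodule.span ℝ (insert (eInf T) (Set.range (lamT hG T))) with hS
  -- the infinite part
  let J : (InfinitePlace (Fld H) → ℝ) →ₗ[ℝ] (Omega H T → ℝ) :=
    { toFun := fun g => Sum.elim (fun O => g (placeI O)) fun _ => 0
      map_add' := fun g g' => funext fun ω => by rcases ω with O | v <;> simp
      map_smul' := fun c g => funext fun ω => by rcases ω with O | v <;> simp }
  have hJ : ∀ g, J g ∈ S := by
    intro g
    refine (Submodule.span_le.2 ?_ : Submodule.span ℝ _ ≤ S.comap J) (mem_span_log_units g)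
    rintro _ (rfl | ⟨u, rfl⟩)
    · exact Submodule.subset_span (Or.inl rfl)
    · refine Submodule.subset_span (Or.inr ⟨unitsTU _ (Additive.ofMul u), funext fun ω => ?_⟩)
      rcases ω with O | v
      · rfl
      · show ((ord v.1 _ : ℤ) : ℝ) = 0
        rw [Int.cast_eq_zero]
        exact (ordv_eq_zero_iff _ _).mpr (by
          rw [← IsDedekindDomain.HeightOneSpectrum.valuationOfNeZero_eq]
          exact congrArg _ ((pr v.1).valuation_of_unit_eq (K := Fld H) u))
  have hinl : ∀ f : Omega H T → ℝ, (∀ v, f (Sum.inr v) = 0) → f ∈ S := fun f hf => by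
    have e : f = J fun w => f (Sum.inl ((Equiv.ofBijective _ (placeI_bijective hG.opn)).symm w)) :=
      funext fun ω => by
        rcases ω with O | v
        · show f (Sum.inl O) = f (Sum.inl _)
          rw [show (Equiv.ofBijective _ (placeI_bijective hG.opn)).symm (placeI O) = O from
            (Equiv.ofBijective _ (placeI_bijective hG.opn)).symm_apply_apply O]
        · exact hf v
    rw [e]
    exact hJ _
  have hsingle : ∀ v : {v : Pl H // v.1 ∈ T}, (Pi.single (Sum.inr v) 1 : Omega H T → ℝ) ∈ S := by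
    intro v
    obtain ⟨x, hx, hxv⟩ := exists_supported (pr v.1)
    have hxT : x ∈ TU (prs hG (plT hG T)) := mem_TU.2 fun w hw => hx w fun e => hw (by
      rw [e]; exact pr_mem_prs.2 (mem_plT.2 v.2))
    set a : AT hG T := Additive.ofMul ⟨x, hxT⟩
    set n : ℝ := (ord v.1 (Additive.ofMul x) : ℝ) with hn
    have hn0 : n ≠ 0 := fun h => hxv ((ordv_eq_zero_iff _ _).1 (Int.cast_eq_zero.1 h))
    have h1 : n • (Pi.single (Sum.inr v) 1 : Omega H T → ℝ) ∈ S := by
      have h2 : lamT hG T a - n • (Pi.single (Sum.inr v) 1 : Omega H T → ℝ) ∈ S := hinl _ fun w => by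
        rcases eq_or_ne w v with rfl | hwv
        · simp [lamT_inr, hn, a]
        · rw [Pi.sub_apply, Pi.smul_apply, Pi.single_eq_of_ne (fun e => hwv (Sum.inr.inj e)),
            smul_zero, sub_zero, lamT_inr, Int.cast_eq_zero]
          exact (ordv_eq_zero_iff _ _).2 (hx _ fun e =>
            hwv (Subtype.ext (pr_injective hG e)))
      have h3 := S.sub_mem (Submodule.subset_span (Or.inr ⟨a, rfl⟩)) h2
      rwa [sub_sub_cancel] at h3
    have h4 := S.smul_mem n⁻¹ h1
    rwa [smul_smul, inv_mul_cancel₀ hn0, one_smul] at h4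
  refine eq_top_iff.2 fun f _ => ?_
  have h1 : (f - ∑ v : {v : Pl H // v.1 ∈ T}, f (Sum.inr v) • Pi.single (Sum.inr v) (1 : ℝ)) ∈ S :=
    hinl _ fun v => by
      rw [Pi.sub_apply, Finset.sum_apply, Finset.sum_eq_single v
        (fun w _ hw => by rw [Pi.smul_apply, Pi.single_eq_of_ne (fun e => hw.symm (Sum.inr.inj e)),
          smul_zero])
        (fun h => absurd (Finset.mem_univ _) h), Pi.smul_apply, Pi.single_eq_same, smul_eq_mul,
        mul_one, sub_self]
  have h2 : (∑ v : {v : Pl H // v.1 ∈ T}, f (Sum.inr v) • Pi.single (Sum.inr v) (1 : ℝ)) ∈ S :=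
    sum_mem fun v _ => S.smul_mem _ (hsingle v)
  simpa using S.add_mem h1 h2

theorem card_omega : Nat.card (Omega H T) =
    Module.finrank ℤ (AT hG T) + 1 := by
  haveI := hG.finite
  haveI := fun q => hG.finite_orb q
  haveI := finite_sigma_mem (Z := fun q => Orb q H) T
  have h1 : Nat.card (OrbI H) = Fintype.card (InfinitePlace (Fld H)) := orbInf_eq hG.opn
  have h2 : Nat.card {v : Pl H // v.1 ∈ T} = (prs hG (plT hG T)).card := by
    rw [prs, Finset.card_map, ← Nat.card_eq_finsetCard]
    exact Nat.card_congr (Equiv.subtypeEquivRight fun v => mem_plT.symm)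
  have h3 : 0 < Fintype.card (InfinitePlace (Fld H)) := Fintype.card_pos
  rw [Nat.card_sum, h1, h2, (finite_finrank_TU _).2, Units.rank]
  omega

/-- the characteristic polynomial of a translation on the classes of the `T`-units -/
theorem charpoly_KT (hp2 : p ≠ 2) (g : GQ) [Module.Finite (ZMod p) (KT hG (plT hG T))]
    (h : ∀ x ∈ KT hG (plT hG T), h1push (MonoidHom.id GQ) (indRight H (mu p) g)
      (fun k f => indRight_eqv H (mu p) g k f) x ∈ KT hG (plT hG T)) :
    haveI := epsT_finite (p := p) hG T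
    LinearMap.charpoly ((h1push (MonoidHom.id GQ) (indRight H (mu p) g)
        (fun k f => indRight_eqv H (mu p) g k f)).restrict h) * (X - 1) =
      (X - C (ExtCitation.cycloChar p g : ZMod p)) *
        (permPoly (epsT (H := H) T g)).map (Int.castRingHom (ZMod p)) := by
  classical
  haveI := epsT_finite hG T
  letI := Fintype.ofFinite (Omega H T)
  haveI : NeZero p := ⟨(Fact.out : p.Prime).ne_zero⟩
  set U := TU (prs hG (plT hG T))
  haveI := (finite_finrank_TU (prs hG (plT hG T))).1
  set r := Module.finrank ℤ (AT hG T) with hr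
  -- lifts of a basis modulo torsion
  set tA := Submodule.torsion ℤ (AT hG T)
  have hQ : Module.finrank ℤ (AT hG T ⧸ tA) = r := by
    have h0 : Module.finrank ℤ tA = 0 := Module.finrank_eq_zero_iff.2 fun x => by
      obtain ⟨k, hk⟩ := (Submodule.mem_torsion_iff _).1 x.2
      exact ⟨(k : ℤ), nonZeroDivisors.coe_ne_zero k, Subtype.ext hk⟩
    have := Submodule.finrank_quotient_add_finrank tA
    omega
  haveI : Module.IsTorsionFree ℤ (AT hG T ⧸ tA) := inferInstance
  haveI : Module.Free ℤ (AT hG T ⧸ tA) := Module.free_of_finite_type_torsion_free'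
  let b := Module.finBasisOfFinrankEq ℤ (AT hG T ⧸ tA) hQ
  choose bl hbl using fun i => Submodule.mkQ_surjective tA (b i)
  have hdec : ∀ a : AT hG T, a - ∑ i, b.repr (tA.mkQ a) i • bl i ∈ tA := fun a => by
    rw [← Submodule.Quotient.mk_eq_zero, ← Submodule.mkQ_apply, map_sub, map_sum]
    simp only [map_zsmul, hbl]
    rw [b.sum_repr, sub_self]
  let M : Matrix (Fin r) (Fin r) ℤ := Matrix.of fun j i => b.repr (tA.mkQ (sigA hG T g (bl i))) j
  -- torsion dies in the logarithms
  have hlam : ∀ a ∈ tA, lamT hG T a = 0 := fun a ha => by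
    obtain ⟨k, hk⟩ := (Submodule.mem_torsion_iff _).1 ha
    have e := congrArg (lamT hG T) (show (k : ℤ) • a = 0 from hk)
    rw [map_zsmul, map_zero, smul_eq_zero] at e
    exact e.resolve_left (nonZeroDivisors.coe_ne_zero k)
  have hlam' : ∀ a, lamT hG T a = ∑ i, (b.repr (tA.mkQ a) i : ℝ) • lamT hG T (bl i) := fun a => by
    have e := hlam _ (hdec a)
    rw [map_sub, map_sum, sub_eq_zero] at e
    refine e.trans (Finset.sum_congr rfl fun i _ => ?_)
    rw [map_zsmul, Int.cast_smul_eq_zsmul]
  -- the real basis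
  let w : Fin r ⊕ Unit → (Omega H T → ℝ) := Sum.elim (fun i => lamT hG T (bl i)) fun _ => eInf T
  have hwtop : ⊤ ≤ Submodule.span ℝ (Set.range w) := by
    rw [← span_lamT hG T, Submodule.span_le]
    rintro _ (rfl | ⟨a, rfl⟩)
    · exact Submodule.subset_span ⟨Sum.inr (), rfl⟩
    · rw [hlam' a]
      exact sum_mem fun i _ => Submodule.smul_mem _ _ (Submodule.subset_span ⟨Sum.inl i, rfl⟩)
  have hwcard : Fintype.card (Fin r ⊕ Unit) = Module.finrank ℝ (Omega H T → ℝ) := by
    rw [Fintype.card_sum, Fintype.card_fin, Fintype.card_unit, Module.finrank_pi,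
      ← Nat.card_eq_fintype_card, card_omega hG T, hr]
  let B := basisOfTopLeSpanOfCardEqFinrank w hwtop hwcard
  have hB : ∀ j, B j = w j := fun j => by rw [coe_basisOfTopLeSpanOfCardEqFinrank]
  have hreal := charpoly_of_line B (LinearMap.funLeft ℝ ℝ (epsT T g)) (M.map (Int.castRingHom ℝ))
    (fun _ => 0) 1 (fun i => by
      rw [hB]
      show lamT hG T (bl i) ∘ epsT T g = _
      rw [← lamT_sigA, hlam', zero_smul, add_zero]
      refine Finset.sum_congr rfl fun j _ => ?_
      rw [hB]
      rfl)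
    (by
      rw [hB, one_smul]
      funext ω
      rcases ω with O | v <;> rfl)
  have hint : M.charpoly * (X - 1) = permPoly (epsT (H := H) T g) := by
    apply Polynomial.map_injective (Int.castRingHom ℝ) Int.cast_injective
    rw [← charpoly_funLeft_perm ℝ, hreal, Polynomial.map_mul, ← Matrix.charpoly_map,
      Polynomial.map_sub, Polynomial.map_X, Polynomial.map_one, map_one]
  -- the classes
  set R := h1push (MonoidHom.id GQ) (indRight H (mu p) g) (fun k f => indRight_eqv H (mu p) g k f)
  let kA : AT hG T →+ G1 p H := (kappa hG).comp (MonoidHom.toAdditive U.subtype)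
  have hkA : ∀ a, kA a ∈ KT hG (plT hG T) := fun a =>
    mem_KT.2 ⟨_, mem_TU_prs.1 (Additive.toMul a).2, rfl⟩
  have hkR : ∀ a, R (kA a) = kA (sigA hG T g a) := fun a =>
    kappa_sigU hG g ((Additive.toMul a : ↥U) : (Fld H)ˣ)
  -- torsion
  obtain ⟨t, ht⟩ := IsCyclic.exists_generator (α := Units.torsion (Fld H))
  set tK : (Fld H)ˣ := Units.map (algebraMap (𝓞 (Fld H)) (Fld H) : 𝓞 (Fld H) →* Fld H) t.1
  set κt := kappa hG (Additive.ofMul tK)
  have htor : ∀ (y : (Fld H)ˣ) (k : ℤ), k ≠ 0 → y ^ k = 1 → ∃ m : ℤ, tK ^ m = y := by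
    intro y k hk hy
    obtain ⟨u, hu, rfl⟩ := exists_torsion_unit hk hy
    obtain ⟨m, hm⟩ := ht ⟨u, hu⟩
    exact ⟨m, by rw [← map_zpow]; exact congrArg _ (congrArg Subtype.val hm)⟩
  have htf : ∃ k : ℤ, k ≠ 0 ∧ tK ^ k = 1 := by
    obtain ⟨k, hk, hk'⟩ := isOfFinOrder_iff_zpow_eq_one.1 ((CommGroup.mem_torsion _).1 t.2)
    exact ⟨k, hk, by rw [← map_zpow, hk', map_one]⟩
  have hkt : ∀ a ∈ tA, ∃ m : ZMod p, kA a = m • κt := fun a ha => by
    obtain ⟨k, hk⟩ := (Submodule.mem_torsion_iff _).1 ha
    have h1 : ((Additive.toMul a : ↥U) : (Fld H)ˣ) ^ (k : ℤ) = 1 :=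
      congrArg (fun z : AT hG T => ((Additive.toMul z : ↥U) : (Fld H)ˣ))
        (show (k : ℤ) • a = 0 from hk)
    obtain ⟨m, hm⟩ := htor _ _ (nonZeroDivisors.coe_ne_zero k) h1
    refine ⟨(m : ZMod p), ?_⟩
    show kappa hG (Additive.ofMul ((Additive.toMul a : ↥U) : (Fld H)ˣ)) = _
    rw [← hm, ofMul_zpow, map_zsmul, Int.cast_smul_eq_zsmul]
  obtain ⟨kt, hkt0, hkt1⟩ := htf
  have htT : tK ∈ U := mem_TU.2 fun v _ => by
    refine (ordv_eq_zero_iff v tK).1 ((mul_eq_zero.1 ?_).resolve_left hkt0)
    rw [← smul_eq_mul, ← map_zsmul, ← ofMul_zpow, hkt1, ofMul_one, map_zero]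
  have hkA' : ∀ a, ∃ m : ZMod p,
      kA a = ∑ i, (b.repr (tA.mkQ a) i : ZMod p) • kA (bl i) + m • κt := fun a => by
    obtain ⟨m, hm⟩ := hkt _ (hdec a)
    refine ⟨m, ?_⟩
    rw [map_sub, map_sum, sub_eq_iff_eq_add'] at hm
    rw [hm]
    congr 1
    refine Finset.sum_congr rfl fun i _ => ?_
    rw [map_zsmul, Int.cast_smul_eq_zsmul]
  choose c hc using fun i => hkA' (sigA hG T g (bl i))
  -- the eigenvalue on the roots of unity
  have heig : R κt = (ExtCitation.cycloChar p g : ZMod p) • κt := by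
    show R (kappa hG (Additive.ofMul tK)) = _
    rw [kappa_sigU]
    obtain ⟨k, hk⟩ := htor (sigU g tK) kt hkt0 (by rw [← map_zpow, hkt1, map_one])
    set ζ : (Fld H)ˣ := Units.mk0 ⟨zeta p, mem_fld.2 fun _ hh => hG.fix_zeta hh⟩
      fun e => zeta_ne_zero (congrArg Subtype.val e)
    have hζp : orderOf ζ = p := by
      rw [← orderOf_units]
      exact ((isPrimitiveRoot_zeta_fld hG).eq_orderOf).symm
    obtain ⟨j, hj⟩ := htor ζ p (by exact_mod_cast NeZero.ne p)
      (by rw [zpow_natCast, ← hζp, pow_orderOf_eq_one])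
    set χ := (ExtCitation.cycloChar p g : ZMod p)
    have e1 : sigU g ζ = ζ ^ (χ.val : ℤ) := by
      rw [zpow_natCast]
      refine Units.ext (Subtype.ext ?_)
      rw [Units.val_pow_eq_pow_val, SubmonoidClass.coe_pow]
      exact gal_zeta g
    have e2 : sigU g ζ = ζ ^ k := by
      rw [← hj, map_zpow, ← hk, ← zpow_mul, ← zpow_mul, mul_comm]
    have e3 : (k : ZMod p) = χ := by
      have h5 := zpow_eq_zpow_iff_modEq.1 (e2.symm.trans e1)
      rw [hζp, ← ZMod.intCast_eq_intCast_iff, Int.cast_natCast, ZMod.natCast_zmod_val] at h5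
      exact h5
    rw [← hk, ofMul_zpow, map_zsmul, ← e3, Int.cast_smul_eq_zsmul]
  -- the basis over `ZMod p`
  let u : Fin r ⊕ Unit → KT hG (plT hG T) :=
    Sum.elim (fun i => ⟨kA (bl i), hkA _⟩) fun _ => ⟨κt, mem_KT.2 ⟨tK, mem_TU_prs.1 htT, rfl⟩⟩
  have hutop : ⊤ ≤ Submodule.span (ZMod p) (Set.range u) := fun x _ => by
    obtain ⟨y, hy, hyx⟩ := mem_KT.1 x.2
    obtain ⟨m, hm⟩ := hkA' (Additive.ofMul ⟨y, mem_TU_prs.2 hy⟩)
    have e : x = ∑ i, (b.repr (tA.mkQ (Additive.ofMul ⟨y, mem_TU_prs.2 hy⟩)) i : ZMod p) •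
        u (Sum.inl i) + m • u (Sum.inr ()) := Subtype.ext (by
      rw [← hyx, Submodule.coe_add, Submodule.coe_sum]
      exact hm)
    rw [e]
    exact add_mem (sum_mem fun i _ => Submodule.smul_mem _ _ (Submodule.subset_span ⟨_, rfl⟩))
      (Submodule.smul_mem _ _ (Submodule.subset_span ⟨_, rfl⟩))
  have hucard : Fintype.card (Fin r ⊕ Unit) = Module.finrank (ZMod p) (KT hG (plT hG T)) := by
    have h1 := finrank_KT hp2 hG (plT hG T)
    have h2 := (nrComplex_eq hp2 hG).2
    have h3 := orbInf_eq hG.opn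
    have h4 : 0 < Fintype.card (InfinitePlace (Fld H)) := Fintype.card_pos
    rw [Fintype.card_sum, Fintype.card_fin, Fintype.card_unit, h1, hr,
      (finite_finrank_TU _).2, Units.rank, prs, Finset.card_map]
    omega
  let B' := basisOfTopLeSpanOfCardEqFinrank u hutop hucard
  have hB' : ∀ j, B' j = u j := fun j => by rw [coe_basisOfTopLeSpanOfCardEqFinrank]
  have hmod := charpoly_of_line B' (R.restrict h) (M.map (Int.castRingHom (ZMod p))) c
    (ExtCitation.cycloChar p g : ZMod p) (fun i => Subtype.ext (by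
      simp only [hB', Submodule.coe_add, Submodule.coe_sum, Submodule.coe_smul]
      show R (kA (bl i)) = _
      rw [hkR, hc i]
      rfl))
    (Subtype.ext (by
      simp only [hB', Submodule.coe_smul]
      exact heig))
  rw [hmod, ← hint, Polynomial.map_mul, ← Matrix.charpoly_map, Polynomial.map_sub,
    Polynomial.map_X, Polynomial.map_one]
  ring

end Main

end FLTAgent.PT
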